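import Fermat.Agent.GTor.Clo.H72_RatioCore

/-!
# G-TOR, WP Ratio, the point half (helper72): `wN_of_isRatio`

For `f ∈ F_ℂ`, `f ≠ 0`, `f = A / B` as `q`-expansions: the valuation of the closure at `z ∈ ℍ`
of `f` is `exp (-(ord_z A - ord_z B))`.
-/

set_option autoImplicit false

noncomputable section

namespace Fermat.Agent.GTor.Clo

open Fermat.Agent.S24 Fermat.Agent.GTor

open ModularCurve AlgebraicCurve UpperHalfPlane WithZero
open scoped MatrixGroups Manifold ModularForm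

/-- A modular form, as an element of `Hol`. -/
def h72_mfHol (N : ℕ) {k : ℤ} (A : ModularForm (CongruenceSubgroup.Gamma0 N) k) : Hol :=
  ⟨(A : ℍ → ℂ), A.holo'⟩

theorem h72_mfHol_apply (N : ℕ) {k : ℤ} (A : ModularForm (CongruenceSubgroup.Gamma0 N) k)
    (τ : ℍ) : ((h72_mfHol N A : Hol) : ℍ → ℂ) τ = A τ := rfl

theorem h72_mfHol_ne_zero (N : ℕ) {k : ℤ} {A : ModularForm (CongruenceSubgroup.Gamma0 N) k}
    (hA : A ≠ 0) : h72_mfHol N A ≠ 0 := by
  intro h0
  apply hA
  ext τ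
  have := congrArg (fun g : Hol => (g : ℍ → ℂ) τ) h0
  exact this

theorem h72_ordAt_eq (N : ℕ) {k : ℤ} (A : ModularForm (CongruenceSubgroup.Gamma0 N) k) (z : ℍ) :
    ordAt (A : ℍ → ℂ) z = (Hol.ordNat z (h72_mfHol N A) : ℤ) := rfl

/-- The core identity, in `Hol`. -/
theorem h72_ratio_core_hol (N : ℕ) [NeZero N] (f : FN N) {k : ℤ}
    (A B : ModularForm (CongruenceSubgroup.Gamma0 N) k) (h : IsRatio N (h72_toFNL N f) A B)
    (a b : AT N) (hb : b ≠ 0)
    (hab : phi N f = algebraMap (AT N) (LN N) a / algebraMap (AT N) (LN N) b) :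
    valAT N a * h72_mfHol N B = valAT N b * h72_mfHol N A := by
  apply Subtype.ext
  funext τ
  exact h72_ratio_core N f A B h a b hb hab τ

theorem h72_valAT_ne_zero (N : ℕ) {a : AT N} (ha : a ≠ 0) : valAT N a ≠ 0 :=
  fun h0 => ha (valAT_injective N (by rw [h0, map_zero]))

/-- **WP Ratio, point half.** -/
theorem h72_wN_of_isRatio (N : ℕ) [NeZero N] (z : ℍ) (f : FN N) (hf : f ≠ 0) (k : ℤ)
    (A B : ModularForm (CongruenceSubgroup.Gamma0 N) k) (h : IsRatio N (h72_toFNL N f) A B) :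
    wN N z (algebraMap (FN N) (LN N) f) = exp (-(ordAt A z - ordAt B z)) := by
  obtain ⟨a, b, hbmem, hab⟩ := IsFractionRing.div_surjective (A := AT N) (phi N f)
  have hb : b ≠ 0 := nonZeroDivisors.ne_zero hbmem
  have hb' : algebraMap (AT N) (LN N) b ≠ 0 :=
    IsFractionRing.to_map_ne_zero_of_mem_nonZeroDivisors hbmem
  have hphi : phi N f ≠ 0 := by
    intro h0
    exact hf ((phi N).toRingHom.injective (by rw [AlgHom.toRingHom_eq_coe, RingHom.coe_coe, h0,
      map_zero]))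
  have ha : a ≠ 0 := by
    intro h0
    rw [h0, map_zero, zero_div] at hab
    exact hphi hab.symm
  have hcore := h72_ratio_core_hol N f A B h a b hb hab.symm
  have hB : B ≠ 0 := h.1
  have hBh := h72_mfHol_ne_zero N hB
  have hah := h72_valAT_ne_zero N ha
  have hbh := h72_valAT_ne_zero N hb
  have hAh : h72_mfHol N A ≠ 0 := by
    intro h0
    rw [h0, mul_zero] at hcore
    exact mul_ne_zero hah hBh hcore
  have hord := congrArg (Hol.ordNat z) hcore
  rw [Hol.ordNat_mul z hah hBh, Hol.ordNat_mul z hbh hAh] at hord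
  rw [algebraMap_FN_LN, ← hab, map_div₀, wN_algebraMap_AT, wN_algebraMap_AT, wAT_apply,
    wAT_apply, Hol.ordVal_apply z hah, Hol.ordVal_apply z hbh, h72_ordAt_eq, h72_ordAt_eq,
    ← WithZero.exp_sub]
  congr 1
  have hordZ : (Hol.ordNat z (valAT N a) : ℤ) + (Hol.ordNat z (h72_mfHol N B) : ℤ)
      = (Hol.ordNat z (valAT N b) : ℤ) + (Hol.ordNat z (h72_mfHol N A) : ℤ) := by
    exact_mod_cast hord
  linarith

end Fermat.Agent.GTor.Clo
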