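/-
helper96: WP Ratio, cusp half (`winfN_of_isRatio`): the valuation of the Galois closure at the
cusp `σ∞` on a ratio of modular forms.

* `hasUExp_ofPowerSeries`, `hasUExp_qExpand`: expansions in `u = exp (2 π i τ / N)` from
  Mathlib's `q`-expansions;
* `ratio_core`: `a * B = b * A` on `ℍ` when `phi f = a / b` and `f = A / B`;
* `winfN_of_isRatio_cusp`: the statement of `Clo/Ratio.lean`.
-/
import Fermat.Agent.GTor.Clo.Final
import Fermat.Agent.GTor.Defs
import Fermat.Agent.GTor.H96_MonoAux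
import Fermat.Prelude.Thm_CongruenceSubgroup_one_mem_strictPeriods_Gamma0

set_option autoImplicit false

noncomputable section

namespace Fermat.Agent.GTor.Clo.H96

open Fermat.Agent.S24 Fermat.Agent.GTor Fermat.Agent.GTor.Clo

open ModularCurve AlgebraicCurve UpperHalfPlane WithZero
open scoped MatrixGroups Manifold ModularForm

/-- A power-series expansion in `𝕢 N` is an expansion in the sense of `HasUExp`. -/
theorem hasUExp_ofPowerSeries (N : ℕ) (X : ℍ → ℂ) (P : PowerSeries ℂ)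
    (h : ∀ τ : ℍ, HasSum (fun m : ℕ => (PowerSeries.coeff m P) • Function.Periodic.qParam (N : ℝ) (τ : ℂ) ^ m) (X τ)) :
    HasUExp N X (HahnSeries.ofPowerSeries ℤ ℂ P) := by
  intro τ
  have hinj : Function.Injective (fun n : ℕ => (n : ℤ)) := Nat.cast_injective
  refine (hinj.hasSum_iff ?_).mp ?_
  · intro m hm
    have hneg : m < 0 := by
      by_contra hcon
      apply hm
      exact ⟨m.toNat, Int.toNat_of_nonneg (not_lt.mp hcon)⟩
    rw [ofPowerSeries_coeff_of_neg _ hneg, zero_mul]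
  · have hfun : ((fun n : ℤ => (HahnSeries.ofPowerSeries ℤ ℂ P).coeff n * uPar N τ ^ n) ∘
        fun n : ℕ => (n : ℤ))
        = fun m : ℕ => (PowerSeries.coeff m P) • Function.Periodic.qParam (N : ℝ) (τ : ℂ) ^ m := by
      funext m
      show (HahnSeries.ofPowerSeries ℤ ℂ P).coeff (m : ℤ) * uPar N τ ^ (m : ℤ) = _
      rw [HahnSeries.ofPowerSeries_apply_coeff, zpow_natCast, smul_eq_mul]
      rfl
    rw [hfun]
    exact h τ

/-- An expansion in `q` is an expansion in `u = q ^ (1 / N)`. -/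
theorem hasUExp_qExpand (N : ℕ) [NeZero N] {X : ℍ → ℂ} {c : LaurentSeries ℂ}
    (h : HasUExp 1 X c) : HasUExp N X (qExpand ℂ N c) := by
  intro τ
  have hN : (N : ℤ) ≠ 0 := by exact_mod_cast NeZero.ne N
  have hinj : Function.Injective (fun n : ℤ => (N : ℤ) * n) := mul_right_injective₀ hN
  refine (hinj.hasSum_iff ?_).mp ?_
  · intro m hm
    have hnd : ¬ (N : ℤ) ∣ m := by
      rintro ⟨n, rfl⟩
      exact hm ⟨n, rfl⟩
    rw [qExpand_coeff_of_not_dvd N c hnd, zero_mul]
  · have hfun : ((fun n : ℤ => (qExpand ℂ N c).coeff n * uPar N τ ^ n) ∘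
        fun n : ℤ => (N : ℤ) * n) = fun n : ℤ => c.coeff n * uPar 1 τ ^ n := by
      funext n
      show (qExpand ℂ N c).coeff ((N : ℤ) * n) * uPar N τ ^ ((N : ℤ) * n) = _
      rw [qExpand_coeff_mul, zpow_mul, zpow_natCast, uPar_pow]
    rw [hfun]
    exact h τ

/-- A cusp-regular function has an expansion in `u`. -/
theorem hasUExp_of_isCuspRegular (N : ℕ) [NeZero N] {X : ℍ → ℂ}
    (hX : Fermat.Agent.GTor.H96.IsCuspRegular (N : ℝ) X) :
    HasUExp N X (HahnSeries.ofPowerSeries ℤ ℂ (qExpansion (N : ℝ) X)) := by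
  apply hasUExp_ofPowerSeries
  intro τ
  exact UpperHalfPlane.hasSum_qExpansion (Nat.cast_pos.mpr (NeZero.pos N)) hX.per hX.hol hX.bdd τ

/-- The `q`-expansion of a modular form on `Γ₀(N)`, in the parameter `u`. -/
theorem hasUExp_modularForm (N : ℕ) [NeZero N] {k : ℤ}
    (A : ModularForm (CongruenceSubgroup.Gamma0 N) k) :
    HasUExp N (A : ℍ → ℂ) (qExpand ℂ N (qLaurent A)) := by
  apply hasUExp_qExpand
  have hX : Fermat.Agent.GTor.H96.IsCuspRegular ((1 : ℕ) : ℝ) ((A : ℍ → ℂ)) := by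
    rw [Nat.cast_one]
    exact ⟨SlashInvariantFormClass.periodic_comp_ofComplex A
      (CongruenceSubgroup.one_mem_strictPeriods_Gamma0 N), A.holo',
      ModularFormClass.bdd_at_infty A⟩
  have h := hasUExp_of_isCuspRegular 1 hX
  rw [Nat.cast_one] at h
  exact h

/-- `iotaC` is the identity, so `coeffMap iotaC` is the identity. -/
theorem coeffMap_iotaC_id (c : LaurentSeries Kbar) : coeffMap iotaC c = c := by
  ext n
  rfl

/-- The expansion of an element of `AT N`, as a Laurent series over `ℂ`. -/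
def uExpC (N : ℕ) [NeZero N] (a : AT N) : LaurentSeries ℂ := uExpT N a

/-- The expansion of an element of `AT N`. -/
theorem hasUExp_valAT (N : ℕ) [NeZero N] (a : AT N) :
    HasUExp N ((valAT N a : Hol) : ℍ → ℂ) (uExpC N a) := by
  have h := uExp_spec N ((toAT N).symm a)
  rw [coeffMap_iotaC_id] at h
  exact h

/-- The identification of the two names of the function field over `ℂ`
(same as `Clo.toFNL` of `Clo/Ratio.lean`). -/
def toFNLc (N : ℕ) (f : FN N) : FNL ℂ N := f

/-- **Core of WP Ratio**, on expansions: if `phi f = a / b` and `f = A / B` then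
`a * B` and `b * A` have the same expansion. -/
theorem ratio_core_series (N : ℕ) [NeZero N] (f : FN N) {k : ℤ}
    (A B : ModularForm (CongruenceSubgroup.Gamma0 N) k)
    (h : qLaurent A = ((toFNLc N f : FNL ℂ N) : LaurentSeries ℂ) * qLaurent B) (a b : AT N)
    (hab : phi N f * algebraMap (AT N) (LN N) b = algebraMap (AT N) (LN N) a) :
    uExpC N a * qExpand ℂ N (qLaurent B) = uExpC N b * qExpand ℂ N (qLaurent A) := by
  have h1 : qN N f * uExpT N b = uExpT N a := by
    have := congrArg (UL N) hab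
    rwa [map_mul, UL_phi, UL_algebraMap, UL_algebraMap] at this
  have h1' : qExpand ℂ N ((toFNLc N f : FNL ℂ N) : LaurentSeries ℂ) * uExpC N b = uExpC N a := h1
  rw [h, ← h1', map_mul]
  ring

/-- **Core of WP Ratio**: if `phi f = a / b` and `f = A / B` then `a * B = b * A` on `ℍ`. -/
theorem ratio_core (N : ℕ) [NeZero N] (f : FN N) {k : ℤ}
    (A B : ModularForm (CongruenceSubgroup.Gamma0 N) k)
    (h : qLaurent A = ((toFNLc N f : FNL ℂ N) : LaurentSeries ℂ) * qLaurent B) (a b : AT N)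
    (hab : phi N f * algebraMap (AT N) (LN N) b = algebraMap (AT N) (LN N) a) (τ : ℍ) :
    ((valAT N a : Hol) : ℍ → ℂ) τ * B τ = ((valAT N b : Hol) : ℍ → ℂ) τ * A τ := by
  have ha := (hasUExp_valAT N a).mul (hasUExp_modularForm N B)
  have hb := (hasUExp_valAT N b).mul (hasUExp_modularForm N A)
  rw [ratio_core_series N f A B h a b hab] at ha
  exact (ha τ).unique (hb τ)

/-- The valuation of a power series is given by its order. -/
theorem laurent_valuation_ofPowerSeries (P : PowerSeries ℂ) (hP : P ≠ 0) :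
    (Valued.v : Valuation (LaurentSeries ℂ) ℤᵐ⁰) (HahnSeries.ofPowerSeries ℤ ℂ P)
      = exp (-((P.order.toNat : ℕ) : ℤ)) := by
  have hord : P.order = ((P.order.toNat : ℕ) : ℕ∞) := (PowerSeries.coe_toNat_order hP).symm
  obtain ⟨hc, hlt⟩ := PowerSeries.order_eq_nat.mp hord
  apply laurent_valuation_eq_of_coeff
  · rw [HahnSeries.ofPowerSeries_apply_coeff]
    exact hc
  · intro n hn
    rcases lt_or_ge n 0 with h0 | h0
    · exact ofPowerSeries_coeff_of_neg _ h0
    · obtain ⟨m, rfl⟩ := Int.eq_ofNat_of_zero_le h0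
      rw [HahnSeries.ofPowerSeries_apply_coeff]
      exact hlt m (by exact_mod_cast hn)

/-- The valuation of the closure at the cusp `σ∞` on a ratio of modular forms
(the statement `winfN_of_isRatio` of `Clo/Ratio.lean`). -/
theorem winfN_of_isRatio_cusp (N : ℕ) [NeZero N] (σ : SL(2, ℤ)) (f : FN N) (hf : f ≠ 0) (k : ℤ)
    (A B : ModularForm (CongruenceSubgroup.Gamma0 N) k) (h : IsRatio N (toFNLc N f) A B) :
    winfN N (piN N σ⁻¹ (algebraMap (FN N) (LN N) f))
      = exp (-(ordCusp N k A σ - ordCusp N k B σ)) := by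
  obtain ⟨hB0, hAB⟩ := h
  have hN : (0 : ℝ) < (N : ℝ) := Nat.cast_pos.mpr (NeZero.pos N)
  -- `A ≠ 0`
  have hf' : ((toFNLc N f : FNL ℂ N) : LaurentSeries ℂ) ≠ 0 := by
    intro h0
    apply hf
    exact Subtype.ext h0
  have hqB : qLaurent B ≠ 0 := by
    intro h0
    have h1 : qExpansion (1 : ℝ) (B : ℍ → ℂ) = 0 := by
      apply HahnSeries.ofPowerSeries_injective (Γ := ℤ) (R := ℂ)
      rw [map_zero]
      exact h0
    have hX : Fermat.Agent.GTor.H96.IsCuspRegular (1 : ℝ) ((B : ℍ → ℂ)) :=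
      ⟨SlashInvariantFormClass.periodic_comp_ofComplex B
        (CongruenceSubgroup.one_mem_strictPeriods_Gamma0 N), B.holo',
        ModularFormClass.bdd_at_infty B⟩
    exact hX.qExpansion_ne_zero one_pos (fun h0 => hB0 (DFunLike.coe_injective h0)) h1
  have hA0 : A ≠ 0 := by
    intro hA
    have h1 : qLaurent A = 0 := by
      rw [hA]
      unfold qLaurent
      have : qExpansion (1 : ℝ) ((0 : ModularForm (CongruenceSubgroup.Gamma0 N) k) : ℍ → ℂ) = 0 := by
        have hX : Fermat.Agent.GTor.H96.IsCuspRegular (1 : ℝ)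
            (((0 : ModularForm (CongruenceSubgroup.Gamma0 N) k) : ℍ → ℂ)) :=
          ⟨SlashInvariantFormClass.periodic_comp_ofComplex
            (0 : ModularForm (CongruenceSubgroup.Gamma0 N) k)
            (CongruenceSubgroup.one_mem_strictPeriods_Gamma0 N),
            (0 : ModularForm (CongruenceSubgroup.Gamma0 N) k).holo',
            ModularFormClass.bdd_at_infty (0 : ModularForm (CongruenceSubgroup.Gamma0 N) k)⟩
        exact (UpperHalfPlane.qExpansion_eq_zero_iff one_pos hX.per hX.hol hX.bdd).mpr rfl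
      rw [this, map_zero]
    rw [h1] at hAB
    rcases mul_eq_zero.mp hAB.symm with h2 | h2
    · exact hf' h2
    · exact hqB h2
  have hA0' : (A : ℍ → ℂ) ≠ 0 := fun h0 => hA0 (DFunLike.coe_injective h0)
  have hB0' : (B : ℍ → ℂ) ≠ 0 := fun h0 => hB0 (DFunLike.coe_injective h0)
  obtain ⟨a, b, hb, hab⟩ := IsFractionRing.div_surjective (A := AT N) (phi N f)
  have hb0 : b ≠ 0 := nonZeroDivisors.ne_zero hb
  have hbL : algebraMap (AT N) (LN N) b ≠ 0 :=
    IsFractionRing.to_map_ne_zero_of_mem_nonZeroDivisors hb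
  have hab' : phi N f * algebraMap (AT N) (LN N) b = algebraMap (AT N) (LN N) a := by
    rw [← hab, div_mul_cancel₀ _ hbL]
  have hcore := ratio_core N f A B hAB a b hab'
  -- the identity after translation by `σ`
  have hslash : ∀ τ : ℍ, ((valAT N (σ⁻¹ • a) : Hol) : ℍ → ℂ) τ * ((B : ℍ → ℂ) ∣[k] σ) τ
      = ((valAT N (σ⁻¹ • b) : Hol) : ℍ → ℂ) τ * ((A : ℍ → ℂ) ∣[k] σ) τ := by
    intro τ
    rw [valAT_smul, valAT_smul, Hol.smul_apply, Hol.smul_apply, inv_inv, ModularForm.SL_slash_apply,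
      ModularForm.SL_slash_apply]
    have := hcore (σ • τ)
    linear_combination (denom σ τ ^ (-k)) * this
  have hRA := Fermat.Agent.GTor.H96.isCuspRegular_slash A σ
  have hRB := Fermat.Agent.GTor.H96.isCuspRegular_slash B σ
  have ha' := (hasUExp_valAT N (σ⁻¹ • a)).mul (hasUExp_of_isCuspRegular N hRB)
  have hb' := (hasUExp_valAT N (σ⁻¹ • b)).mul (hasUExp_of_isCuspRegular N hRA)
  have hser := (ha'.congr hslash).unique hb'
  have hPA : qExpansion (N : ℝ) ((A : ℍ → ℂ) ∣[k] σ) ≠ 0 :=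
    hRA.qExpansion_ne_zero hN (Fermat.Agent.GTor.H96.slash_ne_zero hA0' k σ)
  have hPB : qExpansion (N : ℝ) ((B : ℍ → ℂ) ∣[k] σ) ≠ 0 :=
    hRB.qExpansion_ne_zero hN (Fermat.Agent.GTor.H96.slash_ne_zero hB0' k σ)
  have hv := congrArg (Valued.v : Valuation (LaurentSeries ℂ) ℤᵐ⁰) hser
  rw [map_mul, map_mul, laurent_valuation_ofPowerSeries _ hPA,
    laurent_valuation_ofPowerSeries _ hPB] at hv
  -- the left-hand side
  have hsb : σ⁻¹ • b ≠ 0 := by
    intro h0
    apply hb0
    have := congrArg (fun x => σ • x) h0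
    simpa using this
  have hvb : (Valued.v : Valuation (LaurentSeries ℂ) ℤᵐ⁰) (uExpC N (σ⁻¹ • b)) ≠ 0 := by
    rw [Valuation.ne_zero_iff]
    intro h0
    exact hsb (uExpT_injective N (by rw [map_zero]; exact h0))
  have hlhs : winfN N (piN N σ⁻¹ (algebraMap (FN N) (LN N) f))
      = (Valued.v : Valuation (LaurentSeries ℂ) ℤᵐ⁰) (uExpC N (σ⁻¹ • a))
        / (Valued.v : Valuation (LaurentSeries ℂ) ℤᵐ⁰) (uExpC N (σ⁻¹ • b)) := by
    rw [algebraMap_FN_LN, ← hab, map_div₀, piN_algebraMap, piN_algebraMap, map_div₀,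
      winfN_apply, winfN_apply, UL_algebraMap, UL_algebraMap]
    rfl
  rw [hlhs, div_eq_iff hvb]
  unfold ordCusp
  set x : ℤ := (((qExpansion (N : ℝ) ((A : ℍ → ℂ) ∣[k] σ)).order.toNat : ℕ) : ℤ) with hx
  set y : ℤ := (((qExpansion (N : ℝ) ((B : ℍ → ℂ) ∣[k] σ)).order.toNat : ℕ) : ℤ) with hy
  set va := (Valued.v : Valuation (LaurentSeries ℂ) ℤᵐ⁰) (uExpC N (σ⁻¹ • a)) with hva
  set vb := (Valued.v : Valuation (LaurentSeries ℂ) ℤᵐ⁰) (uExpC N (σ⁻¹ • b)) with hvb'
  have e1 : (exp (-(x - y)) : ℤᵐ⁰) = exp (-x) * exp y := by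
    rw [← WithZero.exp_add]
    congr 1
    ring
  have e2 : (exp y : ℤᵐ⁰) * exp (-y) = 1 := by
    rw [← WithZero.exp_add, add_neg_cancel, WithZero.exp_zero]
  calc va = va * (exp (-y) * exp y) := by rw [mul_comm (exp (-y)), e2, mul_one]
    _ = (va * exp (-y)) * exp y := by rw [mul_assoc]
    _ = (vb * exp (-x)) * exp y := by rw [hv]
    _ = exp (-(x - y)) * vb := by rw [e1, mul_assoc, mul_comm vb]

end Fermat.Agent.GTor.Clo.H96
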