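import Fermat.Agent.GTor.Clo.Final
import Fermat.Agent.GTor.Defs
import Fermat.Agent.GTor.Clo.H72_RatioPt
import Fermat.Agent.GTor.Clo.H96_RatioCusp

/-!
# G-TOR A3–A5 (WP Ratio): ratios of modular forms inside the Galois closure

For `f ∈ F_ℂ`, `f ≠ 0`, with `f = A / B` as `q`-expansions (`IsRatio`), and `phi f = a / b` with
`a, b ∈ AT N ⊂ Hol`: `a * B = b * A` as functions on `ℍ` (both sides have the same expansion in
`u = exp (2 π i τ / N)`: `uExp_spec`, `UL_phi`, Mathlib's `hasSum_qExpansion` for `A`, `B`, and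
`HasUExp.unique`/`HasUExp.mul`). Hence the orders at a point `z` satisfy
`ord_z a - ord_z b = ord_z A - ord_z B`, and the same for the orders in `u` at `∞` of the
translates by `σ` (`(σ⁻¹ • a) * (B ∣[k] σ) = (σ⁻¹ • b) * (A ∣[k] σ)`).

Note `Clo.Kbar` unfolds to `ℂ`, so `FN N` and `Fermat.Agent.GTor.FNL ℂ N` are definitionally equal.

Every `sorry` in this file belongs to WP Ratio (fill in place, keep all signatures).
-/

set_option autoImplicit false

noncomputable section

namespace Fermat.Agent.GTor.Clo

open Fermat.Agent.S24 Fermat.Agent.GTor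

open ModularCurve AlgebraicCurve UpperHalfPlane WithZero
open scoped MatrixGroups Manifold ModularForm

/-- The identification of the two names of the function field over `ℂ`. -/
def toFNL (N : ℕ) (f : FN N) : FNL ℂ N := f

/-- The valuation of the closure at `z` on a ratio of modular forms. -/
theorem wN_of_isRatio (N : ℕ) [NeZero N] (z : ℍ) (f : FN N) (hf : f ≠ 0) (k : ℤ)
    (A B : ModularForm (CongruenceSubgroup.Gamma0 N) k) (h : IsRatio N (toFNL N f) A B) :
    wN N z (algebraMap (FN N) (LN N) f) = exp (-(ordAt A z - ordAt B z)) :=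
  h72_wN_of_isRatio N z f hf k A B h

/-- The valuation of the closure at the cusp `σ∞` on a ratio of modular forms. -/
theorem winfN_of_isRatio (N : ℕ) [NeZero N] (σ : SL(2, ℤ)) (f : FN N) (hf : f ≠ 0) (k : ℤ)
    (A B : ModularForm (CongruenceSubgroup.Gamma0 N) k) (h : IsRatio N (toFNL N f) A B) :
    winfN N (piN N σ⁻¹ (algebraMap (FN N) (LN N) f))
      = exp (-(ordCusp N k A σ - ordCusp N k B σ)) :=
  Fermat.Agent.GTor.Clo.H96.winfN_of_isRatio_cusp N σ f hf k A B h

end Fermat.Agent.GTor.Clo
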