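import Fermat.Agent.GTor.Clo.Ell
import Fermat.Agent.GTor.Clo.Ratio
import Fermat.Agent.GTor.Clo.AsmOne

/-!
# G-TOR A3: every point of `ℍ` defines a place of `F_ℂ`, with ramification `ellOrder`

Assembly from the work packages GC4/GCtriv (`GC4.lean`), Stab (`Stab.lean`), Ell (`Ell.lean`),
Ratio (`Ratio.lean`) and the Galois closure over `ℂ` (`Final.lean`).
-/

set_option autoImplicit false

noncomputable section

namespace Fermat.Agent.GTor.Clo

open Fermat.Agent.S24 Fermat.Agent.GTor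

open ModularCurve AlgebraicCurve UpperHalfPlane ModularGroup CongruenceSubgroup WithZero
  IntermediateField
open scoped MatrixGroups

/-- A complex number as an element of `Kbar` (which unfolds to `ℂ`). -/
def toKbar (c : ℂ) : Kbar := c

theorem iotaC_toKbar (c : ℂ) : iotaC (toKbar c) = c := rfl

/-- The shifted generator `j - j(z)` of `EN`. -/
def tSub (z : ℍ) : EN := tE - algebraMap Kbar EN (toKbar (jAn z))

theorem wN_tSub (N : ℕ) [NeZero N] (z : ℍ) :
    wN N z (algebraMap EN (LN N) (tSub z)) = exp (-(jOrd z : ℤ)) :=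
  wN_j N z (toKbar (jAn z)) (iotaC_toKbar _)

theorem exp_neg_natCast_lt_one {n : ℕ} (hn : 0 < n) : (exp (-(n : ℤ)) : ℤᵐ⁰) < 1 := by
  rw [← WithZero.exp_zero, WithZero.exp_lt_exp]
  omega

theorem wN_piN_of_smul_eq (N : ℕ) [NeZero N] (z : ℍ) (γ : SL(2, ℤ)) (hγ : γ • z = z)
    (y : LN N) : wN N z (piN N γ y) = wN N z y := by
  rw [wN_piN]
  have : γ⁻¹ • z = z := by
    rw [inv_smul_eq_iff, hγ]
  rw [this]

/-- The key formula at a point, for `1 < N`. -/
theorem exists_place_wN (N : ℕ) [NeZero N] (hN : 1 < N) (z : ℍ) :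
    ∃ v : Place Kbar (FN N), ∀ f : FN N, f ≠ 0 →
      wN N z (algebraMap (FN N) (LN N) f) = exp (-((ellOrder N z : ℤ) * v.ord f)) := by
  obtain ⟨γ, hγ, hγ'⟩ := exists_stabilizer_generator z
  have hγz : γ • z = z := by
    have : γ ∈ MulAction.stabilizer SL(2, ℤ) z := by
      rw [hγ]; exact Subgroup.mem_zpowers γ
    exact this
  have hord : orderOf (piN N γ) = jOrd z := orderOf_piN_stab N hN z γ hγ hγ'
  obtain ⟨v, -, hv⟩ := gc_val_eq (K := Kbar) (E := EN) (F := FN N) (L := LN N) (tSub z)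
    (h85_transcendental_sub tE_transcendental _) (h85_gen_sub tE_gen _)
    (wN N z) (wN_algebraMap N z)
    (by rw [wN_tSub]; exact exp_neg_natCast_lt_one (jOrd_pos z))
    (piN N γ) (wN_piN_of_smul_eq N z γ hγz)
    (by rw [wN_tSub, hord])
  refine ⟨v, fun f hf => ?_⟩
  rw [hv f hf, card_zpowers_inf_fixF N hN z γ hγ hγ']

theorem adjoin_jF_sub_eq_top (N : ℕ) [NeZero N] (hN : N = 1) (z : ℍ) :
    Kbar⟮jF N - algebraMap Kbar (FN N) (toKbar (jAn z))⟯ = ⊤ := by
  rw [eq_top_iff, ← asm_one_adjoin N hN, adjoin_simple_le_iff]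
  have h1 := add_mem
    (mem_adjoin_simple_self Kbar (jF N - algebraMap Kbar (FN N) (toKbar (jAn z))))
    (IntermediateField.algebraMap_mem
      (Kbar⟮jF N - algebraMap Kbar (FN N) (toKbar (jAn z))⟯) (toKbar (jAn z)))
  rwa [sub_add_cancel] at h1

/-- The key formula at a point, for `N = 1`, with the vanishing of `j - j(z)`. -/
theorem exists_place_wN_one' (N : ℕ) [NeZero N] (hN : N = 1) (z : ℍ) :
    ∃ v : Place Kbar (FN N), 0 < v.ord (jF N - algebraMap Kbar (FN N) (toKbar (jAn z))) ∧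
      ∀ f : FN N, f ≠ 0 →
        wN N z (algebraMap (FN N) (LN N) f) = exp (-((ellOrder N z : ℤ) * v.ord f)) := by
  have hx : Transcendental Kbar (jF N - algebraMap Kbar (FN N) (toKbar (jAn z))) :=
    h85_transcendental_sub (asm_one_transcendental N) _
  have htop := adjoin_jF_sub_eq_top N hN z
  have hmap : algebraMap (FN N) (LN N) (jF N - algebraMap Kbar (FN N) (toKbar (jAn z)))
      = algebraMap EN (LN N) (tSub z) := by
    rw [tSub, map_sub, map_sub, ← tE_map_FN N, ← IsScalarTower.algebraMap_apply EN (FN N) (LN N),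
      ← IsScalarTower.algebraMap_apply Kbar (FN N) (LN N),
      ← IsScalarTower.algebraMap_apply Kbar EN (LN N)]
  obtain ⟨v, hv0, hv⟩ := gc_val_triv (K := Kbar) (F := FN N)
    (jF N - algebraMap Kbar (FN N) (toKbar (jAn z))) hx htop
    ((wN N z).comap (algebraMap (FN N) (LN N)))
    (fun c hc => by
      rw [Valuation.comap_apply, ← IsScalarTower.algebraMap_apply Kbar (FN N) (LN N)]
      exact wN_algebraMap N z c hc)
    (jOrd z) (jOrd_pos z)
    (by rw [Valuation.comap_apply, hmap, wN_tSub])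
  refine ⟨v, hv0, fun f hf => ?_⟩
  have := hv f hf
  rw [Valuation.comap_apply] at this
  rw [this]
  subst hN
  rw [ellOrder_one]

/-- The key formula at a point, for `N = 1`. -/
theorem exists_place_wN_one (N : ℕ) [NeZero N] (hN : N = 1) (z : ℍ) :
    ∃ v : Place Kbar (FN N), ∀ f : FN N, f ≠ 0 →
      wN N z (algebraMap (FN N) (LN N) f) = exp (-((ellOrder N z : ℤ) * v.ord f)) := by
  obtain ⟨v, -, hv⟩ := exists_place_wN_one' N hN z
  exact ⟨v, hv⟩

/-- From the key formula to `IsPlaceAt`. -/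
theorem isPlaceAt_of_wN (N : ℕ) [NeZero N] (z : ℍ) (v : Place Kbar (FN N))
    (hv : ∀ f : FN N, f ≠ 0 →
      wN N z (algebraMap (FN N) (LN N) f) = exp (-((ellOrder N z : ℤ) * v.ord f))) :
    IsPlaceAt N v z := by
  intro f k A B hf hAB
  have h1 := hv f hf
  have h2 := wN_of_isRatio N z f hf k A B hAB
  rw [h1] at h2
  have h3 := WithZero.exp_injective h2
  have h4 : (ellOrder N z : ℤ) * v.ord f = ordAt A z - ordAt B z := neg_injective h3
  exact h4.symm

/-- **A3**: the place of `F_ℂ` at a point of `ℍ`. -/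
theorem exists_isPlaceAt (N : ℕ) [NeZero N] (z : ℍ) :
    ∃ v : Place ℂ (FNL ℂ N), IsPlaceAt N v z := by
  have key : ∃ v : Place Kbar (FN N), ∀ f : FN N, f ≠ 0 →
      wN N z (algebraMap (FN N) (LN N) f) = exp (-((ellOrder N z : ℤ) * v.ord f)) := by
    rcases Nat.lt_or_ge 1 N with hN | hN
    · exact exists_place_wN N hN z
    · exact exists_place_wN_one N (le_antisymm hN (Nat.pos_of_ne_zero (NeZero.ne N))) z
  obtain ⟨v, hv⟩ := key
  exact ⟨v, isPlaceAt_of_wN N z v hv⟩

theorem stmt_A3 (N : ℕ) [NeZero N] : Stmt_A3 N :=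
  fun z => ⟨ellOrder_pos N z, exists_isPlaceAt N z⟩

end Fermat.Agent.GTor.Clo
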