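import Fermat.Agent.GTor.Clo.A3

/-!
# G-TOR A4: every cusp defines a place of `F_ℂ`

The valuation at the cusp `σ∞` is `winfN ∘ piN σ⁻¹`; it is invariant under `piN (σ T σ⁻¹)`, an
element of order `N = - log (w j⁻¹)`. GC4 gives the place, Ell the ramification index
`N / cuspWidth N σ`, Ratio the comparison with the orders of modular forms.
-/

set_option autoImplicit false

noncomputable section

namespace Fermat.Agent.GTor.Clo

open Fermat.Agent.S24 Fermat.Agent.GTor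

open ModularCurve AlgebraicCurve UpperHalfPlane ModularGroup CongruenceSubgroup WithZero
  IntermediateField
open scoped MatrixGroups

/-- The valuation of the Galois closure at the cusp `σ∞`. -/
def wCusp (N : ℕ) [NeZero N] (σ : SL(2, ℤ)) : Valuation (LN N) ℤᵐ⁰ :=
  (winfN N).comap ((piN N σ⁻¹ : LN N ≃ₐ[EN] LN N) : LN N →+* LN N)

theorem wCusp_apply (N : ℕ) [NeZero N] (σ : SL(2, ℤ)) (y : LN N) :
    wCusp N σ y = winfN N (piN N σ⁻¹ y) := rfl

theorem wCusp_algebraMap_EN (N : ℕ) [NeZero N] (σ : SL(2, ℤ)) (e : EN) :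
    wCusp N σ (algebraMap EN (LN N) e) = winfN N (algebraMap EN (LN N) e) := by
  rw [wCusp_apply, AlgEquiv.commutes]

theorem wCusp_algebraMap (N : ℕ) [NeZero N] (σ : SL(2, ℤ)) (c : Kbar) (hc : c ≠ 0) :
    wCusp N σ (algebraMap Kbar (LN N) c) = 1 := by
  rw [IsScalarTower.algebraMap_apply Kbar EN (LN N), wCusp_algebraMap_EN,
    ← IsScalarTower.algebraMap_apply Kbar EN (LN N)]
  exact winfN_algebraMap N c hc

theorem wCusp_tE_inv (N : ℕ) [NeZero N] (σ : SL(2, ℤ)) :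
    wCusp N σ (algebraMap EN (LN N) tE⁻¹) = exp (-(N : ℤ)) := by
  rw [wCusp_algebraMap_EN, winfN_j]

theorem wCusp_piN_conj_T (N : ℕ) [NeZero N] (σ : SL(2, ℤ)) (y : LN N) :
    wCusp N σ (piN N (σ * T * σ⁻¹) y) = wCusp N σ y := by
  rw [wCusp_apply, wCusp_apply]
  have h : piN N σ⁻¹ (piN N (σ * T * σ⁻¹) y) = piN N T (piN N σ⁻¹ y) := by
    rw [← AlgEquiv.mul_apply, ← AlgEquiv.mul_apply, ← map_mul, ← map_mul]
    congr 2
    group
  rw [h, winfN_piN_T]

theorem tE_ne_zero : tE ≠ 0 := by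
  intro h
  apply tE_transcendental
  rw [h]
  exact isAlgebraic_zero

/-- The key formula at a cusp. -/
theorem exists_place_wCusp (N : ℕ) [NeZero N] (σ : SL(2, ℤ)) :
    ∃ v : Place Kbar (FN N), 0 < v.ord (algebraMap EN (FN N) tE⁻¹) ∧ ∀ f : FN N, f ≠ 0 →
      wCusp N σ (algebraMap (FN N) (LN N) f)
        = exp (-(((N / cuspWidth N σ : ℕ) : ℤ) * v.ord f)) := by
  have hN : 0 < N := Nat.pos_of_ne_zero (NeZero.ne N)
  obtain ⟨v, hv0, hv⟩ := gc_val_eq (K := Kbar) (E := EN) (F := FN N) (L := LN N) tE⁻¹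
    (h85_transcendental_inv tE_transcendental) (h85_gen_inv tE_ne_zero tE_gen)
    (wCusp N σ) (wCusp_algebraMap N σ)
    (by rw [wCusp_tE_inv]; exact exp_neg_natCast_lt_one hN)
    (piN N (σ * T * σ⁻¹)) (wCusp_piN_conj_T N σ)
    (by rw [wCusp_tE_inv, orderOf_piN_conj_T])
  refine ⟨v, hv0, fun f hf => ?_⟩
  rw [hv f hf, card_zpowers_inf_fixF_cusp]

/-- **A4**: the place of `F_ℂ` at a cusp. -/
theorem exists_isPlaceAtCusp (N : ℕ) [NeZero N] (σ : SL(2, ℤ)) :
    ∃ v : Place ℂ (FNL ℂ N), IsPlaceAtCusp N v σ := by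
  obtain ⟨v, -, hv⟩ := exists_place_wCusp N σ
  refine ⟨v, fun f k A B hf hAB => ?_⟩
  have h1 := hv f hf
  have h2 := winfN_of_isRatio N σ f hf k A B hAB
  rw [wCusp_apply, h2] at h1
  have h3 := WithZero.exp_injective h1
  exact neg_injective h3

theorem stmt_A4 (N : ℕ) [NeZero N] : Stmt_A4 N :=
  fun σ => ⟨cuspWidth_pos N σ, cuspWidth_dvd N σ, exists_isPlaceAtCusp N σ⟩

end Fermat.Agent.GTor.Clo
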