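import Fermat.Agent.GTor.Clo.A4
import Fermat.Agent.S24.H85_FF3
import Fermat.Agent.S24.H72_FF1

/-!
# G-TOR A5: every place of `F_ℂ` is the place of a point of `ℍ` or of a cusp

A place `v` of `F_N` lies over a place of `ℂ(j)`: either `j` has a pole at `v` (cusp case, GC5
for `winfN` and `t = j⁻¹`), or `j - a` vanishes at `v` for a unique `a = j(z₀)` (point case, GC5
for `wN z₀` and `t = j - a`). GC5 yields `g = piN γ` in the Galois group, and the place is the one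
of the cusp `γ⁻¹∞` resp. of the point `γ⁻¹ z₀`.
-/

set_option autoImplicit false

noncomputable section

namespace Fermat.Agent.GTor.Clo

open Fermat.Agent.S24 Fermat.Agent.GTor

open ModularCurve AlgebraicCurve UpperHalfPlane ModularGroup CongruenceSubgroup WithZero
  IntermediateField
open scoped MatrixGroups

theorem place_deg_eq_one (N : ℕ) [NeZero N] (v : Place Kbar (FN N)) : v.deg = 1 := by
  have := asm_finiteDimensional (modClosure N)
  exact ff_deg_eq_one (jF N) (asm_transcendental_jF (modClosure N)) v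

/-- The cusp case of A5. -/
theorem exists_isPlaceAtCusp_of_pole (N : ℕ) [NeZero N] (v : Place Kbar (FN N))
    (hv : v.ord (jF N) < 0) : ∃ σ : SL(2, ℤ), IsPlaceAtCusp N v σ := by
  have hN : 0 < N := Nat.pos_of_ne_zero (NeZero.ne N)
  have hv' : 0 < v.ord (algebraMap EN (FN N) tE⁻¹) := by
    rw [map_inv₀, tE_map_FN, Place.ord_inv]
    omega
  obtain ⟨g, hg⟩ := gc_val_eq_of_place (K := Kbar) (E := EN) (F := FN N) (L := LN N) tE⁻¹
    (h85_transcendental_inv tE_transcendental) (h85_gen_inv tE_ne_zero tE_gen)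
    (winfN N) (winfN_algebraMap N)
    (by rw [winfN_j]; exact exp_neg_natCast_lt_one hN)
    (piN N T) (winfN_piN_T N)
    (by rw [winfN_j, orderOf_piN_T])
    v hv'
  obtain ⟨γ, rfl⟩ := piN_surjective N g
  refine ⟨γ⁻¹, fun f k A B hf hAB => ?_⟩
  have h1 := hg f hf
  have h2 := winfN_of_isRatio N γ⁻¹ f hf k A B hAB
  rw [inv_inv] at h2
  rw [h2] at h1
  have hconj : (piN N γ)⁻¹ * piN N T * piN N γ = piN N (γ⁻¹ * T * γ⁻¹⁻¹) := by
    rw [inv_inv, map_mul, map_mul, map_inv]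
  rw [hconj, card_zpowers_inf_fixF_cusp] at h1
  exact neg_injective (WithZero.exp_injective h1)

/-- The residue of `j` at a place where `j` is regular, as a value of `j`. -/
theorem exists_point_of_regular (N : ℕ) [NeZero N] (v : Place Kbar (FN N))
    (hv : 0 ≤ v.ord (jF N)) :
    ∃ z₀ : ℍ, 0 < v.ord (jF N - algebraMap Kbar (FN N) (toKbar (jAn z₀))) := by
  obtain ⟨a, ha⟩ := H85.exists_ord_sub_pos v (place_deg_eq_one N v)
    (asm_transcendental_jF (modClosure N)) (H85.mem_of_ord_nonneg v hv)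
  obtain ⟨z₀, hz₀⟩ := jAn_surjective a
  refine ⟨z₀, ?_⟩
  have : toKbar (jAn z₀) = a := hz₀
  rw [this]
  exact ha

theorem algebraMap_tSub (N : ℕ) [NeZero N] (z : ℍ) :
    algebraMap EN (FN N) (tSub z) = jF N - algebraMap Kbar (FN N) (toKbar (jAn z)) := by
  rw [tSub, RingHom.map_sub, tE_map_FN, ← IsScalarTower.algebraMap_apply Kbar EN (FN N)]

theorem stabilizer_conj (z : ℍ) (γ γ₀ : SL(2, ℤ))
    (hγ₀ : MulAction.stabilizer SL(2, ℤ) z = Subgroup.zpowers γ₀) :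
    MulAction.stabilizer SL(2, ℤ) (γ⁻¹ • z) = Subgroup.zpowers (γ⁻¹ * γ₀ * γ) := by
  rw [MulAction.stabilizer_smul_eq_stabilizer_map_conj, hγ₀, MonoidHom.map_zpowers]
  congr 1
  simp

theorem conj_pow_eq_neg_one (γ γ₀ : SL(2, ℤ)) (n : ℕ) (h : γ₀ ^ n = -1) :
    (γ⁻¹ * γ₀ * γ) ^ n = -1 := by
  have h1 : γ⁻¹ * γ₀ * γ = γ⁻¹ * γ₀ * γ⁻¹⁻¹ := by rw [inv_inv]
  rw [h1, conj_pow, h, stab_conj_neg_one]

/-- The point case of A5, for `1 < N`. -/
theorem exists_isPlaceAt_of_regular (N : ℕ) [NeZero N] (hN : 1 < N) (v : Place Kbar (FN N))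
    (hv : 0 ≤ v.ord (jF N)) : ∃ z : ℍ, IsPlaceAt N v z := by
  obtain ⟨z₀, hz₀⟩ := exists_point_of_regular N v hv
  obtain ⟨γ₀, hγ₀, hγ₀'⟩ := exists_stabilizer_generator z₀
  have hγz : γ₀ • z₀ = z₀ := by
    have : γ₀ ∈ MulAction.stabilizer SL(2, ℤ) z₀ := by
      rw [hγ₀]; exact Subgroup.mem_zpowers γ₀
    exact this
  have hord : orderOf (piN N γ₀) = jOrd z₀ := orderOf_piN_stab N hN z₀ γ₀ hγ₀ hγ₀'
  obtain ⟨g, hg⟩ := gc_val_eq_of_place (K := Kbar) (E := EN) (F := FN N) (L := LN N) (tSub z₀)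
    (h85_transcendental_sub tE_transcendental _) (h85_gen_sub tE_gen _)
    (wN N z₀) (wN_algebraMap N z₀)
    (by rw [wN_tSub]; exact exp_neg_natCast_lt_one (jOrd_pos z₀))
    (piN N γ₀) (wN_piN_of_smul_eq N z₀ γ₀ hγz)
    (by rw [wN_tSub, hord])
    v (by rw [algebraMap_tSub]; exact hz₀)
  obtain ⟨γ, rfl⟩ := piN_surjective N g
  refine ⟨γ⁻¹ • z₀, fun f k A B hf hAB => ?_⟩
  have h1 := hg f hf
  rw [wN_piN, wN_of_isRatio N (γ⁻¹ • z₀) f hf k A B hAB] at h1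
  have hconj : (piN N γ)⁻¹ * piN N γ₀ * piN N γ = piN N (γ⁻¹ * γ₀ * γ) := by
    rw [map_mul, map_mul, map_inv]
  have hpow : (γ⁻¹ * γ₀ * γ) ^ jOrd (γ⁻¹ • z₀) = -1 := by
    rw [jOrd_smul]
    exact conj_pow_eq_neg_one γ γ₀ _ hγ₀'
  rw [hconj, card_zpowers_inf_fixF N hN (γ⁻¹ • z₀) (γ⁻¹ * γ₀ * γ)
    (stabilizer_conj z₀ γ γ₀ hγ₀) hpow] at h1
  exact neg_injective (WithZero.exp_injective h1)

/-- The point case of A5, for `N = 1`. -/
theorem exists_isPlaceAt_of_regular_one (N : ℕ) [NeZero N] (hN : N = 1) (v : Place Kbar (FN N))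
    (hv : 0 ≤ v.ord (jF N)) : ∃ z : ℍ, IsPlaceAt N v z := by
  obtain ⟨z₀, hz₀⟩ := exists_point_of_regular N v hv
  obtain ⟨v', hv'0, hv'⟩ := exists_place_wN_one' N hN z₀
  have hx : Transcendental Kbar (jF N - algebraMap Kbar (FN N) (toKbar (jAn z₀))) :=
    h85_transcendental_sub (asm_one_transcendental N) _
  have hvv : v' = v := gc_val_triv_unique (K := Kbar) (F := FN N) _ hx
    (adjoin_jF_sub_eq_top N hN z₀) v' v hv'0 hz₀
  subst hvv
  exact ⟨z₀, isPlaceAt_of_wN N z₀ v' hv'⟩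

/-- **A5**, over `Kbar`. -/
theorem exists_isPlaceAt_or_cusp (N : ℕ) [NeZero N] (v : Place Kbar (FN N)) :
    (∃ z : ℍ, IsPlaceAt N v z) ∨ (∃ σ : SL(2, ℤ), IsPlaceAtCusp N v σ) := by
  rcases lt_or_ge (v.ord (jF N)) 0 with hv | hv
  · exact Or.inr (exists_isPlaceAtCusp_of_pole N v hv)
  · left
    rcases Nat.lt_or_ge 1 N with hN | hN
    · exact exists_isPlaceAt_of_regular N hN v hv
    · exact exists_isPlaceAt_of_regular_one N
        (le_antisymm hN (Nat.pos_of_ne_zero (NeZero.ne N))) v hv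

/-- **A5**. -/
theorem stmt_A5 (N : ℕ) [NeZero N] : Stmt_A5 N :=
  fun v => exists_isPlaceAt_or_cusp N v

end Fermat.Agent.GTor.Clo
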