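import Fermat.Agent.GTor.Clo.Defs
import Fermat.Agent.S24.H95_GC2
import Fermat.Agent.S24.H1_GC
import Fermat.Agent.S24.H27_JOrd
import Fermat.Agent.S24.H27_JAn
import Fermat.Agent.S24.Asm.Grp

/-!
# S24 assembly (WP ASM-Degree): from a `ModClosure N` to `[F_N : Q̄(j)] = ψ(N)`

Let `M : ModClosure N`, `x = jF N`, `G = Gal (M.L / M.E)`, `H = Gal (M.L / F_N)`.
* `M.t` is transcendental and generates `M.E`, so `M.E ≃ Q̄(x)` and
  `[F_N : Q̄(x)] = [F_N : M.E] = |G ⧸ H| = |SL(2, ℤ) ⧸ Γ₀(N)| = ψ(N)`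
  (`M.π_surjective`, `M.π_comap`, `h1_quotEquiv`, `G1_card`).
* zeros of `x - a`: `gc_card_zeros` for the generator `M.t - a` of `M.E`, the valuation `M.w τ`
  with `jAn τ = ι a` (`jAn_surjective`; `τ = ρ` for `a = 0`, `τ = i` for `a = 1728`) and
  `σ = M.π γ`, `γ = S * T`, `S`, `1` respectively (`h27_ST_smul_rho`, `h27_S_smul_I`, `M.w_π`);
  `jOrd τ ≤ orderOf σ` because `γ, γ ^ 2 ∉ Γ₀(N)` for `1 < N` (`M.π_comap`); then
  `gc_orbits_transfer`.
* poles of `x`: `gc_card_zeros` for the generator `(M.t)⁻¹`, `M.winf`, `σ = M.π T`;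
  `N ≤ orderOf (M.π T)` because `S * T ^ k * S⁻¹ ∈ Γ₀(N)` iff `N ∣ k`.

WP ASM-Degree (helper59): all statements of this file are proved.
-/

set_option autoImplicit false

noncomputable section

namespace Fermat.Agent.GTor.Clo

open Fermat.Agent.S24

open CongruenceSubgroup ModularGroup ModularCurve AlgebraicCurve IntermediateField
open scoped MatrixGroups

attribute [local instance] ModClosure.instFieldE ModClosure.instField ModClosure.instAlgKE
  ModClosure.instAlgK ModClosure.instAlgEF ModClosure.instAlgF ModClosure.instAlgE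
  ModClosure.towerKEF ModClosure.towerKFL ModClosure.towerEFL ModClosure.towerKEL
  ModClosure.finite ModClosure.galois

variable {N : ℕ} [NeZero N]

/-- The generator `t` of `M.E` is not a constant. -/
theorem asm_t_ne_algebraMap (M : ModClosure N) (c : Kbar) : M.t ≠ algebraMap Kbar M.E c := by
  intro h
  have hw := M.winf_j
  have hN : (0 : ℤ) < N := by exact_mod_cast Nat.pos_of_ne_zero (NeZero.ne N)
  have hlt : WithZero.exp (-(N : ℤ)) < 1 := by
    rw [← WithZero.exp_zero, WithZero.exp_lt_exp]; omega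
  rcases eq_or_ne c 0 with rfl | hc
  · rw [h, map_zero, inv_zero, map_zero, map_zero] at hw
    exact WithZero.exp_ne_zero hw.symm
  · have h1 : algebraMap M.E M.L (M.t)⁻¹ = algebraMap Kbar M.L c⁻¹ := by
      rw [h, ← map_inv₀, ← IsScalarTower.algebraMap_apply]
    rw [h1, M.winf_algebraMap _ (inv_ne_zero hc)] at hw
    rw [← hw] at hlt
    exact lt_irrefl _ hlt

theorem asm_transcendental_t (M : ModClosure N) : Transcendental Kbar M.t := by
  intro halg
  have hint : IsIntegral Kbar M.t := halg.isIntegral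
  have hdeg1 : (minpoly Kbar M.t).degree = 1 :=
    IsAlgClosed.degree_eq_one_of_irreducible Kbar (minpoly.irreducible hint)
  obtain ⟨a, ha⟩ := minpoly.mem_range_of_degree_eq_one Kbar M.t hdeg1
  exact asm_t_ne_algebraMap M a ha.symm

theorem asm_transcendental_jF (M : ModClosure N) : Transcendental Kbar (jF N) := by
  rw [← M.t_map]
  exact (transcendental_algebraMap_iff (algebraMap M.E (FN N)).injective).mpr
    (asm_transcendental_t M)

/-- The image of `M.E` in `F_N` is `Q̄(j)`. -/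
theorem asm_algebraMap_mem (M : ModClosure N) (y : M.E) :
    algebraMap M.E (FN N) y ∈ Kbar⟮jF N⟯ := by
  obtain ⟨p, q, hq, rfl⟩ := M.t_gen y
  have h : ∀ r : Polynomial Kbar, algebraMap M.E (FN N) (Polynomial.aeval M.t r)
      = Polynomial.aeval (jF N) r := fun r => by
    rw [← M.t_map, ← Polynomial.aeval_algebraMap_apply]
  rw [map_div₀, h, h]
  have hmem : ∀ r : Polynomial Kbar, Polynomial.aeval (jF N) r ∈ Kbar⟮jF N⟯ := fun r => by
    rw [Polynomial.aeval_eq_sum_range]
    refine sum_mem fun i _ => ?_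
    exact (Kbar⟮jF N⟯).smul_mem (pow_mem (mem_adjoin_simple_self Kbar (jF N)) i)
  exact div_mem (hmem p) (hmem q)

theorem asm_mem_range (M : ModClosure N) (z : FN N) (hz : z ∈ Kbar⟮jF N⟯) :
    ∃ y : M.E, algebraMap M.E (FN N) y = z := by
  have hle : Kbar⟮jF N⟯ ≤ (IsScalarTower.toAlgHom Kbar M.E (FN N)).fieldRange := by
    rw [adjoin_simple_le_iff]
    exact ⟨M.t, M.t_map⟩
  obtain ⟨y, hy⟩ := hle hz
  exact ⟨y, hy⟩

/-- The isomorphism `M.E ≃ Q̄(j)`. -/
def asmEquiv (M : ModClosure N) : M.E ≃+* Kbar⟮jF N⟯ :=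
  RingEquiv.ofBijective
    ((algebraMap M.E (FN N)).codRestrict (Kbar⟮jF N⟯).toSubfield.toSubring
      (fun y => asm_algebraMap_mem M y))
    ⟨fun a b h => (algebraMap M.E (FN N)).injective (congrArg Subtype.val h),
      fun z => by
        obtain ⟨y, hy⟩ := asm_mem_range M z.1 z.2
        exact ⟨y, Subtype.ext hy⟩⟩

theorem asmEquiv_comp (M : ModClosure N) :
    (algebraMap Kbar⟮jF N⟯ (FN N)).comp (asmEquiv M : M.E ≃+* Kbar⟮jF N⟯).toRingHom
      = (RingEquiv.refl (FN N)).toRingHom.comp (algebraMap M.E (FN N)) := by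
  ext y
  rfl

theorem asm_finiteDimensional (M : ModClosure N) : FiniteDimensional Kbar⟮jF N⟯ (FN N) := by
  have : FiniteDimensional M.E (FN N) := FiniteDimensional.left M.E (FN N) M.L
  exact Module.Finite.of_equiv_equiv (asmEquiv M) (RingEquiv.refl (FN N)) (asmEquiv_comp M)

theorem asm_finrank (M : ModClosure N) :
    Module.finrank Kbar⟮jF N⟯ (FN N) = dedekindPsi N := by
  rw [← Algebra.finrank_eq_of_equiv_equiv (asmEquiv M) (RingEquiv.refl (FN N)) (asmEquiv_comp M)]
  -- `[F_N : E] = [K : E]` for `K` the image of `F_N` in `L`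
  have e : FN N ≃ₗ[M.E] (IsScalarTower.toAlgHom M.E (FN N) M.L).fieldRange :=
    (AlgEquiv.ofInjectiveField (IsScalarTower.toAlgHom M.E (FN N) M.L)).toLinearEquiv
  rw [e.finrank_eq, IntermediateField.finrank_eq_fixingSubgroup_index,
    ← Subgroup.index_comap_of_surjective _ M.π_surjective, M.π_comap, Subgroup.index_eq_card]
  exact Fermat.Agent.S20.H19.G1_card N

end Fermat.Agent.GTor.Clo
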