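import Fermat.Agent.GTor.Clo.Defs
import Fermat.Agent.S24.H95_GC2
import Fermat.Agent.S24.H1_GC
import Fermat.Agent.S24.H27_JOrd
import Fermat.Agent.S24.H27_JAn
import Fermat.Agent.S24.Asm.Grp
import Fermat.Agent.GTor.Clo.AsmDegree

/-!
# S24 assembly (WP ASM-Count): from a `ModClosure N` to the counts of places of `F_N`

Let `M : ModClosure N`, `x = jF N`, `G = Gal (M.L / M.E)`, `H = Gal (M.L / F_N)`.
* `M.t` is transcendental and generates `M.E`, so `M.E ≃ Q̄(x)` and
  `[F_N : Q̄(x)] = [F_N : M.E] = |G ⧸ H| = |SL(2, ℤ) ⧸ Γ₀(N)| = ψ(N)`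
  (`M.π_surjective`, `M.π_comap`, `h1_quotEquiv`, `G1_card`).
* zeros of `x - a`: `gc_card_zeros` for the generator `M.t - a` of `M.E`, the valuation `M.w τ`
  with `jAn τ = ι a` (`jAn_surjective`; `τ = ρ` for `a = 0`, `τ = i` for `a = 1728`) and
  `σ = M.π γ`, `γ = S * T`, `S`, `1` respectively (`h27_ST_smul_rho`, `h27_S_smul_I`, `M.w_π`);
  `jOrd τ ≤ orderOf σ` because `γ, γ ^ 2 ∉ Γ₀(N)` for `1 < N` (`M.π_comap`); then
  `gc_orbits_transfer`.
* poles of `x`: `gc_card_zeros` for the generator `(M.t)⁻¹`, `M.winf`, `σ = M.π T`;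
  `N ≤ orderOf (M.π T)` because `S * T ^ k * S⁻¹ ∈ Γ₀(N)` iff `N ∣ k`.

WP ASM-Count (helper85): all statements proved.
-/

set_option autoImplicit false

noncomputable section

namespace Fermat.Agent.GTor.Clo

open Fermat.Agent.S24

open CongruenceSubgroup ModularGroup ModularCurve AlgebraicCurve IntermediateField
open scoped MatrixGroups

attribute [local instance] ModClosure.instFieldE ModClosure.instField ModClosure.instAlgKE
  ModClosure.instAlgK ModClosure.instAlgEF ModClosure.instAlgF ModClosure.instAlgE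
  ModClosure.towerKEF ModClosure.towerKFL ModClosure.towerEFL ModClosure.towerKEL
  ModClosure.finite ModClosure.galois

variable {N : ℕ} [NeZero N]

/-! ### Generators of `M.E` -/

/-- `t - a` is transcendental. -/
theorem h85_transcendental_sub {K E : Type*} [Field K] [Field E] [Algebra K E] {t : E}
    (ht : Transcendental K t) (a : K) : Transcendental K (t - algebraMap K E a) := by
  intro h
  apply ht
  have h2 := h.add (isAlgebraic_algebraMap (R := K) (A := E) a)
  simpa using h2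

/-- `t⁻¹` is transcendental. -/
theorem h85_transcendental_inv {K E : Type*} [Field K] [Field E] [Algebra K E] {t : E}
    (ht : Transcendental K t) : Transcendental K t⁻¹ := by
  intro h
  apply ht
  have h2 := h.inv
  simpa using h2

/-- If `t` generates `E` as a field, so does `t - a`. -/
theorem h85_gen_sub {K E : Type*} [Field K] [Field E] [Algebra K E] {t : E}
    (hE : ∀ y : E, ∃ p q : Polynomial K, Polynomial.aeval t q ≠ 0 ∧
      y = Polynomial.aeval t p / Polynomial.aeval t q) (a : K) :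
    ∀ y : E, ∃ p q : Polynomial K, Polynomial.aeval (t - algebraMap K E a) q ≠ 0 ∧
      y = Polynomial.aeval (t - algebraMap K E a) p / Polynomial.aeval (t - algebraMap K E a) q := by
  intro y
  obtain ⟨p, q, hq, hy⟩ := hE y
  have key : ∀ f : Polynomial K, Polynomial.aeval (t - algebraMap K E a)
      (f.comp (Polynomial.X + Polynomial.C a)) = Polynomial.aeval t f := by
    intro f
    rw [Polynomial.aeval_comp]
    congr 1
    simp
  exact ⟨p.comp (Polynomial.X + Polynomial.C a), q.comp (Polynomial.X + Polynomial.C a),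
    by rw [key]; exact hq, by rw [key, key]; exact hy⟩

/-- If `t` generates `E` as a field, so does `t⁻¹` (for `t ≠ 0`). -/
theorem h85_gen_inv {K E : Type*} [Field K] [Field E] [Algebra K E] {t : E} (ht : t ≠ 0)
    (hE : ∀ y : E, ∃ p q : Polynomial K, Polynomial.aeval t q ≠ 0 ∧
      y = Polynomial.aeval t p / Polynomial.aeval t q) :
    ∀ y : E, ∃ p q : Polynomial K, Polynomial.aeval t⁻¹ q ≠ 0 ∧
      y = Polynomial.aeval t⁻¹ p / Polynomial.aeval t⁻¹ q := by
  intro y
  obtain ⟨p, q, hq, hy⟩ := hE y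
  -- `f(t) = (reflect n f)(t⁻¹) * t ^ n` for `natDegree f ≤ n`
  have key : ∀ (n : ℕ) (f : Polynomial K), f.natDegree ≤ n →
      Polynomial.aeval t⁻¹ (Polynomial.reflect n f) * t ^ n = Polynomial.aeval t f := by
    intro n f hf
    let _ : Invertible t := invertibleOfNonzero ht
    have h := Polynomial.eval₂_reflect_mul_pow (algebraMap K E) t n f hf
    rw [invOf_eq_inv] at h
    exact h
  set n := max p.natDegree q.natDegree with hn
  have hp := key n p (le_max_left _ _)
  have hq' := key n q (le_max_right _ _)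
  have htn : t ^ n ≠ 0 := pow_ne_zero n ht
  refine ⟨Polynomial.reflect n p, Polynomial.reflect n q, ?_, ?_⟩
  · intro h0
    apply hq
    rw [← hq', h0, zero_mul]
  · rw [hy, ← hp, ← hq', mul_div_mul_right _ _ htn]

/-! ### Orders of the images of `S`, `S * T`, `T` in the Galois group -/

theorem h85_ker_le_Gamma0 (M : ModClosure N) {γ : SL(2, ℤ)} (h : M.π γ = 1) : γ ∈ Gamma0 N := by
  rw [← M.π_comap, Subgroup.mem_comap, h]
  exact Subgroup.one_mem _

omit [NeZero N] in
theorem h85_S_notMem (hN : 1 < N) : (S : SL(2, ℤ)) ∉ Gamma0 N := by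
  rw [Gamma0_mem]
  have h : ((S : SL(2, ℤ)) 1 0 : ℤ) = 1 := by
    simp [ModularGroup.coe_S]
  rw [h, Int.cast_one]
  have : Fact (1 < N) := ⟨hN⟩
  exact one_ne_zero

omit [NeZero N] in
theorem h85_ST_notMem (hN : 1 < N) : (S * T : SL(2, ℤ)) ∉ Gamma0 N := by
  rw [Gamma0_mem]
  have h : ((S * T : SL(2, ℤ)) 1 0 : ℤ) = 1 := by
    simp [ModularGroup.coe_T]
  rw [h, Int.cast_one]
  have : Fact (1 < N) := ⟨hN⟩
  exact one_ne_zero

omit [NeZero N] in
theorem h85_ST_sq_notMem (hN : 1 < N) : ((S * T) ^ 2 : SL(2, ℤ)) ∉ Gamma0 N := by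
  rw [Gamma0_mem]
  have h : (((S * T) ^ 2 : SL(2, ℤ)) 1 0 : ℤ) = 1 := by
    simp [pow_two, ModularGroup.coe_T]
  rw [h, Int.cast_one]
  have : Fact (1 < N) := ⟨hN⟩
  exact one_ne_zero

omit [NeZero N] in
theorem h85_conj_T_pow_mem_iff (k : ℕ) :
    (S * T ^ k * S⁻¹ : SL(2, ℤ)) ∈ Gamma0 N ↔ N ∣ k := by
  rw [Gamma0_mem]
  have h : ((S * T ^ k * S⁻¹ : SL(2, ℤ)) 1 0 : ℤ) = -(k : ℤ) := by
    have hT : ((T ^ k : SL(2, ℤ)) : Matrix (Fin 2) (Fin 2) ℤ) = !![1, (k : ℤ); 0, 1] := by
      have := ModularGroup.coe_T_zpow (k : ℤ)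
      rwa [zpow_natCast] at this
    simp [ModularGroup.coe_S, hT, Matrix.mul_apply, Fin.sum_univ_two,
      Matrix.SpecialLinearGroup.coe_inv, Matrix.adjugate_fin_two]
  rw [h, Int.cast_neg, neg_eq_zero, Int.cast_natCast, ZMod.natCast_eq_zero_iff]

theorem h85_two_le_orderOf_S (M : ModClosure N) (hN : 1 < N) : 2 ≤ orderOf (M.π S) := by
  have hpos : 0 < orderOf (M.π S) := orderOf_pos _
  by_contra hlt
  have h1 : orderOf (M.π S) = 1 := by omega
  exact h85_S_notMem hN (h85_ker_le_Gamma0 M (orderOf_eq_one_iff.mp h1))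

theorem h85_three_le_orderOf_ST (M : ModClosure N) (hN : 1 < N) :
    3 ≤ orderOf (M.π (S * T)) := by
  have hpos : 0 < orderOf (M.π (S * T)) := orderOf_pos _
  by_contra hlt
  have h12 : orderOf (M.π (S * T)) = 1 ∨ orderOf (M.π (S * T)) = 2 := by omega
  rcases h12 with h1 | h2
  · exact h85_ST_notMem hN (h85_ker_le_Gamma0 M (orderOf_eq_one_iff.mp h1))
  · have h := pow_orderOf_eq_one (M.π (S * T))
    rw [h2, ← map_pow] at h
    exact h85_ST_sq_notMem hN (h85_ker_le_Gamma0 M h)

theorem h85_le_orderOf_T (M : ModClosure N) : N ≤ orderOf (M.π T) := by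
  have hpos : 0 < orderOf (M.π T) := orderOf_pos _
  have h := pow_orderOf_eq_one (M.π T)
  rw [← map_pow] at h
  have h2 : M.π (S * T ^ orderOf (M.π T) * S⁻¹) = 1 := by
    rw [map_mul, map_mul, h, mul_one, ← map_mul, mul_inv_cancel, map_one]
  exact Nat.le_of_dvd hpos ((h85_conj_T_pow_mem_iff _).mp (h85_ker_le_Gamma0 M h2))

/-! ### The counts -/

open WithZero in
/-- The count of zeros of `x - a` from a point `τ` with `j τ = a` and an element `γ` of the
stabiliser of `τ` whose image has order at least `jOrd τ`. -/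
theorem h85_card_zeros_aux (M : ModClosure N) (a : Kbar) (τ : UpperHalfPlane)
    (hτ : iotaC a = jAn τ) (hpos : 0 < jOrd τ) (γ : SL(2, ℤ)) (hγ : γ • τ = τ)
    (hord : jOrd τ ≤ orderOf (M.π γ)) :
    Nat.card {v : Place Kbar (FN N) // 0 < v.ord (jF N - algebraMap Kbar (FN N) a)}
      = orbN N γ := by
  have hγ' : γ⁻¹ • τ = τ := inv_smul_eq_iff.mpr hγ.symm
  have h := gc_card_zeros (K := Kbar) (E := M.E) (F := FN N) (L := M.L)
    (M.t - algebraMap Kbar M.E a) (h85_transcendental_sub M.t_transcendental a)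
    (h85_gen_sub M.t_gen a) (M.w τ) (M.w_algebraMap τ)
    (by
      rw [M.w_j τ a hτ, ← exp_zero, exp_lt_exp]
      omega)
    (M.π γ) (fun y => by rw [M.w_π, hγ'])
    (by
      rw [M.w_j τ a hτ, exp_le_exp]
      omega)
  rw [map_sub, M.t_map, ← IsScalarTower.algebraMap_apply] at h
  rw [h, gc_orbits_transfer M.π M.π_surjective _ _ M.π_comap γ]
  rfl

theorem asm_card_zeros_zero (M : ModClosure N) (hN : 1 < N) :
    Nat.card {v : Place Kbar (FN N) // 0 < v.ord (jF N - algebraMap Kbar (FN N) 0)}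
      = orbN N (S * T) := by
  refine h85_card_zeros_aux M 0 UpperHalfPlane.ρ (by rw [map_zero, jAn_rho]) ?_ (S * T)
    h27_ST_smul_rho ?_
  · rw [jOrd_rho]; norm_num
  · rw [jOrd_rho]; exact h85_three_le_orderOf_ST M hN

theorem asm_card_zeros_1728 (M : ModClosure N) (hN : 1 < N) :
    Nat.card {v : Place Kbar (FN N) // 0 < v.ord (jF N - algebraMap Kbar (FN N) 1728)}
      = orbN N S := by
  refine h85_card_zeros_aux M 1728 UpperHalfPlane.I (by rw [map_ofNat, jAn_I]) ?_ S
    h27_S_smul_I ?_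
  · rw [jOrd_I]; norm_num
  · rw [jOrd_I]; exact h85_two_le_orderOf_S M hN

theorem asm_card_zeros_generic (M : ModClosure N) (a : Kbar) (h0 : a ≠ 0) (h1728 : a ≠ 1728) :
    Nat.card {v : Place Kbar (FN N) // 0 < v.ord (jF N - algebraMap Kbar (FN N) a)}
      = dedekindPsi N := by
  obtain ⟨τ, hτ⟩ := jAn_surjective (iotaC a)
  have h0' : jAn τ ≠ 0 := by
    rw [hτ]
    exact (map_ne_zero iotaC).mpr h0
  have h1' : jAn τ ≠ 1728 := by
    rw [hτ]
    intro h
    apply h1728
    apply iotaC.injective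
    rw [h, map_ofNat]
  have hj : jOrd τ = 1 := jOrd_eq_one τ h0' h1'
  rw [← asm_orb_one N]
  refine h85_card_zeros_aux M a τ hτ.symm ?_ 1 (one_smul _ _) ?_
  · rw [hj]; norm_num
  · rw [hj, map_one, orderOf_one]

open WithZero in
theorem asm_card_poles (M : ModClosure N) :
    Nat.card {v : Place Kbar (FN N) // v.ord (jF N) < 0} = orbN N T := by
  have ht0 : M.t ≠ 0 := fun h0 => M.t_transcendental (h0 ▸ isAlgebraic_zero)
  have hNpos : 0 < N := Nat.pos_of_ne_zero (NeZero.ne N)
  have h := gc_card_zeros (K := Kbar) (E := M.E) (F := FN N) (L := M.L)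
    (M.t)⁻¹ (h85_transcendental_inv M.t_transcendental)
    (h85_gen_inv ht0 M.t_gen) M.winf M.winf_algebraMap
    (by
      rw [M.winf_j, ← exp_zero, exp_lt_exp]
      omega)
    (M.π T) M.winf_π_T
    (by
      rw [M.winf_j, exp_le_exp]
      have := h85_le_orderOf_T M
      omega)
  rw [map_inv₀, M.t_map] at h
  have hcard : Nat.card {v : Place Kbar (FN N) // v.ord (jF N) < 0}
      = Nat.card {v : Place Kbar (FN N) // 0 < v.ord (jF N)⁻¹} := by
    refine Nat.card_congr (Equiv.subtypeEquivRight fun v => ?_)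
    rw [Place.ord_inv]
    omega
  rw [hcard, h, gc_orbits_transfer M.π M.π_surjective _ _ M.π_comap T]
  rfl

end Fermat.Agent.GTor.Clo
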