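import Fermat.Prelude.Def_ModularCurve_ArithmeticGalois
import Fermat.Prelude.Def_ModularCurve_GenusNumerics
import Fermat.Prelude.Def_AlgebraicCurve_CanonicalDivisor
import Fermat.Agent.S24.An.Hol
import Fermat.Agent.S24.JAnDef
import Fermat.Agent.S24.H27_JOrd

/-!
# G-TOR: the Galois closure of `ℂ(X₀(N)) / ℂ(j)` (copy of `Fermat/Agent/S24/Closure`, with `Q̄`
replaced by `ℂ`)

`ModClosure N` packages a finite Galois closure `L` of `F_N = Q̄(j(q^d) : d ∣ N)` over
`E_N = Q̄(j)`, the surjection `SL(2,ℤ) → Gal(L/E_N)` whose preimage of `Gal(L/F_N)` is `Γ₀(N)`,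
and the valuations of `L` coming from the points of `ℍ` and from the cusp `∞`.
-/

set_option autoImplicit false

noncomputable section

namespace Fermat.Agent.GTor.Clo

open Fermat.Agent.S24

open ModularCurve AlgebraicCurve UpperHalfPlane WithZero IntermediateField
open scoped MatrixGroups

/-- The coefficient field: `ℂ`, seen as an abstract algebraically closed field of characteristic
zero (a `def`, so that the files of `Fermat/Agent/S24/Closure` can be reused verbatim; everything
is definitionally the same as for `ℂ`). -/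
def Kbar : Type := ℂ

instance instFieldKbar : Field Kbar := inferInstanceAs (Field ℂ)
instance instIsAlgClosedKbar : IsAlgClosed Kbar := inferInstanceAs (IsAlgClosed ℂ)
instance instCharZeroKbar : CharZero Kbar := inferInstanceAs (CharZero ℂ)
instance instAlgebraRatKbar : Algebra ℚ Kbar := inferInstanceAs (Algebra ℚ ℂ)

/-- The function field of `X₀(N)` over `ℂ`, inside `ℂ((q))`. -/
abbrev modularFunctionFieldBar (N : ℕ) : IntermediateField Kbar (LaurentSeries Kbar) :=
  laurentBaseChange Kbar (modularFunctionFieldFull N)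

/-- The function field of `X₀(N)` over `Q̄`, as a type. -/
abbrev FN (N : ℕ) : Type := ↥(modularFunctionFieldBar N)

/-- A fixed embedding `Q̄ → ℂ`. -/
def iotaC : Kbar →+* ℂ := RingHom.id ℂ

/-- The formal `j`, with coefficients in `Q̄`. -/
def jBar : LaurentSeries Kbar := coeffEmb Kbar jq

theorem jBar_mem (N : ℕ) [NeZero N] : jBar ∈ modularFunctionFieldBar N := by
  have h := jqd_mem_full N (one_dvd N)
  rw [qExpand_one_apply] at h
  exact coeffEmb_mem_laurentBaseChange Kbar h

/-- `j` as an element of `F_N`. -/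
def jF (N : ℕ) [NeZero N] : FN N := ⟨jBar, jBar_mem N⟩

-- `jOrd` (the order of vanishing of `j - j(τ)` at `τ`) is `Fermat.Agent.S24.jOrd`.

/-- A Galois closure of `F_N / Q̄(j)` with its modular structure.
`E` is (a copy of) the rational function field `Q̄(j)`, generated by `t ↦ j`. -/
structure ModClosure (N : ℕ) [NeZero N] where
  /-- the base field `Q̄(j)` -/
  E : Type
  /-- the Galois closure -/
  L : Type
  [instFieldE : Field E]
  [instField : Field L]
  [instAlgKE : Algebra Kbar E]
  [instAlgK : Algebra Kbar L]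
  [instAlgEF : Algebra E (FN N)]
  [instAlgF : Algebra (FN N) L]
  [instAlgE : Algebra E L]
  [towerKEF : IsScalarTower Kbar E (FN N)]
  [towerKFL : IsScalarTower Kbar (FN N) L]
  [towerEFL : IsScalarTower E (FN N) L]
  [towerKEL : IsScalarTower Kbar E L]
  [finite : FiniteDimensional E L]
  [galois : IsGalois E L]
  /-- the generator `j` of `E` -/
  t : E
  t_transcendental : Transcendental Kbar t
  t_map : algebraMap E (FN N) t = jF N
  t_gen : ∀ y : E, ∃ p q : Polynomial Kbar, Polynomial.aeval t q ≠ 0 ∧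
    y = Polynomial.aeval t p / Polynomial.aeval t q
  /-- the action of the modular group -/
  π : SL(2, ℤ) →* (L ≃ₐ[E] L)
  π_surjective : Function.Surjective π
  π_comap : (IntermediateField.fixingSubgroup
      (IsScalarTower.toAlgHom E (FN N) L).fieldRange).comap π = CongruenceSubgroup.Gamma0 N
  /-- the valuation at a point of `ℍ` -/
  w : ℍ → Valuation L ℤᵐ⁰
  w_algebraMap : ∀ (τ : ℍ) (c : Kbar), c ≠ 0 → w τ (algebraMap Kbar L c) = 1
  w_π : ∀ (τ : ℍ) (γ : SL(2, ℤ)) (y : L), w τ (π γ y) = w (γ⁻¹ • τ) y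
  w_j : ∀ (τ : ℍ) (a : Kbar), iotaC a = jAn τ →
    w τ (algebraMap E L (t - algebraMap Kbar E a)) = exp (-(jOrd τ : ℤ))
  /-- the valuation at the cusp `∞` (order in `q^(1/N)`) -/
  winf : Valuation L ℤᵐ⁰
  winf_algebraMap : ∀ c : Kbar, c ≠ 0 → winf (algebraMap Kbar L c) = 1
  winf_π_T : ∀ y : L, winf (π ModularGroup.T y) = winf y
  winf_j : winf (algebraMap E L t⁻¹) = exp (-(N : ℤ))

end Fermat.Agent.GTor.Clo
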