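import Fermat.Agent.S24.H95_GC2

/-!
# G-TOR A3–A5, WP GC4 (helper24): the valuation of a Galois closure at a prime

Setting of `Fermat.Agent.S24.gc_card_zeros`.  We prove the two statements `gc_val_eq` and
`gc_orderOf_eq` of `Fermat/Agent/GTor/Clo/GC4.lean` (exact signatures, under the names
`h24_gc_val_eq` and `h24_gc_orderOf_eq`).

Route (helper95's note): `C` the integral closure of `A = K[X]` in `L`,
`P = {c ∈ C | w c < 1}`.
* `h24_val_eq_pow`: `w` is a power `vP ^ a` of the `P`-adic valuation (the valuation ring of `w`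
  contains the discrete valuation ring of `P`, hence is equal to it).
* GC2 gives `e(P | X) = |Stab P| = orderOf σ`; comparing at `t` gives `a = 1` and
  `w t = exp (- orderOf σ)`.
* `vP f = v𝔭 f ^ e(P | 𝔭)` for `f ∈ F`, `𝔭 = P ∩ B` (Mathlib `valuation_liesOver`), and
  `e(P | 𝔭) = |Stab_H P| = |⟨σ⟩ ⊓ H|`.
-/

set_option autoImplicit false

noncomputable section

open WithZero IsDedekindDomain AlgebraicCurve
open scoped Pointwise

namespace Fermat.Agent.GTor.Clo.H24

section ValEq

variable {C L : Type*} [CommRing C] [IsDedekindDomain C] [Field L] [Algebra C L]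
  [IsFractionRing C L]

/-- A `ℤᵐ⁰`-valued valuation of `L = Frac C`, nontrivial, equal to `1` on `C ∖ P` and `≤ 1` on
`C`, is a power of the `P`-adic valuation. -/
theorem h24_val_eq_pow (w : Valuation L ℤᵐ⁰) (P : HeightOneSpectrum C)
    (hwC : ∀ c : C, w (algebraMap C L c) ≤ 1)
    (hwP : ∀ c : C, c ∉ P.asIdeal → w (algebraMap C L c) = 1)
    (hne : ∃ x : L, x ≠ 0 ∧ w x < 1) :
    ∃ a : ℕ, 0 < a ∧ ∀ x : L, w x = (P.valuation L x) ^ a := by
  -- the valuation rings agree
  have hle : (P.valuation L).valuationSubring ≤ w.valuationSubring := by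
    intro x hx
    rw [Valuation.mem_valuationSubring_iff] at hx ⊢
    obtain ⟨n, d, hnd⟩ := P.exists_primeCompl_mul_eq_of_integer x hx
    have hd : w (algebraMap C L d) = 1 := hwP d d.2
    have h1 := congrArg w hnd
    rw [map_mul, hd, mul_one] at h1
    rw [h1]
    exact hwC n
  have htop : w.valuationSubring ≠ ⊤ := by
    obtain ⟨x, hx0, hx⟩ := hne
    intro h
    have h1 : x⁻¹ ∈ w.valuationSubring := by rw [h]; exact ValuationSubring.mem_top _
    rw [Valuation.mem_valuationSubring_iff, map_inv₀] at h1
    have h2 : w x ≠ 0 := (Valuation.ne_zero_iff _).mpr hx0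
    have h3 : 1 ≤ w x := by
      by_contra hcon
      push Not at hcon
      have := one_lt_inv_iff₀.mpr ⟨pos_iff_ne_zero.mpr h2, hcon⟩
      exact absurd h1 (not_le.mpr this)
    exact absurd hx (not_lt.mpr h3)
  have hK : Ring.KrullDimLE 1 (P.valuation L).valuationSubring := by
    rw [← HeightOneSpectrum.valuationSubringAtPrime_eq_valuationSubring]
    infer_instance
  have heq : (P.valuation L).valuationSubring = w.valuationSubring :=
    ValuationSubring.eq_of_le_of_ne_top _ hle htop
  have hequiv : (P.valuation L).IsEquiv w := (Valuation.isEquiv_iff_valuationSubring _ _).mpr heq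
  -- uniformizer
  obtain ⟨π, hπ⟩ := P.valuation_exists_uniformizer L
  have hπ0 : π ≠ 0 := by
    rintro rfl
    rw [map_zero] at hπ
    exact exp_ne_zero hπ.symm
  have hπlt : P.valuation L π < 1 := by
    rw [hπ]; exact (exp_lt_exp.mpr (by norm_num : (-1 : ℤ) < 0)).trans_eq exp_zero
  have hwπlt : w π < 1 := hequiv.lt_one_iff_lt_one.mp hπlt
  have hwπ0 : w π ≠ 0 := (Valuation.ne_zero_iff _).mpr hπ0
  have hlog : log (w π) < 0 := by
    rw [← exp_log hwπ0, ← exp_zero, exp_lt_exp] at hwπlt
    exact hwπlt
  obtain ⟨a, ha⟩ : ∃ a : ℕ, (a : ℤ) = -(log (w π)) := ⟨(-(log (w π))).toNat,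
    Int.toNat_of_nonneg (by omega)⟩
  have hwπ : w π = exp (-(a : ℤ)) := by
    rw [ha, neg_neg, exp_log hwπ0]
  refine ⟨a, by omega, fun x => ?_⟩
  rcases eq_or_ne x 0 with rfl | hx0
  · rw [map_zero, map_zero, zero_pow (by omega)]
  have hvx0 : P.valuation L x ≠ 0 := (Valuation.ne_zero_iff _).mpr hx0
  set n : ℤ := log (P.valuation L x) with hn
  have hvx : P.valuation L x = exp n := (exp_log hvx0).symm
  -- `x * π ^ n` is a unit
  have h1 : P.valuation L (x * π ^ n) = 1 := by
    rw [map_mul, map_zpow₀, hπ, hvx, ← exp_zsmul, smul_eq_mul, ← exp_add]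
    rw [show n + n * -1 = 0 by ring, exp_zero]
  have h2 : w (x * π ^ n) = 1 := hequiv.eq_one_iff_eq_one.mp h1
  rw [map_mul, map_zpow₀] at h2
  have hwx : w x = (w π ^ n)⁻¹ := eq_inv_of_mul_eq_one_left h2
  rw [hwx, hvx, ← exp_nsmul, hwπ, ← exp_zsmul, ← exp_neg]
  congr 1
  rw [smul_eq_mul, nsmul_eq_mul]
  ring

end ValEq

section Inertia

/-- Over an algebraically closed field of constants all inertia degrees are `1`. -/
theorem h24_inertiaDeg_eq_one {K R S : Type*} [Field K] [IsAlgClosed K] [CommRing R]
    [CommRing S] [Algebra K R] [Algebra R S] [Algebra K S] [IsScalarTower K R S]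
    (p : Ideal R) (P : Ideal S) [P.LiesOver p] [hp : p.IsMaximal] [hP : P.IsMaximal]
    (hint : Algebra.IsIntegral K (S ⧸ P)) : P.inertiaDeg R = 1 := by
  rw [Ideal.inertiaDeg_eq_of_isMaximal p P]
  let iF1 : Field (R ⧸ p) := Ideal.Quotient.field p
  let iF2 : Field (S ⧸ P) := Ideal.Quotient.field P
  have : IsScalarTower K (R ⧸ p) (S ⧸ P) := by
    refine IsScalarTower.of_algebraMap_eq fun k => ?_
    rw [IsScalarTower.algebraMap_apply K S (S ⧸ P), IsScalarTower.algebraMap_apply K R S,
      IsScalarTower.algebraMap_apply K R (R ⧸ p),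
      ← IsScalarTower.algebraMap_apply R (R ⧸ p) (S ⧸ P),
      ← IsScalarTower.algebraMap_apply R S (S ⧸ P)]
  have hbijK : Function.Bijective (algebraMap K (S ⧸ P)) :=
    IsAlgClosed.algebraMap_bijective_of_isIntegral
  have hbij : Function.Bijective (algebraMap (R ⧸ p) (S ⧸ P)) := by
    refine ⟨(algebraMap (R ⧸ p) (S ⧸ P)).injective, fun x => ?_⟩
    obtain ⟨k, rfl⟩ := hbijK.2 x
    exact ⟨algebraMap K (R ⧸ p) k, (IsScalarTower.algebraMap_apply K (R ⧸ p) (S ⧸ P) k).symm⟩
  have e : (R ⧸ p) ≃ₗ[R ⧸ p] (S ⧸ P) :=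
    LinearEquiv.ofBijective (Algebra.linearMap (R ⧸ p) (S ⧸ P)) hbij
  rw [← e.finrank_eq, Module.finrank_self]

end Inertia

section Abstract

variable {K A E F L : Type*} [Field K] [IsAlgClosed K] [CharZero K]
    [CommRing A] [IsDedekindDomain A] [Algebra K A]
    [Field E] [Field F] [Field L]
    [Algebra A E] [IsFractionRing A E]
    [Algebra E F] [Algebra E L] [Algebra F L] [IsScalarTower E F L]
    [Algebra A F] [IsScalarTower A E F] [Algebra A L] [IsScalarTower A E L] [IsScalarTower A F L]
    [Algebra K F] [IsScalarTower K A F]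
    [FiniteDimensional E L] [IsGalois E L]

set_option maxHeartbeats 1600000 in
open Fermat.Agent.S24 in
theorem h24_gc4_aux
    (t : A) (ht : (Ideal.span {t}).IsMaximal) (ht0 : t ≠ 0)
    (hK : Function.Surjective (algebraMap K (A ⧸ Ideal.span {t})))
    (w : Valuation L ℤᵐ⁰) (hwA : ∀ a : A, w (algebraMap A L a) ≤ 1)
    (hwt : w (algebraMap A L t) < 1)
    (σ : L ≃ₐ[E] L) (hσ : ∀ y, w (σ y) = w y)
    (hord : exp (-(orderOf σ : ℤ)) ≤ w (algebraMap A L t))
    (H : Subgroup (L ≃ₐ[E] L)) [IsGaloisGroup H F L] :
    w (algebraMap A L t) = exp (-(orderOf σ : ℤ)) ∧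
    ∃ v : Place K F, 0 < v.ord (algebraMap A F t) ∧
      ∀ f : F, f ≠ 0 → w (algebraMap F L f)
        = exp (-((Nat.card ↥(Subgroup.zpowers σ ⊓ H) : ℤ) * v.ord f)) := by
  have : CharZero A := charZero_of_injective_algebraMap (algebraMap K A).injective
  have : CharZero E := charZero_of_injective_algebraMap (IsFractionRing.injective A E)
  have : FiniteDimensional E F := FiniteDimensional.left E F L
  have : Algebra.IsSeparable E F := inferInstance
  let B := integralClosure A F
  let C := integralClosure A L
  have : IsDedekindDomain B := IsIntegralClosure.isDedekindDomain A E F B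
  have : IsDedekindDomain C := IsIntegralClosure.isDedekindDomain A E L C
  have : IsFractionRing B F := IsIntegralClosure.isFractionRing_of_finite_extension A E F B
  have : IsFractionRing C L := IsIntegralClosure.isFractionRing_of_finite_extension A E L C
  have : Module.Finite A C := IsIntegralClosure.finite A E L C
  have : Algebra.IsIntegral A B := IsIntegralClosure.isIntegral_algebra A F
  have : Algebra.IsIntegral A C := IsIntegralClosure.isIntegral_algebra A L
  let i1 : Algebra B L := inferInstance
  have : IsScalarTower B F L := inferInstance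
  have : IsScalarTower A B L := inferInstance
  let i2 : Algebra K B := inferInstance
  have : IsScalarTower K B F := inferInstance
  let i3 : Algebra B C := (IsIntegralClosure.lift A C L : B →ₐ[A] C).toRingHom.toAlgebra
  have : IsScalarTower A B C := by
    refine IsScalarTower.of_algebraMap_eq fun a => ?_
    exact ((IsIntegralClosure.lift A C L : B →ₐ[A] C).commutes a).symm
  have : IsScalarTower B C L := by
    refine IsScalarTower.of_algebraMap_eq fun b => ?_
    exact (IsIntegralClosure.algebraMap_lift A C L b).symm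
  have : Algebra.IsIntegral B C := Algebra.IsIntegral.tower_top (R := A)
  let i4 : MulSemiringAction (L ≃ₐ[E] L) C := IsIntegralClosure.MulSemiringAction A E L C
  have : IsGaloisGroup (L ≃ₐ[E] L) A C := IsGaloisGroup.of_isFractionRing _ _ _ E L
  have hGH : IsGaloisGroup H B C := IsGaloisGroup.of_isFractionRing H B C F L
  have hAL : Function.Injective (algebraMap A L) := by
    rw [IsScalarTower.algebraMap_eq A E L]
    exact (algebraMap E L).injective.comp (IsFractionRing.injective A E)
  have hAC : Function.Injective (algebraMap A C) := by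
    intro x y hxy
    apply hAL
    rw [IsScalarTower.algebraMap_apply A C L, IsScalarTower.algebraMap_apply A C L, hxy]
  have : FaithfulSMul A C := (faithfulSMul_iff_algebraMap_injective A C).mpr hAC
  have : Module.IsTorsionFree A C := inferInstance
  have : Module.Flat A C := inferInstance
  -- injectivity of `B → C`
  have hBC : Function.Injective (algebraMap B C) := by
    intro x y hxy
    have h1 := congrArg (algebraMap C L) hxy
    rw [← IsScalarTower.algebraMap_apply B C L, ← IsScalarTower.algebraMap_apply B C L,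
      IsScalarTower.algebraMap_apply B F L, IsScalarTower.algebraMap_apply B F L] at h1
    exact (IsFractionRing.injective B F) ((algebraMap F L).injective h1)
  have : FaithfulSMul B C := (faithfulSMul_iff_algebraMap_injective B C).mpr hBC
  have : Module.IsTorsionFree B C := inferInstance
  have : Module.Flat B C := inferInstance
  have : Module.Finite B C := Module.Finite.of_restrictScalars_finite A B C
  -- the valuation is `≤ 1` on `C`
  have hwC : ∀ c : C, w (algebraMap C L c) ≤ 1 := by
    intro c
    have hint : IsIntegral A (algebraMap C L c) :=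
      (IsIntegralClosure.isIntegral_iff (A := C)).mpr ⟨c, rfl⟩
    have := h95_mem_valuationSubring_of_isIntegral (A := A) w.valuationSubring
      (fun a => (Valuation.mem_valuationSubring_iff _ _).mpr (hwA a)) hint
    exact (Valuation.mem_valuationSubring_iff _ _).mp this
  -- the prime `P`
  set P : Ideal C := h95_valLT w hwC with hP
  have hPprime : P.IsPrime := h95_valLT_isPrime w hwC
  set p : Ideal A := Ideal.span {t} with hp
  have htP : algebraMap A C t ∈ P := by
    rw [hP, h95_mem_valLT, ← IsScalarTower.algebraMap_apply A C L]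
    exact hwt
  have hPp : P.LiesOver p := by
    refine ⟨?_⟩
    have hle : p ≤ P.under A := by
      rw [hp, Ideal.span_singleton_le_iff_mem]
      exact htP
    exact Ideal.IsMaximal.eq_of_le ht (Ideal.IsPrime.under A P).ne_top hle
  -- `σ` stabilises `P`
  have hsmul : ∀ (g : L ≃ₐ[E] L) (c : C), algebraMap C L (g • c) = g (algebraMap C L c) := by
    intro g c
    exact algebraMap_galRestrict_apply A g c
  have hσP : σ • P = P := by
    ext c
    rw [Ideal.mem_pointwise_smul_iff_inv_smul_mem, hP, h95_mem_valLT, h95_mem_valLT, hsmul]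
    have h1 : w ((σ⁻¹ : L ≃ₐ[E] L) (algebraMap C L c)) = w (algebraMap C L c) := by
      rw [← hσ ((σ⁻¹ : L ≃ₐ[E] L) (algebraMap C L c))]
      congr 1
      exact AlgEquiv.apply_symm_apply σ _
    rw [h1]
  have hσstab : σ ∈ MulAction.stabilizer (L ≃ₐ[E] L) P := hσP
  -- residue fields
  have hpne : p ≠ ⊥ := by
    rw [hp, Ne, Ideal.span_singleton_eq_bot]
    exact ht0
  have hPne : P ≠ ⊥ := by
    intro hbot
    rw [hbot, Ideal.mem_bot] at htP
    exact ht0 ((FaithfulSMul.algebraMap_injective A C) (htP.trans (map_zero _).symm))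
  have hPmax : P.IsMaximal := hPprime.isMaximal hPne
  have : PerfectField p.ResidueField := by
    have : CharZero p.ResidueField :=
      charZero_of_injective_ringHom
        ((algebraMap A p.ResidueField).comp (algebraMap K A)).injective
    infer_instance
  have hcard := Ideal.card_stabilizer_eq (G := (L ≃ₐ[E] L)) p P
  rw [Ideal.ramificationIdxIn_eq_ramificationIdx p P (L ≃ₐ[E] L),
    Ideal.inertiaDegIn_eq_inertiaDeg p P (L ≃ₐ[E] L)] at hcard
  -- the residue field of `P` is `K`
  let iKC : Algebra K C := ((algebraMap A C).comp (algebraMap K A)).toAlgebra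
  have : IsScalarTower K A C := IsScalarTower.of_algebraMap_eq' rfl
  have hintP : Algebra.IsIntegral K (C ⧸ P) := by
    let iF1 : Field (A ⧸ p) := Ideal.Quotient.field p
    let iF2 : Field (C ⧸ P) := Ideal.Quotient.field P
    have : IsScalarTower K (A ⧸ p) (C ⧸ P) := by
      refine IsScalarTower.of_algebraMap_eq fun k => ?_
      rw [IsScalarTower.algebraMap_apply K C (C ⧸ P), IsScalarTower.algebraMap_apply K A C,
        IsScalarTower.algebraMap_apply K A (A ⧸ p),
        ← IsScalarTower.algebraMap_apply A (A ⧸ p) (C ⧸ P),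
        ← IsScalarTower.algebraMap_apply A C (C ⧸ P)]
    have : Algebra.IsIntegral K (A ⧸ p) := Algebra.isIntegral_of_surjective hK
    exact Algebra.IsIntegral.trans (A ⧸ p)
  -- inertia degree one
  have hf : P.inertiaDeg A = 1 := h24_inertiaDeg_eq_one (K := K) p P hintP
  rw [hf, mul_one] at hcard
  -- ramification index at most the order of `σ`
  have hee : p.ramificationIdx' P = P.ramificationIdx A :=
    Ideal.ramificationIdx'_eq_ramificationIdx p P hpne
  have htPe : algebraMap A C t ∈ P ^ (p.ramificationIdx' P) := by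
    apply Ideal.le_pow_ramificationIdx'
    exact Ideal.mem_map_of_mem _ (Ideal.mem_span_singleton_self t)
  have hwte : w (algebraMap A L t) ≤ exp (-((p.ramificationIdx' P : ℕ) : ℤ)) := by
    have h2 := h95_le_exp_of_mem_pow w hwC _ htPe
    rwa [← IsScalarTower.algebraMap_apply A C L] at h2
  have he : P.ramificationIdx A ≤ orderOf σ := by
    rw [← hee]
    have h3 := hord.trans hwte
    rw [exp_le_exp] at h3
    omega
  have hstab : MulAction.stabilizer (L ≃ₐ[E] L) P = Subgroup.zpowers σ :=
    h95_stabilizer_eq_zpowers P σ hσP (hcard.trans_le he)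
  -- `orderOf σ = e`
  have hoe : orderOf σ = p.ramificationIdx' P := by
    rw [hee, ← hcard, hstab, Nat.card_zpowers]
  have hwt_eq : w (algebraMap A L t) = exp (-(orderOf σ : ℤ)) := by
    refine le_antisymm ?_ hord
    rw [hoe]
    exact hwte
  refine ⟨hwt_eq, ?_⟩
  have hopos : 0 < orderOf σ := orderOf_pos σ
  -- `w` is the `P`-adic valuation
  let PH : HeightOneSpectrum C := ⟨P, hPprime, hPne⟩
  have htL0 : algebraMap A L t ≠ 0 := fun h => ht0 (hAL (h.trans (map_zero _).symm))
  obtain ⟨a, ha0, ha⟩ := h24_val_eq_pow w PH hwC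
    (fun c hc => le_antisymm (hwC c) (not_lt.mp fun hlt => hc ((h95_mem_valLT w hwC c).mpr hlt)))
    ⟨algebraMap A L t, htL0, hwt⟩
  have hvPt : PH.valuation L (algebraMap A L t) ≤ exp (-((p.ramificationIdx' P : ℕ) : ℤ)) := by
    rw [IsScalarTower.algebraMap_apply A C L, HeightOneSpectrum.valuation_of_algebraMap]
    exact (PH.intValuation_le_pow_iff_mem _ _).mpr htPe
  have ha1 : a = 1 := by
    have h1 : exp (-(orderOf σ : ℤ)) ≤ exp (-((p.ramificationIdx' P : ℕ) : ℤ)) ^ a := by
      rw [← hwt_eq, ha]
      exact pow_le_pow_left' hvPt a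
    rw [← exp_nsmul, exp_le_exp, nsmul_eq_mul, ← hoe] at h1
    have h2 : (a : ℤ) * (orderOf σ : ℤ) ≤ (orderOf σ : ℤ) := by linarith
    have h3 : (a : ℤ) ≤ 1 := by
      by_contra hcon
      push Not at hcon
      have : (2 : ℤ) * (orderOf σ : ℤ) ≤ (a : ℤ) * (orderOf σ : ℤ) := by
        apply mul_le_mul_of_nonneg_right (by omega) (by omega)
      have hpos : (0 : ℤ) < (orderOf σ : ℤ) := by exact_mod_cast hopos
      linarith
    omega
  have hw : ∀ x : L, w x = PH.valuation L x := fun x => by rw [ha x, ha1, pow_one]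
  -- the prime of `B`
  have hAB : Function.Injective (algebraMap A B) := by
    intro x y hxy
    apply hAL
    rw [IsScalarTower.algebraMap_apply A B L, IsScalarTower.algebraMap_apply A B L, hxy]
  have htB : algebraMap A B t ≠ 0 := fun h => ht0 (hAB (h.trans (map_zero _).symm))
  have htq : algebraMap A B t ∈ P.under B := by
    rw [Ideal.mem_comap, ← IsScalarTower.algebraMap_apply A B C]
    exact htP
  have hqne : P.under B ≠ ⊥ := by
    intro hbot
    rw [hbot, Ideal.mem_bot] at htq
    exact htB htq
  let qH : HeightOneSpectrum B := ⟨P.under B, Ideal.IsPrime.under B P, hqne⟩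
  have hlies : PH.asIdeal.LiesOver qH.asIdeal := ⟨rfl⟩
  have hqmax : (P.under B).IsMaximal := (Ideal.IsPrime.under B P).isMaximal hqne
  refine ⟨Place.ofHeightOneSpectrum (K := K) (F := F) qH, ?_, fun f hf0 => ?_⟩
  · have h1 : 0 < (Place.ofHeightOneSpectrum (K := K) (F := F) qH).ord
        (algebraMap B F (algebraMap A B t)) :=
      (h95_ord_pos_iff (K := K) (F := F) (B := B) qH (x := algebraMap A B t) htB).mpr htq
    rw [IsScalarTower.algebraMap_apply A B F]
    exact h1
  -- the ramification index of `P` over `B`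
  have hPq : P.LiesOver (P.under B) := ⟨rfl⟩
  have : PerfectField (P.under B).ResidueField := by
    have : CharZero (P.under B).ResidueField :=
      charZero_of_injective_ringHom
        ((algebraMap B (P.under B).ResidueField).comp (algebraMap K B)).injective
    infer_instance
  have hcard2 := Ideal.card_stabilizer_eq (G := H) (P.under B) P
  rw [Ideal.ramificationIdxIn_eq_ramificationIdx (P.under B) P H,
    Ideal.inertiaDegIn_eq_inertiaDeg (P.under B) P H] at hcard2
  have : IsScalarTower K B C := by
    refine IsScalarTower.of_algebraMap_eq fun k => ?_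
    rw [IsScalarTower.algebraMap_apply K A C, IsScalarTower.algebraMap_apply A B C]
    congr 1
    apply IsFractionRing.injective B F
    rw [← IsScalarTower.algebraMap_apply A B F, ← IsScalarTower.algebraMap_apply K A F,
      ← IsScalarTower.algebraMap_apply K B F]
  have hf2 : P.inertiaDeg B = 1 := h24_inertiaDeg_eq_one (K := K) (P.under B) P hintP
  rw [hf2, mul_one] at hcard2
  have hee2 : (P.under B).ramificationIdx' P = P.ramificationIdx B :=
    Ideal.ramificationIdx'_eq_ramificationIdx (P.under B) P hqne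
  have hcard3 : Nat.card ↥(Subgroup.zpowers σ ⊓ H) = (P.under B).ramificationIdx' P := by
    rw [hee2, ← hcard2]
    refine Nat.card_congr ⟨fun g => ⟨⟨g.1, g.2.2⟩, ?_⟩, fun h => ⟨h.1.1, ?_, h.1.2⟩,
      fun g => rfl, fun h => rfl⟩
    · have h1 : g.1 ∈ MulAction.stabilizer (L ≃ₐ[E] L) P := by
        rw [hstab]; exact g.2.1
      exact h1
    · rw [← hstab]
      exact h.2
  -- the valuation
  have hval := HeightOneSpectrum.valuation_liesOver L qH PH f
  have hord := ord_ofHeightOneSpectrum (K := K) (F := F) qH hf0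
  have hvf0 : qH.valuation F f ≠ 0 := (Valuation.ne_zero_iff _).mpr hf0
  have hE : qH.asIdeal.ramificationIdx' PH.asIdeal = (P.under B).ramificationIdx' P := rfl
  rw [hw, ← hval, hcard3, hord, hE]
  conv_lhs => rw [← exp_log hvf0]
  rw [← exp_nsmul]
  congr 1
  rw [nsmul_eq_mul]
  ring

end Abstract

section Concrete

open Polynomial Fermat.Agent.S24

variable {K E F L : Type*} [Field K] [IsAlgClosed K] [CharZero K] [Field E] [Field F] [Field L]
  [Algebra K E] [Algebra K F] [Algebra K L] [Algebra E F] [Algebra E L] [Algebra F L]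
  [IsScalarTower K E F] [IsScalarTower K E L] [IsScalarTower E F L] [IsScalarTower K F L]
  [FiniteDimensional E L] [IsGalois E L]

/-- GC4, both statements at once. -/
theorem h24_gc4
    (t : E) (ht : Transcendental K t)
    (hE : ∀ y : E, ∃ p q : Polynomial K, Polynomial.aeval t q ≠ 0 ∧
      y = Polynomial.aeval t p / Polynomial.aeval t q)
    (w : Valuation L ℤᵐ⁰) (hwK : ∀ c : K, c ≠ 0 → w (algebraMap K L c) = 1)
    (hwt : w (algebraMap E L t) < 1)
    (σ : L ≃ₐ[E] L) (hσ : ∀ y, w (σ y) = w y)
    (hord : exp (-(orderOf σ : ℤ)) ≤ w (algebraMap E L t)) :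
    w (algebraMap E L t) = exp (-(orderOf σ : ℤ)) ∧
    ∃ v : Place K F, 0 < v.ord (algebraMap E F t) ∧
      ∀ f : F, f ≠ 0 → w (algebraMap F L f)
        = exp (-((Nat.card ↥(Subgroup.zpowers σ ⊓
            IntermediateField.fixingSubgroup (IsScalarTower.toAlgHom E F L).fieldRange) : ℤ)
              * v.ord f)) := by
  let iAE : Algebra K[X] E := (Polynomial.aeval t : K[X] →ₐ[K] E).toRingHom.toAlgebra
  have hAE : ∀ p : K[X], algebraMap K[X] E p = Polynomial.aeval t p := fun p => rfl
  have : IsScalarTower K K[X] E := by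
    refine IsScalarTower.of_algebraMap_eq fun k => ?_
    rw [hAE, Polynomial.algebraMap_apply, Algebra.algebraMap_self, RingHom.id_apply,
      Polynomial.aeval_C]
  let iAF : Algebra K[X] F := ((algebraMap E F).comp (algebraMap K[X] E)).toAlgebra
  let iAL : Algebra K[X] L := ((algebraMap E L).comp (algebraMap K[X] E)).toAlgebra
  have : IsScalarTower K[X] E F := IsScalarTower.of_algebraMap_eq' rfl
  have : IsScalarTower K[X] E L := IsScalarTower.of_algebraMap_eq' rfl
  have : IsScalarTower K[X] F L := by
    refine IsScalarTower.of_algebraMap_eq fun p => ?_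
    rw [IsScalarTower.algebraMap_apply K[X] E L, IsScalarTower.algebraMap_apply K[X] E F,
      ← IsScalarTower.algebraMap_apply E F L]
  have : IsScalarTower K K[X] F := by
    refine IsScalarTower.of_algebraMap_eq fun k => ?_
    rw [IsScalarTower.algebraMap_apply K[X] E F, ← IsScalarTower.algebraMap_apply K K[X] E,
      ← IsScalarTower.algebraMap_apply K E F]
  have hinj : Function.Injective (algebraMap K[X] E) := transcendental_iff_injective.mp ht
  have : FaithfulSMul K[X] E := (faithfulSMul_iff_algebraMap_injective K[X] E).mpr hinj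
  have : IsFractionRing K[X] E := by
    refine IsFractionRing.of_field K[X] E fun y => ?_
    obtain ⟨p, q, -, hy⟩ := hE y
    exact ⟨p, q, hy⟩
  have hXF : algebraMap K[X] F X = algebraMap E F t := by
    rw [IsScalarTower.algebraMap_apply K[X] E F, hAE, Polynomial.aeval_X]
  have hXL : algebraMap K[X] L X = algebraMap E L t := by
    rw [IsScalarTower.algebraMap_apply K[X] E L, hAE, Polynomial.aeval_X]
  -- the subgroup
  have hHeq : fixingSubgroup (L ≃ₐ[E] L) (Set.range (algebraMap F L))
      = IntermediateField.fixingSubgroup (IsScalarTower.toAlgHom E F L).fieldRange := by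
    ext g
    rw [mem_fixingSubgroup_iff, IntermediateField.mem_fixingSubgroup_iff]
    constructor
    · rintro h x ⟨y, rfl⟩
      exact h _ ⟨y, rfl⟩
    · rintro h x ⟨y, rfl⟩
      exact h _ ⟨y, rfl⟩
  have hH0 : IsGaloisGroup (fixingSubgroup (L ≃ₐ[E] L) (Set.range (algebraMap F L))) F L :=
    IsGaloisGroup.of_isScalarTower (L ≃ₐ[E] L) E L F
  have hH : IsGaloisGroup (IntermediateField.fixingSubgroup
      (IsScalarTower.toAlgHom E F L).fieldRange) F L := hHeq ▸ hH0
  have hwA : ∀ a : K[X], w (algebraMap K[X] L a) ≤ 1 := by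
    intro a
    induction a using Polynomial.induction_on' with
    | add p q hp hq => rw [map_add]; exact (w.map_add _ _).trans (max_le hp hq)
    | monomial n k =>
      have hk : w (algebraMap K L k) ≤ 1 := by
        rcases eq_or_ne k 0 with rfl | hk
        · simp
        · exact (hwK k hk).le
      have hkL : algebraMap K[X] L (Polynomial.C k) = algebraMap K L k := by
        rw [IsScalarTower.algebraMap_apply K[X] E L, hAE, Polynomial.aeval_C,
          ← IsScalarTower.algebraMap_apply K E L]
      rw [← Polynomial.C_mul_X_pow_eq_monomial, map_mul, map_pow, hXL, hkL, map_mul, map_pow]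
      exact mul_le_one' hk (pow_le_one' hwt.le n)
  have key := h24_gc4_aux (K := K) (A := K[X]) (E := E) (F := F) (L := L)
    (X : K[X]) h95_span_X_isMaximal Polynomial.X_ne_zero h95_surjective_quotient_span_X
    w hwA (by rw [hXL]; exact hwt) σ hσ (by rw [hXL]; exact hord)
    (IntermediateField.fixingSubgroup (IsScalarTower.toAlgHom E F L).fieldRange)
  rw [hXL, hXF] at key
  exact key

/-- **GC4** (`gc_val_eq` of `GTor/Clo/GC4.lean`). The valuation `w`, restricted to `F`, is `e`
times the order at a place of `F`, `e = |⟨σ⟩ ⊓ Gal (L / F)|`. -/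
theorem h24_gc_val_eq
    (t : E) (ht : Transcendental K t)
    (hE : ∀ y : E, ∃ p q : Polynomial K, Polynomial.aeval t q ≠ 0 ∧
      y = Polynomial.aeval t p / Polynomial.aeval t q)
    (w : Valuation L ℤᵐ⁰) (hwK : ∀ c : K, c ≠ 0 → w (algebraMap K L c) = 1)
    (hwt : w (algebraMap E L t) < 1)
    (σ : L ≃ₐ[E] L) (hσ : ∀ y, w (σ y) = w y)
    (hord : exp (-(orderOf σ : ℤ)) ≤ w (algebraMap E L t)) :
    ∃ v : Place K F, 0 < v.ord (algebraMap E F t) ∧
      ∀ f : F, f ≠ 0 → w (algebraMap F L f)
        = exp (-((Nat.card ↥(Subgroup.zpowers σ ⊓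
            IntermediateField.fixingSubgroup (IsScalarTower.toAlgHom E F L).fieldRange) : ℤ)
              * v.ord f)) :=
  (h24_gc4 t ht hE w hwK hwt σ hσ hord).2

end Concrete

section Concrete2

variable {K E L : Type*} [Field K] [IsAlgClosed K] [CharZero K] [Field E] [Field L]
  [Algebra K E] [Algebra K L] [Algebra E L] [IsScalarTower K E L]
  [FiniteDimensional E L] [IsGalois E L]

/-- `gc_orderOf_eq` of `GTor/Clo/GC4.lean`: in the situation of GC4 the order of `σ` is
`- log (w t)`. -/
theorem h24_gc_orderOf_eq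
    (t : E) (ht : Transcendental K t)
    (hE : ∀ y : E, ∃ p q : Polynomial K, Polynomial.aeval t q ≠ 0 ∧
      y = Polynomial.aeval t p / Polynomial.aeval t q)
    (w : Valuation L ℤᵐ⁰) (hwK : ∀ c : K, c ≠ 0 → w (algebraMap K L c) = 1)
    (hwt : w (algebraMap E L t) < 1)
    (σ : L ≃ₐ[E] L) (hσ : ∀ y, w (σ y) = w y)
    (hord : exp (-(orderOf σ : ℤ)) ≤ w (algebraMap E L t)) :
    w (algebraMap E L t) = exp (-(orderOf σ : ℤ)) :=
  (h24_gc4 (K := K) (E := E) (F := L) (L := L) t ht hE w hwK hwt σ hσ hord).1

end Concrete2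

end Fermat.Agent.GTor.Clo.H24
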