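import Fermat.Agent.S24.H95_GC2
import Fermat.Agent.S24.H72_FF1b

/-!
# G-TOR A3–A5, WP GC5 (helper72): every place over `t = 0` comes from a conjugate of `w`

Setting of `gc_val_eq` (GC4).  Given a place `v` of `F` where `t` vanishes, there is
`g ∈ Gal (L / E)` such that the valuation ring of `w ∘ g`, restricted to `F`, is the valuation
ring of `v`.  With GC4 (taken as a hypothesis `hGC4`) this gives GC5.
-/

set_option autoImplicit false
set_option linter.unusedSectionVars false

noncomputable section

open AlgebraicCurve IntermediateField WithZero IsDedekindDomain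
open scoped Pointwise

namespace Fermat.Agent.GTor.Clo

open Fermat.Agent.S24

section Abstract

variable {K A E F L : Type*} [Field K] [IsAlgClosed K] [CharZero K]
    [CommRing A] [IsDedekindDomain A] [Algebra K A]
    [Field E] [Field F] [Field L]
    [Algebra A E] [IsFractionRing A E]
    [Algebra E F] [Algebra E L] [Algebra F L] [IsScalarTower E F L]
    [Algebra A F] [IsScalarTower A E F] [Algebra A L] [IsScalarTower A E L] [IsScalarTower A F L]
    [Algebra K F] [IsScalarTower K A F]
    [FiniteDimensional E L] [IsGalois E L]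

theorem h72_exists_conj_aux
    (t : A) (ht : (Ideal.span {t}).IsMaximal) (ht0 : t ≠ 0)
    (w : Valuation L ℤᵐ⁰) (hwA : ∀ a : A, w (algebraMap A L a) ≤ 1)
    (hwt : w (algebraMap A L t) < 1)
    (v : Place K F) (hvA : ∀ a : A, algebraMap A F a ∈ v.toValuationSubring)
    (hvt : 0 < v.ord (algebraMap A F t)) :
    ∃ g : L ≃ₐ[E] L, ∀ f : F, f ∈ v.toValuationSubring → w (g (algebraMap F L f)) ≤ 1 := by
  have : CharZero A := charZero_of_injective_algebraMap (algebraMap K A).injective
  have : CharZero E := charZero_of_injective_algebraMap (IsFractionRing.injective A E)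
  have : FiniteDimensional E F := FiniteDimensional.left E F L
  have : Algebra.IsSeparable E F := inferInstance
  let B := integralClosure A F
  let C := integralClosure A L
  have : IsDedekindDomain B := IsIntegralClosure.isDedekindDomain A E F B
  have : IsDedekindDomain C := IsIntegralClosure.isDedekindDomain A E L C
  have : IsFractionRing B F := IsIntegralClosure.isFractionRing_of_finite_extension A E F B
  have : IsFractionRing C L := IsIntegralClosure.isFractionRing_of_finite_extension A E L C
  have : Module.Finite A C := IsIntegralClosure.finite A E L C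
  have : Algebra.IsIntegral A B := IsIntegralClosure.isIntegral_algebra A F
  have : Algebra.IsIntegral A C := IsIntegralClosure.isIntegral_algebra A L
  let i1 : Algebra B L := inferInstance
  have : IsScalarTower B F L := inferInstance
  have : IsScalarTower A B L := inferInstance
  let i2 : Algebra K B := inferInstance
  have : IsScalarTower K B F := inferInstance
  let i3 : Algebra B C := (IsIntegralClosure.lift A C L : B →ₐ[A] C).toRingHom.toAlgebra
  have : IsScalarTower A B C := by
    refine IsScalarTower.of_algebraMap_eq fun a => ?_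
    exact ((IsIntegralClosure.lift A C L : B →ₐ[A] C).commutes a).symm
  have : IsScalarTower B C L := by
    refine IsScalarTower.of_algebraMap_eq fun b => ?_
    exact (IsIntegralClosure.algebraMap_lift A C L b).symm
  have : Algebra.IsIntegral B C := Algebra.IsIntegral.tower_top (R := A)
  let i4 : MulSemiringAction (L ≃ₐ[E] L) C := IsIntegralClosure.MulSemiringAction A E L C
  have : IsGaloisGroup (L ≃ₐ[E] L) A C := IsGaloisGroup.of_isFractionRing _ _ _ E L
  have hAL : Function.Injective (algebraMap A L) := by
    rw [IsScalarTower.algebraMap_eq A E L]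
    exact (algebraMap E L).injective.comp (IsFractionRing.injective A E)
  have hAC : Function.Injective (algebraMap A C) := by
    intro x y hxy
    apply hAL
    rw [IsScalarTower.algebraMap_apply A C L, IsScalarTower.algebraMap_apply A C L, hxy]
  have : FaithfulSMul A C := (faithfulSMul_iff_algebraMap_injective A C).mpr hAC
  have hBC : Function.Injective (algebraMap B C) := by
    intro x y hxy
    have h1 := congrArg (algebraMap C L) hxy
    rw [← IsScalarTower.algebraMap_apply B C L, ← IsScalarTower.algebraMap_apply B C L,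
      IsScalarTower.algebraMap_apply B F L, IsScalarTower.algebraMap_apply B F L] at h1
    exact (IsFractionRing.injective B F) ((algebraMap F L).injective h1)
  have : FaithfulSMul B C := (faithfulSMul_iff_algebraMap_injective B C).mpr hBC
  have hAB : Function.Injective (algebraMap A B) := by
    intro x y hxy
    apply hAL
    rw [IsScalarTower.algebraMap_apply A B L, IsScalarTower.algebraMap_apply A B L, hxy]
  have htB : algebraMap A B t ≠ 0 := fun h => ht0 (hAB (h.trans (map_zero _).symm))
  -- the valuation is `≤ 1` on `C`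
  have hwC : ∀ c : C, w (algebraMap C L c) ≤ 1 := by
    intro c
    have hint : IsIntegral A (algebraMap C L c) :=
      (IsIntegralClosure.isIntegral_iff (A := C)).mpr ⟨c, rfl⟩
    have := h95_mem_valuationSubring_of_isIntegral (A := A) w.valuationSubring
      (fun a => (Valuation.mem_valuationSubring_iff _ _).mpr (hwA a)) hint
    exact (Valuation.mem_valuationSubring_iff _ _).mp this
  -- the prime `P` of `w`
  set P : Ideal C := h95_valLT w hwC with hP
  have hPprime : P.IsPrime := h95_valLT_isPrime w hwC
  set p : Ideal A := Ideal.span {t} with hp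
  have htP : algebraMap A C t ∈ P := by
    rw [hP, h95_mem_valLT, ← IsScalarTower.algebraMap_apply A C L]
    exact hwt
  have hPp : P.LiesOver p := by
    refine ⟨?_⟩
    have hle : p ≤ P.under A := by
      rw [hp, Ideal.span_singleton_le_iff_mem]
      exact htP
    exact Ideal.IsMaximal.eq_of_le ht (Ideal.IsPrime.under A P).ne_top hle
  have hsmul : ∀ (g : L ≃ₐ[E] L) (c : C), algebraMap C L (g • c) = g (algebraMap C L c) := by
    intro g c
    exact algebraMap_galRestrict_apply A g c
  -- the prime of `v`
  have hB : ∀ b : B, algebraMap B F b ∈ v.toValuationSubring := fun b =>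
    h95_mem_valuationSubring_of_isIntegral (A := A) v.toValuationSubring hvA
      ((IsIntegralClosure.isIntegral_iff (A := B)).mpr ⟨b, rfl⟩)
  obtain ⟨wB, hwB⟩ := exists_heightOneSpectrum_of_le v hB
  have hvw : Place.ofHeightOneSpectrum (K := K) (F := F) wB = v := Place.ext hwB.symm
  have htq : algebraMap A B t ∈ wB.asIdeal := by
    have h1 := h72_ord_pos_iff (K := K) (F := F) B wB (algebraMap A B t) htB
    rw [hvw, ← IsScalarTower.algebraMap_apply A B F] at h1
    exact h1.mp hvt
  have hqp : wB.asIdeal.LiesOver p := by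
    refine ⟨?_⟩
    have hle : p ≤ wB.asIdeal.under A := by
      rw [hp, Ideal.span_singleton_le_iff_mem]
      exact htq
    have := wB.isPrime
    exact Ideal.IsMaximal.eq_of_le ht (Ideal.IsPrime.under A wB.asIdeal).ne_top hle
  -- a prime `Q` of `C` over the prime of `v`
  have := wB.isPrime
  obtain ⟨⟨Q, hQprime, hQq⟩⟩ := Ideal.nonempty_primesOver (S := C) wB.asIdeal
  have hQp : Q.LiesOver p := Ideal.LiesOver.trans Q wB.asIdeal p
  -- conjugate
  obtain ⟨g, hg⟩ := Ideal.exists_smul_eq_of_isGaloisGroup p Q P (L ≃ₐ[E] L)
  refine ⟨g, fun f hf => ?_⟩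
  have hf' : wB.valuation F f ≤ 1 := by
    rw [hwB, Valuation.mem_valuationSubring_iff] at hf
    exact hf
  obtain ⟨n, d, hnd⟩ := wB.exists_primeCompl_mul_eq_of_integer f hf'
  -- `w (g d) = 1`
  have hdQ : algebraMap B C (d : B) ∉ Q := by
    intro h
    have : (d : B) ∈ Q.under B := h
    rw [← hQq.over] at this
    exact d.2 this
  have hdP : g • algebraMap B C (d : B) ∉ P := by
    intro h
    rw [← hg, Ideal.smul_mem_pointwise_smul_iff] at h
    exact hdQ h
  have hd1 : w (g (algebraMap F L (algebraMap B F (d : B)))) = 1 := by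
    have h1 : algebraMap F L (algebraMap B F (d : B)) = algebraMap C L (algebraMap B C (d : B)) := by
      rw [← IsScalarTower.algebraMap_apply B F L, ← IsScalarTower.algebraMap_apply B C L]
    rw [h1, ← hsmul]
    refine le_antisymm (hwC _) ?_
    by_contra hlt
    rw [not_le] at hlt
    exact hdP ((h95_mem_valLT w hwC _).mpr hlt)
  have hn1 : w (g (algebraMap F L (algebraMap B F n))) ≤ 1 := by
    have h1 : algebraMap F L (algebraMap B F n) = algebraMap C L (algebraMap B C n) := by
      rw [← IsScalarTower.algebraMap_apply B F L, ← IsScalarTower.algebraMap_apply B C L]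
    rw [h1, ← hsmul]
    exact hwC _
  have h2 := congrArg (fun y => w (g (algebraMap F L y))) hnd
  simp only [map_mul] at h2
  rw [hd1, mul_one] at h2
  rw [h2]
  exact hn1

end Abstract

section Concrete

open Polynomial

variable {K E F L : Type*} [Field K] [IsAlgClosed K] [CharZero K] [Field E] [Field F] [Field L]
  [Algebra K E] [Algebra K F] [Algebra K L] [Algebra E F] [Algebra E L] [Algebra F L]
  [IsScalarTower K E F] [IsScalarTower K E L] [IsScalarTower E F L] [IsScalarTower K F L]
  [FiniteDimensional E L] [IsGalois E L]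

/-- A place of `F` where `t` vanishes is dominated by a conjugate of `w`. -/
theorem h72_exists_conj
    (t : E) (ht : Transcendental K t)
    (hE : ∀ y : E, ∃ p q : Polynomial K, Polynomial.aeval t q ≠ 0 ∧
      y = Polynomial.aeval t p / Polynomial.aeval t q)
    (w : Valuation L ℤᵐ⁰) (hwK : ∀ c : K, c ≠ 0 → w (algebraMap K L c) = 1)
    (hwt : w (algebraMap E L t) < 1)
    (v : Place K F) (hv : 0 < v.ord (algebraMap E F t)) :
    ∃ g : L ≃ₐ[E] L, ∀ f : F, f ∈ v.toValuationSubring → w (g (algebraMap F L f)) ≤ 1 := by
  let iAE : Algebra K[X] E := (Polynomial.aeval t : K[X] →ₐ[K] E).toRingHom.toAlgebra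
  have hAE : ∀ p : K[X], algebraMap K[X] E p = Polynomial.aeval t p := fun p => rfl
  have : IsScalarTower K K[X] E := by
    refine IsScalarTower.of_algebraMap_eq fun k => ?_
    rw [hAE, Polynomial.algebraMap_apply, Algebra.algebraMap_self, RingHom.id_apply,
      Polynomial.aeval_C]
  let iAF : Algebra K[X] F := ((algebraMap E F).comp (algebraMap K[X] E)).toAlgebra
  let iAL : Algebra K[X] L := ((algebraMap E L).comp (algebraMap K[X] E)).toAlgebra
  have : IsScalarTower K[X] E F := IsScalarTower.of_algebraMap_eq' rfl
  have : IsScalarTower K[X] E L := IsScalarTower.of_algebraMap_eq' rfl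
  have : IsScalarTower K[X] F L := by
    refine IsScalarTower.of_algebraMap_eq fun p => ?_
    rw [IsScalarTower.algebraMap_apply K[X] E L, IsScalarTower.algebraMap_apply K[X] E F,
      ← IsScalarTower.algebraMap_apply E F L]
  have : IsScalarTower K K[X] F := by
    refine IsScalarTower.of_algebraMap_eq fun k => ?_
    rw [IsScalarTower.algebraMap_apply K[X] E F, ← IsScalarTower.algebraMap_apply K K[X] E,
      ← IsScalarTower.algebraMap_apply K E F]
  have hinj : Function.Injective (algebraMap K[X] E) := transcendental_iff_injective.mp ht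
  have : FaithfulSMul K[X] E := (faithfulSMul_iff_algebraMap_injective K[X] E).mpr hinj
  have : IsFractionRing K[X] E := by
    refine IsFractionRing.of_field K[X] E fun y => ?_
    obtain ⟨p, q, -, hy⟩ := hE y
    exact ⟨p, q, hy⟩
  have hXF : algebraMap K[X] F X = algebraMap E F t := by
    rw [IsScalarTower.algebraMap_apply K[X] E F, hAE, Polynomial.aeval_X]
  have hXL : algebraMap K[X] L X = algebraMap E L t := by
    rw [IsScalarTower.algebraMap_apply K[X] E L, hAE, Polynomial.aeval_X]
  have hmemF : ∀ (V : ValuationSubring F), (∀ k : K, algebraMap K F k ∈ V) →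
      algebraMap E F t ∈ V → ∀ a : K[X], algebraMap K[X] F a ∈ V := by
    intro V hVK hVt a
    induction a using Polynomial.induction_on' with
    | add p q hp hq => rw [map_add]; exact V.add_mem _ _ hp hq
    | monomial n k =>
      rw [← Polynomial.C_mul_X_pow_eq_monomial, map_mul, map_pow, hXF,
        ← Polynomial.algebraMap_eq, ← IsScalarTower.algebraMap_apply K K[X] F]
      exact V.mul_mem _ _ (hVK k) (V.pow_mem hVt n)
  have hwA : ∀ a : K[X], w (algebraMap K[X] L a) ≤ 1 := by
    intro a
    induction a using Polynomial.induction_on' with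
    | add p q hp hq => rw [map_add]; exact (w.map_add _ _).trans (max_le hp hq)
    | monomial n k =>
      have hk : w (algebraMap K L k) ≤ 1 := by
        rcases eq_or_ne k 0 with rfl | hk
        · simp
        · exact (hwK k hk).le
      have hkL : algebraMap K[X] L (Polynomial.C k) = algebraMap K L k := by
        rw [IsScalarTower.algebraMap_apply K[X] E L, hAE, Polynomial.aeval_C,
          ← IsScalarTower.algebraMap_apply K E L]
      rw [← Polynomial.C_mul_X_pow_eq_monomial, map_mul, map_pow, hXL, hkL, map_mul, map_pow]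
      exact mul_le_one' hk (pow_le_one' hwt.le n)
  exact h72_exists_conj_aux (K := K) (A := K[X]) (E := E) (F := F) (L := L)
    (X : K[X]) h95_span_X_isMaximal Polynomial.X_ne_zero w hwA (by rw [hXL]; exact hwt) v
    (hmemF v.toValuationSubring v.algebraMap_mem'
      (h95_mem_of_ord_nonneg v hv.le))
    (by rw [hXF]; exact hv)

theorem h72_ord_nonneg_of_mem (v : Place K F) {f : F} (h : f ∈ v.toValuationSubring) :
    0 ≤ v.ord f := by
  rcases eq_or_ne f 0 with rfl | hf
  · simp
  have h1 : v.adicValuation f ≤ 1 := by
    have := v.adicValuation_coe ⟨f, h⟩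
    rw [show ((⟨f, h⟩ : v.toValuationSubring) : F) = f from rfl] at this
    rw [this]
    exact IsDedekindDomain.HeightOneSpectrum.intValuation_le_one _ _
  have h2 : WithZero.log (v.adicValuation f) ≤ 0 := by
    rw [← WithZero.log_one]
    exact (WithZero.log_le_log (v.adicValuation_ne_zero hf) one_ne_zero).mpr h1
  simp only [Place.ord]
  omega

/-- **GC5**, with GC4 as a hypothesis. Every place of `F` over `t = 0` arises as in GC4 from a
conjugate `w ∘ g` of `w`. -/
theorem h72_gc_val_eq_of_place
    (t : E) (ht : Transcendental K t)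
    (hE : ∀ y : E, ∃ p q : Polynomial K, Polynomial.aeval t q ≠ 0 ∧
      y = Polynomial.aeval t p / Polynomial.aeval t q)
    (hGC4 : ∀ (w' : Valuation L ℤᵐ⁰), (∀ c : K, c ≠ 0 → w' (algebraMap K L c) = 1) →
      w' (algebraMap E L t) < 1 → ∀ σ' : L ≃ₐ[E] L, (∀ y, w' (σ' y) = w' y) →
      exp (-(orderOf σ' : ℤ)) ≤ w' (algebraMap E L t) →
      ∃ v' : Place K F, 0 < v'.ord (algebraMap E F t) ∧
        ∀ f : F, f ≠ 0 → w' (algebraMap F L f)
          = exp (-((Nat.card ↥(Subgroup.zpowers σ' ⊓
              IntermediateField.fixingSubgroup (IsScalarTower.toAlgHom E F L).fieldRange) : ℤ)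
                * v'.ord f)))
    (w : Valuation L ℤᵐ⁰) (hwK : ∀ c : K, c ≠ 0 → w (algebraMap K L c) = 1)
    (hwt : w (algebraMap E L t) < 1)
    (σ : L ≃ₐ[E] L) (hσ : ∀ y, w (σ y) = w y)
    (hord : exp (-(orderOf σ : ℤ)) ≤ w (algebraMap E L t))
    (v : Place K F) (hv : 0 < v.ord (algebraMap E F t)) :
    ∃ g : L ≃ₐ[E] L, ∀ f : F, f ≠ 0 → w (g (algebraMap F L f))
        = exp (-((Nat.card ↥(Subgroup.zpowers (g⁻¹ * σ * g) ⊓
            IntermediateField.fixingSubgroup (IsScalarTower.toAlgHom E F L).fieldRange) : ℤ)
              * v.ord f)) := by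
  obtain ⟨g, hg⟩ := h72_exists_conj t ht hE w hwK hwt v hv
  let w' : Valuation L ℤᵐ⁰ := w.comap (g : L →+* L)
  have hw' : ∀ y : L, w' y = w (g y) := fun y => rfl
  have h1 : ∀ c : K, c ≠ 0 → w' (algebraMap K L c) = 1 := by
    intro c hc
    rw [hw', IsScalarTower.algebraMap_apply K E L, g.commutes,
      ← IsScalarTower.algebraMap_apply K E L]
    exact hwK c hc
  have h2 : w' (algebraMap E L t) = w (algebraMap E L t) := by
    rw [hw', g.commutes]
  have h3 : ∀ y, w' ((g⁻¹ * σ * g) y) = w' y := by
    intro y
    rw [hw', hw']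
    have : g ((g⁻¹ * σ * g) y) = σ (g y) := by
      rw [AlgEquiv.mul_apply, AlgEquiv.mul_apply]
      exact AlgEquiv.apply_symm_apply g _
    rw [this, hσ]
  have h4 : orderOf (g⁻¹ * σ * g) = orderOf σ := by
    have := orderOf_injective (MulAut.conj g⁻¹).toMonoidHom (MulEquiv.injective _) σ
    rw [MulEquiv.toMonoidHom_eq_coe, MonoidHom.coe_coe, MulAut.conj_apply, inv_inv] at this
    exact this
  obtain ⟨v', -, hv'⟩ := hGC4 w' h1 (by rw [h2]; exact hwt) (g⁻¹ * σ * g) h3
    (by rw [h2, h4]; exact hord)
  have hepos : (0 : ℤ) < (Nat.card ↥(Subgroup.zpowers (g⁻¹ * σ * g) ⊓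
      IntermediateField.fixingSubgroup (IsScalarTower.toAlgHom E F L).fieldRange) : ℤ) := by
    exact_mod_cast Nat.card_pos
  have hle : v.toValuationSubring ≤ v'.toValuationSubring := by
    intro f hf
    rcases eq_or_ne f 0 with rfl | hf0
    · exact v'.toValuationSubring.zero_mem
    have h5 := hg f hf
    rw [← hw', hv' f hf0, ← exp_zero, exp_le_exp] at h5
    apply h95_mem_of_ord_nonneg
    by_contra hneg
    rw [not_le] at hneg
    have := mul_neg_of_pos_of_neg hepos hneg
    omega
  have hvv' : v = v' :=
    Place.ext (ValuationSubring.eq_of_le_of_ne_top _ hle v'.ne_top')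
  refine ⟨g, fun f hf => ?_⟩
  rw [hvv', ← hw']
  exact hv' f hf

end Concrete

end Fermat.Agent.GTor.Clo
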