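import Fermat.Agent.S24.H72_FF1b

/-!
# G-TOR A3–A5, WP GCtriv (helper72): valuations of `K(x)` vanishing at `x`

`F = K(x)`.  There is exactly one place of `F / K` where `x` vanishes, `x` has order one there,
and every valuation `w` of `F`, trivial on `K`, with `w x = exp (-m)`, `m > 0`, is the `m`-th
power of the valuation of this place.
-/

set_option autoImplicit false

noncomputable section

open AlgebraicCurve IntermediateField WithZero Polynomial

namespace Fermat.Agent.GTor.Clo

section Val

variable {K F : Type*} [Field K] [Field F] [Algebra K F]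

/-- A valuation that is `≤ 1` on `K` and at `x` is `≤ 1` on `K[x]`. -/
theorem h72_val_aeval_le_one (u : Valuation F ℤᵐ⁰) (huK : ∀ c : K, u (algebraMap K F c) ≤ 1)
    (x : F) (hux : u x ≤ 1) (p : K[X]) : u (aeval x p) ≤ 1 := by
  induction p using Polynomial.induction_on' with
  | add p q hp hq =>
    rw [map_add]
    exact (u.map_add _ _).trans (max_le hp hq)
  | monomial n c =>
    rw [aeval_monomial, map_mul, map_pow]
    exact mul_le_one' (huK c) (pow_le_one₀ zero_le hux)

/-- A valuation, trivial on `K^×`, with `u x < 1`: its value on `p(x)` is `u x ^ k`, `k` the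
multiplicity of the root `0` of `p`. -/
theorem h72_val_aeval (u : Valuation F ℤᵐ⁰) (huK : ∀ c : K, c ≠ 0 → u (algebraMap K F c) = 1)
    (x : F) (hux : u x < 1) (p : K[X]) (hp : p ≠ 0) :
    u (aeval x p) = u x ^ (p.rootMultiplicity 0) := by
  have huK' : ∀ c : K, u (algebraMap K F c) ≤ 1 := by
    intro c
    rcases eq_or_ne c 0 with rfl | hc
    · simp
    · exact (huK c hc).le
  obtain ⟨q, hq, hXq⟩ := Polynomial.exists_eq_pow_rootMultiplicity_mul_and_not_dvd p hp 0
  rw [C_0, sub_zero] at hq hXq
  have hq0 : q.coeff 0 ≠ 0 := fun h => hXq (Polynomial.X_dvd_iff.mpr h)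
  have hdecomp : aeval x q = x * aeval x q.divX + algebraMap K F (q.coeff 0) := by
    conv_lhs => rw [← Polynomial.divX_mul_X_add q]
    rw [map_add, map_mul, aeval_X, aeval_C, mul_comm]
  have h1 : u (x * aeval x q.divX) < 1 := by
    rw [map_mul]
    calc u x * u (aeval x q.divX) ≤ u x * 1 :=
          mul_le_mul_right (h72_val_aeval_le_one u huK' x hux.le _) _
      _ = u x := mul_one _
      _ < 1 := hux
  have h2 : u (aeval x q) = 1 := by
    rw [hdecomp, add_comm]
    have h3 := huK _ hq0
    rw [Valuation.map_add_eq_of_lt_left u (by rw [h3]; exact h1), h3]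
  conv_lhs => rw [hq]
  rw [map_mul, map_pow, aeval_X, map_mul, map_pow, h2, mul_one]

end Val

section Places

variable {K F : Type*} [Field K] [Field F] [Algebra K F]

theorem h72_finrank_of_eq_top (S : IntermediateField K F) (hS : S = ⊤) :
    FiniteDimensional S F ∧ Module.finrank S F = 1 := by
  subst hS
  exact ⟨Module.finite_of_finrank_pos (by rw [IntermediateField.finrank_top]; exact one_pos),
    IntermediateField.finrank_top⟩

theorem h72_adicValuation_algebraMap (v : Place K F) (c : K) (hc : c ≠ 0) :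
    v.adicValuation (algebraMap K F c) = 1 := by
  have hu : IsUnit (algebraMap K v.toValuationSubring c) := (hc.isUnit).map _
  have := (v.adicValuation_coe_eq_one_iff (algebraMap K v.toValuationSubring c)).mpr hu
  rwa [v.coe_algebraMap] at this

theorem h72_adicValuation_eq_exp (v : Place K F) {f : F} (hf : f ≠ 0) :
    v.adicValuation f = exp (-(v.ord f)) := by
  rw [Place.ord, neg_neg, exp_log (v.adicValuation_ne_zero hf)]

variable [IsAlgClosed K] [CharZero K]

/-- `K(x)` has a place where `x` vanishes to order one, and it is the only zero of `x`. -/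
theorem h72_exists_unique_zero (x : F) (hx : Transcendental K x) (htop : K⟮x⟯ = ⊤) :
    ∃ v : Place K F, v.ord x = 1 ∧ ∀ v' : Place K F, 0 < v'.ord x → v' = v := by
  classical
  obtain ⟨hfd, hrank⟩ := h72_finrank_of_eq_top K⟮x⟯ htop
  obtain ⟨hfin, hsum⟩ := Fermat.Agent.S24.ff_zeros x hx
  rw [hrank, finsum_mem_eq_finite_toFinset_sum _ hfin] at hsum
  have hpos : ∀ v ∈ hfin.toFinset, 0 < v.ord x := fun v hv => by
    simpa using hv
  have hne : hfin.toFinset.Nonempty := by
    by_contra hemp
    rw [Finset.not_nonempty_iff_eq_empty] at hemp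
    rw [hemp, Finset.sum_empty] at hsum
    norm_num at hsum
  obtain ⟨v, hv⟩ := hne
  have hle : ∀ v' ∈ hfin.toFinset, v' ≠ v → False := by
    intro v' hv' hne'
    have h2 : v.ord x + v'.ord x ≤ ∑ u ∈ hfin.toFinset, u.ord x := by
      have hsub : ({v, v'} : Finset (Place K F)) ⊆ hfin.toFinset := by
        intro u hu
        rcases Finset.mem_insert.mp hu with rfl | hu
        · exact hv
        · rw [Finset.mem_singleton.mp hu]; exact hv'
      calc v.ord x + v'.ord x = ∑ u ∈ ({v, v'} : Finset (Place K F)), u.ord x := by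
            rw [Finset.sum_pair (Ne.symm hne')]
        _ ≤ ∑ u ∈ hfin.toFinset, u.ord x :=
            Finset.sum_le_sum_of_subset_of_nonneg hsub
              (fun u hu _ => (hpos u hu).le)
    have := hpos v hv
    have := hpos v' hv'
    rw [hsum] at h2
    push_cast at h2
    omega
  refine ⟨v, ?_, ?_⟩
  · have h1 : v.ord x ≤ ∑ u ∈ hfin.toFinset, u.ord x :=
      Finset.single_le_sum (f := fun u : Place K F => u.ord x)
        (fun u hu => (hpos u hu).le) hv
    have := hpos v hv
    rw [hsum] at h1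
    push_cast at h1
    omega
  · intro v' hv'
    by_contra hne'
    exact hle v' (by simpa using hv') hne'

/-- **GCtriv**, uniqueness: `K(x)` has only one place where `x` vanishes. -/
theorem h72_gc_val_triv_unique (x : F) (hx : Transcendental K x) (htop : K⟮x⟯ = ⊤)
    (v v' : Place K F) (hv : 0 < v.ord x) (hv' : 0 < v'.ord x) : v = v' := by
  obtain ⟨v₀, -, huniq⟩ := h72_exists_unique_zero x hx htop
  rw [huniq v hv, huniq v' hv']

/-- **GCtriv** (the case `F = K(x)`). A valuation of `K(x)`, trivial on `K`, with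
`w x = exp (-m)`, `m > 0`, is `m` times the order at a place. -/
theorem h72_gc_val_triv (x : F) (hx : Transcendental K x) (htop : K⟮x⟯ = ⊤)
    (w : Valuation F ℤᵐ⁰) (hwK : ∀ c : K, c ≠ 0 → w (algebraMap K F c) = 1)
    (m : ℕ) (hm : 0 < m) (hwx : w x = exp (-(m : ℤ))) :
    ∃ v : Place K F, 0 < v.ord x ∧ ∀ f : F, f ≠ 0 → w f = exp (-((m : ℤ) * v.ord f)) := by
  obtain ⟨v, hvx, -⟩ := h72_exists_unique_zero x hx htop
  have hx0 : x ≠ 0 := fun h => by
    rw [h] at hvx
    simp at hvx
  refine ⟨v, by rw [hvx]; exact one_pos, ?_⟩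
  have hwx1 : w x < 1 := by
    rw [hwx, ← exp_zero, exp_lt_exp]
    omega
  have hvx' : v.adicValuation x = exp (-(1 : ℤ)) := by
    rw [h72_adicValuation_eq_exp v hx0, hvx]
  have hvx1 : v.adicValuation x < 1 := by
    rw [hvx', ← exp_zero, exp_lt_exp]
    omega
  -- both valuations on polynomials in `x`
  have hpoly : ∀ p : K[X], p ≠ 0 → aeval x p ≠ 0 ∧
      w (aeval x p) = exp (-((m : ℤ) * (p.rootMultiplicity 0 : ℤ))) ∧
      v.ord (aeval x p) = (p.rootMultiplicity 0 : ℤ) := by
    intro p hp
    have hne : aeval x p ≠ 0 := fun h => hx ⟨p, hp, h⟩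
    refine ⟨hne, ?_, ?_⟩
    · rw [h72_val_aeval w hwK x hwx1 p hp, hwx, ← exp_nsmul, nsmul_eq_mul]
      congr 1
      ring
    · have h1 := h72_val_aeval v.adicValuation (h72_adicValuation_algebraMap v) x hvx1 p hp
      rw [hvx', ← exp_nsmul, nsmul_eq_mul, h72_adicValuation_eq_exp v hne, exp_inj] at h1
      linarith
  intro f hf
  have hmem : f ∈ K⟮x⟯ := by rw [htop]; exact IntermediateField.mem_top
  obtain ⟨r, s, hrs⟩ := (IntermediateField.mem_adjoin_simple_iff K f).mp hmem
  have hs0 : aeval x s ≠ 0 := by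
    intro h
    rw [h, div_zero] at hrs
    exact hf hrs
  have hr0 : aeval x r ≠ 0 := by
    intro h
    rw [h, zero_div] at hrs
    exact hf hrs
  have hr : r ≠ 0 := fun h => hr0 (by rw [h, map_zero])
  have hs : s ≠ 0 := fun h => hs0 (by rw [h, map_zero])
  obtain ⟨-, hwr, hvr⟩ := hpoly r hr
  obtain ⟨-, hws, hvs⟩ := hpoly s hs
  have hord : v.ord f = (r.rootMultiplicity 0 : ℤ) - (s.rootMultiplicity 0 : ℤ) := by
    rw [hrs, div_eq_mul_inv, v.ord_mul hr0 (inv_ne_zero hs0), v.ord_inv, hvr, hvs]
    ring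
  rw [hord, hrs, map_div₀, hwr, hws, ← exp_sub]
  congr 1
  ring

end Places

end Fermat.Agent.GTor.Clo
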