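import Fermat.Agent.S24.H95_GC2
import Fermat.Agent.GTor.Clo.H72_GCtriv
import Fermat.Agent.GTor.Clo.H72_GC5
import Fermat.Agent.GTor.Clo.H24_GC4

/-!
# G-TOR A3–A5, abstract part (WPs GC4, GC5, GCtriv): the valuation of a Galois closure at a prime

Setting of `Fermat.Agent.S24.gc_card_zeros` (file `Fermat/Agent/S24/H95_GC2.lean`):
`K` algebraically closed, `E = K(t)`, `L / E` finite Galois, `F` an intermediate field,
`w` a valuation of `L` trivial on `K` with `w t < 1`, invariant under `σ ∈ Gal (L / E)`, and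
normalised by `exp (- orderOf σ) ≤ w t`.

Proof sketch. `C` = integral closure of `K[t]` in `L`, `P = {c ∈ C | w c < 1}` (a prime over `(t)`),
`B` = integral closure in `F`, `𝔭 = P ∩ B`.
* GC2 shows `Stab P = ⟨σ⟩` and `e(P | t) = orderOf σ = - log (w t)`.
* The valuation ring of `w` contains the discrete valuation ring `C_P`, hence equals it; two
  `ℤ`-valued valuations with the same valuation ring are proportional, and comparing at `t`
  gives `w = exp (- ord_P)`.
* For `f ∈ F`: `ord_P f = e(P | 𝔭) * ord_𝔭 f` and `e(P | 𝔭) = |Stab_H P| = |⟨σ⟩ ⊓ H|`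
  (`H = Gal (L / F)`, residue fields are `K`).
* GC5: `Gal (L / E)` is transitive on the primes of `C` over `(t)`; apply GC4 to `w ∘ g`,
  `g⁻¹ σ g`.

All work packages of this file are filled (helper24: GC4, helper72: GC5, GCtriv).
-/

set_option autoImplicit false

noncomputable section

open AlgebraicCurve IntermediateField WithZero

namespace Fermat.Agent.GTor.Clo

section Galois

variable {K E F L : Type*} [Field K] [IsAlgClosed K] [CharZero K] [Field E] [Field F] [Field L]
  [Algebra K E] [Algebra K F] [Algebra K L] [Algebra E F] [Algebra E L] [Algebra F L]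
  [IsScalarTower K E F] [IsScalarTower K E L] [IsScalarTower E F L] [IsScalarTower K F L]
  [FiniteDimensional E L] [IsGalois E L]

variable (E F L) in
/-- The subgroup `Gal (L / F)` of `Gal (L / E)`. -/
abbrev fixF : Subgroup (L ≃ₐ[E] L) :=
  IntermediateField.fixingSubgroup (IsScalarTower.toAlgHom E F L).fieldRange

/-- **GC4**. The valuation `w`, restricted to `F`, is `e` times the order at a place of `F`,
`e = |⟨σ⟩ ⊓ Gal (L / F)|`. -/
theorem gc_val_eq
    (t : E) (ht : Transcendental K t)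
    (hE : ∀ y : E, ∃ p q : Polynomial K, Polynomial.aeval t q ≠ 0 ∧
      y = Polynomial.aeval t p / Polynomial.aeval t q)
    (w : Valuation L ℤᵐ⁰) (hwK : ∀ c : K, c ≠ 0 → w (algebraMap K L c) = 1)
    (hwt : w (algebraMap E L t) < 1)
    (σ : L ≃ₐ[E] L) (hσ : ∀ y, w (σ y) = w y)
    (hord : exp (-(orderOf σ : ℤ)) ≤ w (algebraMap E L t)) :
    ∃ v : Place K F, 0 < v.ord (algebraMap E F t) ∧
      ∀ f : F, f ≠ 0 → w (algebraMap F L f)
        = exp (-((Nat.card ↥(Subgroup.zpowers σ ⊓ fixF E F L) : ℤ) * v.ord f)) :=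
  H24.h24_gc_val_eq t ht hE w hwK hwt σ hσ hord

/-- **GC5**. Every place of `F` over `t = 0` arises as in GC4 from a conjugate `w ∘ g` of `w`. -/
theorem gc_val_eq_of_place
    (t : E) (ht : Transcendental K t)
    (hE : ∀ y : E, ∃ p q : Polynomial K, Polynomial.aeval t q ≠ 0 ∧
      y = Polynomial.aeval t p / Polynomial.aeval t q)
    (w : Valuation L ℤᵐ⁰) (hwK : ∀ c : K, c ≠ 0 → w (algebraMap K L c) = 1)
    (hwt : w (algebraMap E L t) < 1)
    (σ : L ≃ₐ[E] L) (hσ : ∀ y, w (σ y) = w y)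
    (hord : exp (-(orderOf σ : ℤ)) ≤ w (algebraMap E L t))
    (v : Place K F) (hv : 0 < v.ord (algebraMap E F t)) :
    ∃ g : L ≃ₐ[E] L, ∀ f : F, f ≠ 0 → w (g (algebraMap F L f))
        = exp (-((Nat.card ↥(Subgroup.zpowers (g⁻¹ * σ * g) ⊓ fixF E F L) : ℤ) * v.ord f)) :=
  h72_gc_val_eq_of_place t ht hE
    (fun w' h1 h2 σ' h3 h4 => gc_val_eq t ht hE w' h1 h2 σ' h3 h4) w hwK hwt σ hσ hord v hv

/-- In the situation of GC4 the order of `σ` is `- log (w t)`. -/
theorem gc_orderOf_eq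
    (t : E) (ht : Transcendental K t)
    (hE : ∀ y : E, ∃ p q : Polynomial K, Polynomial.aeval t q ≠ 0 ∧
      y = Polynomial.aeval t p / Polynomial.aeval t q)
    (w : Valuation L ℤᵐ⁰) (hwK : ∀ c : K, c ≠ 0 → w (algebraMap K L c) = 1)
    (hwt : w (algebraMap E L t) < 1)
    (σ : L ≃ₐ[E] L) (hσ : ∀ y, w (σ y) = w y)
    (hord : exp (-(orderOf σ : ℤ)) ≤ w (algebraMap E L t)) :
    w (algebraMap E L t) = exp (-(orderOf σ : ℤ)) :=
  H24.h24_gc_orderOf_eq t ht hE w hwK hwt σ hσ hord

end Galois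

section Trivial

variable {K F : Type*} [Field K] [IsAlgClosed K] [CharZero K] [Field F] [Algebra K F]

/-- **GCtriv** (the case `F = K(x)`). A valuation of `K(x)`, trivial on `K`, with
`w x = exp (-m)`, `m > 0`, is `m` times the order at a place. -/
theorem gc_val_triv (x : F) (hx : Transcendental K x) (htop : K⟮x⟯ = ⊤)
    (w : Valuation F ℤᵐ⁰) (hwK : ∀ c : K, c ≠ 0 → w (algebraMap K F c) = 1)
    (m : ℕ) (hm : 0 < m) (hwx : w x = exp (-(m : ℤ))) :
    ∃ v : Place K F, 0 < v.ord x ∧ ∀ f : F, f ≠ 0 → w f = exp (-((m : ℤ) * v.ord f)) :=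
  h72_gc_val_triv x hx htop w hwK m hm hwx

/-- **GCtriv**, uniqueness: `K(x)` has only one place where `x` vanishes. -/
theorem gc_val_triv_unique (x : F) (hx : Transcendental K x) (htop : K⟮x⟯ = ⊤)
    (v v' : Place K F) (hv : 0 < v.ord x) (hv' : 0 < v'.ord x) : v = v' :=
  h72_gc_val_triv_unique x hx htop v v' hv hv'

end Trivial

end Fermat.Agent.GTor.Clo
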