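import Fermat.Agent.GTor.Clo.Defs
import Fermat.Agent.S24.H27_JAn

/-!
# S24 construction, layer 1a (WP CLO-JA): the functions `j ∘ A`

Notation: `K = Kbar = Q̄`, `ι = iotaC : K → ℂ`, `Hol` = holomorphic functions on `ℍ`.
WP CLO-JA (helper59): all statements of this file are proved (no `sorry` here; the only
remaining ones in the closure are those of `An/Hol.lean`).
-/

set_option autoImplicit false

noncomputable section

namespace Fermat.Agent.GTor.Clo

open Fermat.Agent.S24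

open ModularCurve UpperHalfPlane
open scoped MatrixGroups Manifold

/-! ## 1. `Hol` as a `K`-algebra -/

/-- `Hol` is a `Q̄`-algebra through `ι`. -/
instance algKbarHol : Algebra Kbar Hol := ((algebraMap ℂ Hol).comp iotaC).toAlgebra

theorem algebraMap_Kbar_Hol_apply (c : Kbar) (τ : ℍ) :
    ((algebraMap Kbar Hol c : Hol) : ℍ → ℂ) τ = iotaC c := rfl

instance smulCommClass_SL_Kbar_Hol : SMulCommClass SL(2, ℤ) Kbar Hol :=
  ⟨fun _ _ _ => Subtype.ext (funext fun _ => rfl)⟩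

theorem iotaC_injective : Function.Injective iotaC := iotaC.injective

/-! ## 2. The functions `j ∘ A` for integer matrices `A` of positive determinant -/

/-- `jAn` is holomorphic. -/
theorem jAn_mdifferentiable : MDifferentiable 𝓘(ℂ) 𝓘(ℂ) jAn := by
  have h4 : MDifferentiable 𝓘(ℂ) 𝓘(ℂ)
      (fun τ : ℍ => (ModularForm.E (k := 4) (by norm_num)) τ) :=
    ModularForm.holo' (ModularForm.E (k := 4) (by norm_num))
  have hΔ : MDifferentiable 𝓘(ℂ) 𝓘(ℂ) (fun τ : ℍ => ModularForm.discriminant τ) :=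
    CuspForm.holo' CuspForm.discriminant
  exact (h4.pow 3).div hΔ ModularForm.discriminant_ne_zero

/-- An integer matrix of positive determinant, as an element of `GL₂(ℝ)`. -/
def intGL (A : Matrix (Fin 2) (Fin 2) ℤ) (hA : 0 < A.det) : GL (Fin 2) ℝ :=
  Matrix.GeneralLinearGroup.mkOfDetNeZero (A.map (Int.cast : ℤ → ℝ)) (by
    have h : (A.map (Int.cast : ℤ → ℝ)).det = ((A.det : ℤ) : ℝ) := by
      simpa using (RingHom.map_det (Int.castRingHom ℝ) A).symm
    rw [h]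
    exact_mod_cast hA.ne')

theorem intGL_val (A : Matrix (Fin 2) (Fin 2) ℤ) (hA : 0 < A.det) :
    ((intGL A hA : GL (Fin 2) ℝ) : Matrix (Fin 2) (Fin 2) ℝ) = A.map (Int.cast : ℤ → ℝ) := rfl

theorem intGL_det_pos (A : Matrix (Fin 2) (Fin 2) ℤ) (hA : 0 < A.det) :
    0 < (intGL A hA).det.val := by
  have h : (A.map (Int.cast : ℤ → ℝ)).det = ((A.det : ℤ) : ℝ) := by
    simpa using (RingHom.map_det (Int.castRingHom ℝ) A).symm
  rw [Matrix.GeneralLinearGroup.val_det_apply, intGL_val, h]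
  exact_mod_cast hA

/-- The Möbius action of an integer matrix of positive determinant, explicitly. -/
theorem coe_intGL_smul (A : Matrix (Fin 2) (Fin 2) ℤ) (hA : 0 < A.det) (τ : ℍ) :
    ((intGL A hA • τ : ℍ) : ℂ) = ((A 0 0 : ℂ) * τ + A 0 1) / ((A 1 0 : ℂ) * τ + A 1 1) := by
  rw [coe_smul_of_det_pos (intGL_det_pos A hA)]
  simp [num, denom, intGL_val]

theorem intGL_mul (A B : Matrix (Fin 2) (Fin 2) ℤ) (hA : 0 < A.det) (hB : 0 < B.det)
    (hAB : 0 < (A * B).det) : intGL (A * B) hAB = intGL A hA * intGL B hB := by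
  apply Matrix.GeneralLinearGroup.ext
  intro i j
  rw [Matrix.GeneralLinearGroup.coe_mul, intGL_val, intGL_val, intGL_val]
  simp [Matrix.mul_apply]

theorem intGL_mul_smul (A B : Matrix (Fin 2) (Fin 2) ℤ) (hA : 0 < A.det) (hB : 0 < B.det)
    (hAB : 0 < (A * B).det) (τ : ℍ) :
    intGL (A * B) hAB • τ = intGL A hA • (intGL B hB • τ) := by
  rw [intGL_mul A B hA hB hAB, mul_smul]

theorem intGL_SL (γ : SL(2, ℤ)) (h : 0 < (γ.1).det) :
    intGL γ.1 h = (γ : GL (Fin 2) ℝ) := by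
  apply Matrix.GeneralLinearGroup.ext
  intro i j
  rfl

theorem intGL_SL_smul (γ : SL(2, ℤ)) (h : 0 < (γ.1).det) (τ : ℍ) :
    intGL γ.1 h • τ = γ • τ := by
  rw [ModularGroup.sl_moeb, intGL_SL]

open scoped Classical in
/-- The holomorphic function `τ ↦ j (A τ)` (junk value `0` if `det A ≤ 0`). -/
def JA (A : Matrix (Fin 2) (Fin 2) ℤ) : Hol :=
  if hA : 0 < A.det then ⟨fun τ => jAn (intGL A hA • τ),
    jAn_mdifferentiable.comp (mdifferentiable_smul (intGL_det_pos A hA))⟩ else 0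

theorem JA_apply (A : Matrix (Fin 2) (Fin 2) ℤ) (hA : 0 < A.det) (τ : ℍ) :
    (JA A : ℍ → ℂ) τ = jAn (intGL A hA • τ) := by
  rw [JA, dif_pos hA]

theorem intGL_SL_det_pos (γ : SL(2, ℤ)) : 0 < (γ.1).det := by
  rw [γ.2]; exact one_pos

theorem JA_one_apply (τ : ℍ) : (JA 1 : ℍ → ℂ) τ = jAn τ := by
  have h1 : 0 < (1 : Matrix (Fin 2) (Fin 2) ℤ).det := by rw [Matrix.det_one]; exact one_pos
  rw [JA_apply 1 h1]
  have := intGL_SL_smul 1 (intGL_SL_det_pos 1) τ
  rw [one_smul] at this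
  congr 1

/-- `γ • (j ∘ A) = j ∘ (A γ⁻¹)`. -/
theorem smul_JA (γ : SL(2, ℤ)) (A : Matrix (Fin 2) (Fin 2) ℤ) (hA : 0 < A.det) :
    γ • JA A = JA (A * (γ⁻¹ : SL(2, ℤ)).1) := by
  have hdet : 0 < (A * (γ⁻¹ : SL(2, ℤ)).1).det := by
    rw [Matrix.det_mul, (γ⁻¹ : SL(2, ℤ)).2, mul_one]; exact hA
  apply Subtype.ext
  funext τ
  rw [Hol.smul_apply, JA_apply A hA, JA_apply _ hdet,
    intGL_mul_smul A _ hA (intGL_SL_det_pos γ⁻¹) hdet, intGL_SL_smul]

/-- `j ∘ (γ A) = j ∘ A`. -/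
theorem JA_mul_left (γ : SL(2, ℤ)) (A : Matrix (Fin 2) (Fin 2) ℤ) (hA : 0 < A.det) :
    JA (γ.1 * A) = JA A := by
  have hdet : 0 < (γ.1 * A).det := by
    rw [Matrix.det_mul, γ.2, one_mul]; exact hA
  apply Subtype.ext
  funext τ
  rw [JA_apply A hA, JA_apply _ hdet, intGL_mul_smul _ A (intGL_SL_det_pos γ) hA hdet, intGL_SL_smul,
    jAn_smul]

end Fermat.Agent.GTor.Clo
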