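import Fermat.Agent.GTor.Clo.Defs
import Fermat.Agent.S24.H27_JOrdCore
import Fermat.Agent.S24.H27_JAn
import Fermat.Agent.S20.H29_JInjective
import Fermat.Agent.S20.H70_Ramanujan
import Fermat.Agent.GTor.H96_LocEll
import Fermat.Agent.GTor.Clo.JA

/-!
# G-TOR A3–A5 (WP Stab): stabilisers in `SL(2, ℤ)` of the points of `ℍ` and the order of `j`

Inputs (landed): `Fermat.Agent.S24.jOrd_I / jOrd_rho / jOrd_eq_one`
(order of `j - j(τ)` at `τ`: `2` at `i`, `3` at `ρ`, `1` if `j τ ∉ {0, 1728}`), `jAn_smul`,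
`jAn_eq_zero_iff`, `jAn_eq_1728_iff`, `h27_S_smul_I`, `h27_ST_smul_rho`,
`Fermat.Agent.S20.H29.exists_smul_eq_of_E₄_E₆` (equal `j` ⇒ same orbit).

* `Stab(i) = {±1, ±S}`: `γ • i = i` ⇔ `a = d, b = -c, a² + c² = 1`.
* `Stab(ρ) = ⟨S * T⟩` (order `6`): `γ • ρ = ρ` ⇔ `a = d - c, b = -c, c² - c d + d² = 1`.
* `j τ ∉ {0, 1728}` ⇒ `Stab(τ) = {±1}`: if `γ ≠ ±1` fixes `τ`, differentiate `j (γ z) = j z`
  at `τ`: `(c τ + d)⁻² ≠ 1`, so the derivative of `j` vanishes at `τ`, i.e. the order is `≥ 2`.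

WP Stab (helper38): all statements of this file are proved.  Route actually used:
* `jAn_eq_iff` from `exists_smul_eq_of_E₄_E₆` (choose `λ` by extracting roots in `ℂ`);
* `jOrd z = 2 / 3 / 1` according to `j z = 1728 / 0 / else`, for every `z` (`jOrd_of_1728`,
  `jOrd_of_zero`, `S24.jOrd_eq_one`);
* `γ ↦ denom γ z` is injective on `Stab(z)` with values in the `2 * jOrd z`-th roots of unity
  (helper96's `multiplier_at_fixed_point` applied to `j - j(z)`), so `|Stab(z)| ≤ 2 * jOrd z`;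
* a conjugate of `-1`, `S` or `S * T` has order `2 * jOrd z` and fixes `z`.
-/

set_option autoImplicit false

noncomputable section

namespace Fermat.Agent.GTor.Clo

open Fermat.Agent.S24

open UpperHalfPlane ModularGroup
open scoped MatrixGroups Manifold ModularForm

/-! ### `j` separates the orbits -/

open ModularForm EisensteinSeries in
/-- The relation between the Eisenstein series at two points with the same `j`. -/
theorem stab_E_rel (z w : ℍ) (h : jAn z = jAn w) :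
    E₆ z ^ 2 * E₄ w ^ 3 = E₄ z ^ 3 * E₆ w ^ 2 := by
  have h1 := jAn_sub_jAn z w
  rw [← h, sub_self] at h1
  have hne : -(1728 * ModularForm.discriminant w * ModularForm.discriminant z)⁻¹ ≠ 0 :=
    neg_ne_zero.mpr (inv_ne_zero (mul_ne_zero (mul_ne_zero (by norm_num)
      (ModularForm.discriminant_ne_zero w)) (ModularForm.discriminant_ne_zero z)))
  have h2 := (mul_eq_zero.mp h1.symm).resolve_right hne
  linear_combination h2

open ModularForm EisensteinSeries in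
theorem stab_E6_ne_zero_of_E4 (z : ℍ) (h : E₄ z = 0) : E₆ z ≠ 0 := by
  intro h6
  have := h27_disc_eq z
  rw [h, h6] at this
  have hd := ModularForm.discriminant_ne_zero z
  apply hd
  have h0 : (1728 : ℂ) * ModularForm.discriminant z = 0 := by rw [this]; ring
  exact (mul_eq_zero.mp h0).resolve_left (by norm_num)

open ModularForm EisensteinSeries in
/-- `j` separates the `SL(2, ℤ)`-orbits. -/
theorem jAn_eq_iff (z w : ℍ) : jAn z = jAn w ↔ ∃ γ : SL(2, ℤ), w = γ • z := by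
  constructor
  · intro h
    have hrel := stab_E_rel z w h
    by_cases h4 : E₄ z = 0
    · have h4w : E₄ w = 0 := (jAn_eq_zero_iff w).mp (h ▸ (jAn_eq_zero_iff z).mpr h4)
      have h6 := stab_E6_ne_zero_of_E4 z h4
      have h6w := stab_E6_ne_zero_of_E4 w h4w
      obtain ⟨lam, hlam⟩ := IsAlgClosed.exists_pow_nat_eq (E₆ w / E₆ z) (n := 6) (by norm_num)
      have hl0 : lam ≠ 0 := by
        rintro rfl
        rw [zero_pow (by norm_num)] at hlam
        exact div_ne_zero h6w h6 hlam.symm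
      refine S20.H29.exists_smul_eq_of_E₄_E₆ z w lam hl0 ?_ ?_
      · rw [h4, h4w, mul_zero]
      · rw [hlam, div_mul_cancel₀ _ h6]
    · by_cases h6 : E₆ z = 0
      · have h6w : E₆ w = 0 := (jAn_eq_1728_iff w).mp (h ▸ (jAn_eq_1728_iff z).mpr h6)
        have h4w : E₄ w ≠ 0 := fun h0 => h4 ((jAn_eq_zero_iff z).mp
          (h.trans ((jAn_eq_zero_iff w).mpr h0)))
        obtain ⟨lam, hlam⟩ := IsAlgClosed.exists_pow_nat_eq (E₄ w / E₄ z) (n := 4) (by norm_num)
        have hl0 : lam ≠ 0 := by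
          rintro rfl
          rw [zero_pow (by norm_num)] at hlam
          exact div_ne_zero h4w h4 hlam.symm
        refine S20.H29.exists_smul_eq_of_E₄_E₆ z w lam hl0 ?_ ?_
        · rw [hlam, div_mul_cancel₀ _ h4]
        · rw [h6, h6w, mul_zero]
      · have h4w : E₄ w ≠ 0 := fun h0 => h4 ((jAn_eq_zero_iff z).mp
          (h.trans ((jAn_eq_zero_iff w).mpr h0)))
        have h6w : E₆ w ≠ 0 := fun h0 => h6 ((jAn_eq_1728_iff z).mp
          (h.trans ((jAn_eq_1728_iff w).mpr h0)))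
        -- `t = b / a` with `a = E₄ w / E₄ z`, `b = E₆ w / E₆ z`
        set t : ℂ := (E₆ w / E₆ z) / (E₄ w / E₄ z) with ht
        obtain ⟨lam, hlam⟩ := IsAlgClosed.exists_pow_nat_eq t (n := 2) (by norm_num)
        have ht0 : t ≠ 0 := div_ne_zero (div_ne_zero h6w h6) (div_ne_zero h4w h4)
        have hl0 : lam ≠ 0 := by
          rintro rfl
          rw [zero_pow (by norm_num)] at hlam
          exact ht0 hlam.symm
        have ht2 : t ^ 2 = E₄ w / E₄ z := by
          rw [ht]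
          field_simp
          linear_combination -hrel
        have ht3 : t ^ 3 = E₆ w / E₆ z := by
          rw [ht]
          field_simp
          linear_combination -hrel
        refine S20.H29.exists_smul_eq_of_E₄_E₆ z w lam hl0 ?_ ?_
        · rw [show lam ^ 4 = (lam ^ 2) ^ 2 by ring, hlam, ht2, div_mul_cancel₀ _ h4]
        · rw [show lam ^ 6 = (lam ^ 2) ^ 3 by ring, hlam, ht3, div_mul_cancel₀ _ h6]
  · rintro ⟨γ, rfl⟩
    exact (jAn_smul γ z).symm

/-! ### The order of `j - j(z)` at `z` -/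

open ModularForm EisensteinSeries Fermat.Agent.S20.H70 in
/-- The order of `j - j(z)` at `z` is `2` if `j z = 1728`. -/
theorem stab_order_of_E6 (z : ℍ) (h6 : E₆ z = 0) :
    analyticOrderAt (fun w : ℂ => jAn (ofComplex w) - jAn z) (z : ℂ) = 2 := by
  have hj : jAn z = 1728 := (jAn_eq_1728_iff z).mpr h6
  have hfun : (fun w : ℂ => jAn (ofComplex w) - jAn z) =
      fun w => (⇑E₆ ∘ ofComplex) w ^ 2 *
        (fun w : ℂ => ((ModularForm.discriminant ∘ ofComplex) w)⁻¹) w := by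
    funext w
    rw [hj, jAn_sub_1728]
    simp only [Function.comp_apply, div_eq_mul_inv]
  rw [hfun]
  rw [h27_order_pow_mul (h27_analyticAt E₆ z)
    (h27_analyticAt_disc_inv z)
    (inv_ne_zero (h27_disc_comp_ne_zero z))
    ((h27_comp_ofComplex_apply _ _).trans h6)
    (deriv_E₆_ne_zero z h6) 2]
  rfl

open ModularForm EisensteinSeries Fermat.Agent.S20.H70 in
/-- The order of `j - j(z)` at `z` is `3` if `j z = 0`. -/
theorem stab_order_of_E4 (z : ℍ) (h4 : E₄ z = 0) :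
    analyticOrderAt (fun w : ℂ => jAn (ofComplex w) - jAn z) (z : ℂ) = 3 := by
  have hj : jAn z = 0 := (jAn_eq_zero_iff z).mpr h4
  have hfun : (fun w : ℂ => jAn (ofComplex w) - jAn z) =
      fun w => (⇑E₄ ∘ ofComplex) w ^ 3 *
        (fun w : ℂ => ((ModularForm.discriminant ∘ ofComplex) w)⁻¹) w := by
    funext w
    rw [hj, sub_zero, jAn_eq]
    simp only [Function.comp_apply, div_eq_mul_inv]
  rw [hfun]
  rw [h27_order_pow_mul (h27_analyticAt E₄ z)
    (h27_analyticAt_disc_inv z)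
    (inv_ne_zero (h27_disc_comp_ne_zero z))
    ((h27_comp_ofComplex_apply _ _).trans h4)
    (deriv_E₄_ne_zero z h4) 3]
  rfl

/-- `jOrd z = 2` at every point with `j z = 1728`. -/
theorem jOrd_of_1728 (z : ℍ) (h : jAn z = 1728) : jOrd z = 2 := by
  unfold jOrd
  rw [stab_order_of_E6 z ((jAn_eq_1728_iff z).mp h)]
  rfl

/-- `jOrd z = 3` at every point with `j z = 0`. -/
theorem jOrd_of_zero (z : ℍ) (h : jAn z = 0) : jOrd z = 3 := by
  unfold jOrd
  rw [stab_order_of_E4 z ((jAn_eq_zero_iff z).mp h)]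
  rfl

theorem jOrd_smul (γ : SL(2, ℤ)) (z : ℍ) : jOrd (γ • z) = jOrd z := by
  have h := jAn_smul γ z
  by_cases h0 : jAn z = 0
  · rw [jOrd_of_zero z h0, jOrd_of_zero _ (h.trans h0)]
  · by_cases h1 : jAn z = 1728
    · rw [jOrd_of_1728 z h1, jOrd_of_1728 _ (h.trans h1)]
    · rw [jOrd_eq_one z h0 h1, jOrd_eq_one _ (by rw [h]; exact h0) (by rw [h]; exact h1)]

theorem jOrd_pos (z : ℍ) : 0 < jOrd z := by
  by_cases h0 : jAn z = 0
  · rw [jOrd_of_zero z h0]; norm_num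
  · by_cases h1 : jAn z = 1728
    · rw [jOrd_of_1728 z h1]; norm_num
    · rw [jOrd_eq_one z h0 h1]; norm_num

/-! ### The automorphy factor on the stabiliser -/

/-- The automorphy factor at a fixed point is a `2 * jOrd z`-th root of unity. -/
theorem stab_denom_pow (z : ℍ) (g : SL(2, ℤ)) (hg : g • z = z) :
    denom g z ^ (2 * jOrd z) = 1 := by
  have hG : MDifferentiable 𝓘(ℂ) 𝓘(ℂ) (fun τ : ℍ => jAn τ - jAn z) :=
    jAn_mdifferentiable.sub mdifferentiable_const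
  have hG0 : ∃ τ : ℍ, (fun τ : ℍ => jAn τ - jAn z) τ ≠ 0 := by
    obtain ⟨τ, hτ⟩ := jAn_surjective (jAn z + 1)
    refine ⟨τ, ?_⟩
    simp only [hτ]
    simp
  have hc : (fun τ : ℍ => jAn τ - jAn z) ∣[(0 : ℤ)] g =
      fun w => (1 : ℂ) * (fun τ : ℍ => jAn τ - jAn z) w := by
    funext w
    rw [ModularForm.SL_slash_apply]
    simp only [neg_zero, zpow_zero, mul_one, one_mul, jAn_smul]
  have h := H96.multiplier_at_fixed_point hG hG0 hg hc
  have hord : analyticOrderNatAt ((fun τ : ℍ => jAn τ - jAn z) ∘ UpperHalfPlane.ofComplex)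
      (z : ℂ) = jOrd z := rfl
  rw [hord] at h
  have h2 : denom g z ^ (-(0 : ℤ) - 2 * (jOrd z : ℤ)) = (denom g z ^ (2 * jOrd z))⁻¹ := by
    rw [neg_zero, zero_sub, zpow_neg]
    congr 1
  rw [h2] at h
  exact inv_eq_one.mp h.symm

open Fermat.Agent.GTor.H96 in
theorem stab_denom_cocycle (g h : SL(2, ℤ)) (z : ℍ) :
    denom (g * h : SL(2, ℤ)) z = denom g ((h • z : ℍ) : ℂ) * denom h z := by
  have hne : autj h (z : ℂ) ≠ 0 := autj_ne_zero h z.im_pos
  rw [denom_eq_autj, denom_eq_autj, denom_eq_autj, coe_smul_eq_moeb]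
  unfold autj moeb
  unfold autj at hne
  rw [Matrix.SpecialLinearGroup.coe_mul]
  simp only [Matrix.mul_apply, Fin.sum_univ_two]
  push_cast
  field_simp
  ring

theorem stab_denom_mul (g h : SL(2, ℤ)) (z : ℍ) (hh : h • z = z) :
    denom (g * h : SL(2, ℤ)) z = denom g z * denom h z := by
  rw [stab_denom_cocycle, hh]

theorem stab_denom_one (z : ℍ) : denom (1 : SL(2, ℤ)) z = 1 := by
  rw [H96.denom_eq_autj]
  simp [H96.autj]

open Fermat.Agent.GTor.H96 in
theorem stab_eq_one_of_denom (g : SL(2, ℤ)) (z : ℍ) (hg : g • z = z) (hd : denom g z = 1) :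
    g = 1 := by
  rw [denom_eq_autj] at hd
  unfold autj at hd
  have hc : (g : Matrix (Fin 2) (Fin 2) ℤ) 1 0 = 0 := by
    have him := congrArg Complex.im hd
    simp at him
    rcases him with h | h
    · exact h
    · exact absurd h z.im_ne_zero
  have hd1 : (g : Matrix (Fin 2) (Fin 2) ℤ) 1 1 = 1 := by
    rw [hc] at hd
    simp at hd
    exact_mod_cast hd
  have hdet := g.2
  rw [Matrix.det_fin_two, hc, hd1] at hdet
  have ha : (g : Matrix (Fin 2) (Fin 2) ℤ) 0 0 = 1 := by linarith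
  have hb : (g : Matrix (Fin 2) (Fin 2) ℤ) 0 1 = 0 := by
    have h1 := congrArg (fun w : ℍ => (w : ℂ)) hg
    simp only [coe_smul_eq_moeb] at h1
    unfold moeb at h1
    rw [hc, hd1, ha] at h1
    simp at h1
    exact h1
  ext i j
  fin_cases i <;> fin_cases j <;> simp [ha, hb, hc, hd1]

/-- The automorphy factor, as a map from the stabiliser to the roots of unity. -/
def stabRoot (z : ℍ) (g : MulAction.stabilizer SL(2, ℤ) z) : rootsOfUnity (2 * jOrd z) ℂ :=
  ⟨Units.mk0 (denom (g : SL(2, ℤ)) z) (UpperHalfPlane.denom_ne_zero _ z), by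
    rw [mem_rootsOfUnity]
    apply Units.ext
    rw [Units.val_pow_eq_pow_val, Units.val_mk0, Units.val_one]
    exact stab_denom_pow z g (MulAction.mem_stabilizer_iff.mp g.2)⟩

theorem stabRoot_injective (z : ℍ) : Function.Injective (stabRoot z) := by
  intro g h hgh
  have h1 : denom (g : SL(2, ℤ)) z = denom (h : SL(2, ℤ)) z := by
    have := congrArg (fun x : rootsOfUnity (2 * jOrd z) ℂ => ((x : ℂˣ) : ℂ)) hgh
    simpa [stabRoot] using this
  have hg := MulAction.mem_stabilizer_iff.mp g.2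
  have hh := MulAction.mem_stabilizer_iff.mp h.2
  have hhinv : (h : SL(2, ℤ))⁻¹ • z = z := by
    rw [inv_smul_eq_iff, hh]
  -- `denom (g * h⁻¹) z = 1`
  have h2 : denom ((g : SL(2, ℤ)) * (h : SL(2, ℤ))⁻¹ : SL(2, ℤ)) z = 1 := by
    rw [stab_denom_mul _ _ z hhinv, h1, ← stab_denom_mul _ _ z hhinv, mul_inv_cancel]
    exact stab_denom_one z
  have h3 := stab_eq_one_of_denom _ z (by rw [mul_smul, hhinv, hg]) h2
  exact Subtype.ext (mul_inv_eq_one.mp h3)

theorem stab_finite_roots (z : ℍ) : Finite (rootsOfUnity (2 * jOrd z) ℂ) := by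
  have : NeZero (2 * jOrd z) := ⟨(Nat.mul_pos (by norm_num) (jOrd_pos z)).ne'⟩
  exact Nat.finite_of_card_ne_zero (by rw [Complex.card_rootsOfUnity]; exact NeZero.ne _)

theorem stab_finite (z : ℍ) : Finite (MulAction.stabilizer SL(2, ℤ) z) := by
  have := stab_finite_roots z
  exact Finite.of_injective _ (stabRoot_injective z)

theorem stab_card_le (z : ℍ) : Nat.card (MulAction.stabilizer SL(2, ℤ) z) ≤ 2 * jOrd z := by
  have : NeZero (2 * jOrd z) := ⟨(Nat.mul_pos (by norm_num) (jOrd_pos z)).ne'⟩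
  have := stab_finite_roots z
  have := Nat.card_le_card_of_injective _ (stabRoot_injective z)
  rwa [Complex.card_rootsOfUnity] at this

/-- An element of order `2 * jOrd z` in the stabiliser generates it. -/
theorem stab_of_orderOf (z : ℍ) (g : SL(2, ℤ)) (hg : g • z = z) (ho : orderOf g = 2 * jOrd z) :
    Nat.card (MulAction.stabilizer SL(2, ℤ) z) = 2 * jOrd z ∧
      MulAction.stabilizer SL(2, ℤ) z = Subgroup.zpowers g := by
  have hle : Subgroup.zpowers g ≤ MulAction.stabilizer SL(2, ℤ) z :=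
    (Subgroup.zpowers_le).mpr (MulAction.mem_stabilizer_iff.mpr hg)
  have := stab_finite z
  have hc : Nat.card (Subgroup.zpowers g) = 2 * jOrd z := by rw [Nat.card_zpowers, ho]
  have heq : Subgroup.zpowers g = MulAction.stabilizer SL(2, ℤ) z :=
    Subgroup.eq_of_le_of_card_ge hle (by rw [hc]; exact stab_card_le z)
  exact ⟨by rw [← heq, hc], heq.symm⟩

/-! ### The elements `-1`, `S`, `S * T` -/

theorem stab_S_sq : (S : SL(2, ℤ)) ^ 2 = -1 := by
  apply Subtype.ext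
  rw [pow_two, Matrix.SpecialLinearGroup.coe_mul, S_mul_S_eq]
  simp

theorem stab_ST_val : ((S * T : SL(2, ℤ)) : Matrix (Fin 2) (Fin 2) ℤ) = !![0, -1; 1, 1] := by
  rw [Matrix.SpecialLinearGroup.coe_mul, coe_S, coe_T]
  ext i j
  fin_cases i <;> fin_cases j <;> simp [Matrix.mul_apply, Fin.sum_univ_two]

theorem stab_ST_sq_val : (((S * T : SL(2, ℤ)) ^ 2 : SL(2, ℤ)) : Matrix (Fin 2) (Fin 2) ℤ) =
    !![-1, -1; 1, 0] := by
  rw [pow_two, Matrix.SpecialLinearGroup.coe_mul, stab_ST_val]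
  ext i j
  fin_cases i <;> fin_cases j <;> simp [Matrix.mul_apply, Fin.sum_univ_two]

theorem stab_ST_cube : (S * T : SL(2, ℤ)) ^ 3 = -1 := by
  apply Subtype.ext
  rw [pow_succ, Matrix.SpecialLinearGroup.coe_mul, stab_ST_sq_val, stab_ST_val]
  ext i j
  fin_cases i <;> fin_cases j <;> simp [Matrix.mul_apply, Fin.sum_univ_two]

theorem stab_neg_one_ne_one : (-1 : SL(2, ℤ)) ≠ 1 := by
  intro h
  have := congrArg (fun g : SL(2, ℤ) => (g : Matrix (Fin 2) (Fin 2) ℤ) 0 0) h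
  simp at this

theorem stab_neg_one_sq : (-1 : SL(2, ℤ)) ^ 2 = 1 := by
  rw [pow_two]
  simp

theorem stab_orderOf_neg_one : orderOf (-1 : SL(2, ℤ)) = 2 := by
  refine orderOf_eq_of_pow_and_pow_div_prime (by norm_num) stab_neg_one_sq ?_
  intro p hp hdvd
  have : p = 2 := (Nat.prime_dvd_prime_iff_eq hp Nat.prime_two).mp hdvd
  subst this
  simpa using stab_neg_one_ne_one

theorem stab_orderOf_S : orderOf (S : SL(2, ℤ)) = 4 := by
  refine orderOf_eq_of_pow_and_pow_div_prime (by norm_num) ?_ ?_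
  · rw [show (4 : ℕ) = 2 * 2 by norm_num, pow_mul, stab_S_sq, stab_neg_one_sq]
  · intro p hp hdvd
    have : p = 2 := by
      have h2 : p ∣ 2 ^ 2 := by simpa using hdvd
      exact (Nat.prime_dvd_prime_iff_eq hp Nat.prime_two).mp (hp.dvd_of_dvd_pow h2)
    subst this
    rw [show (4 : ℕ) / 2 = 2 by norm_num, stab_S_sq]
    exact stab_neg_one_ne_one

theorem stab_orderOf_ST : orderOf (S * T : SL(2, ℤ)) = 6 := by
  refine orderOf_eq_of_pow_and_pow_div_prime (by norm_num) ?_ ?_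
  · rw [show (6 : ℕ) = 3 * 2 by norm_num, pow_mul, stab_ST_cube, stab_neg_one_sq]
  · intro p hp hdvd
    have h23 : p = 2 ∨ p = 3 := by
      have h2 : p ∣ 2 * 3 := by simpa using hdvd
      rcases (Nat.Prime.dvd_mul hp).mp h2 with h | h
      · exact Or.inl ((Nat.prime_dvd_prime_iff_eq hp Nat.prime_two).mp h)
      · exact Or.inr ((Nat.prime_dvd_prime_iff_eq hp Nat.prime_three).mp h)
    rcases h23 with rfl | rfl
    · rw [show (6 : ℕ) / 2 = 3 by norm_num, stab_ST_cube]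
      exact stab_neg_one_ne_one
    · rw [show (6 : ℕ) / 3 = 2 by norm_num]
      intro h
      have := congrArg (fun g : SL(2, ℤ) => (g : Matrix (Fin 2) (Fin 2) ℤ) 1 0) h
      simp only [stab_ST_sq_val] at this
      simp at this

/-- The three model generators. -/
def StabModel (g₀ : SL(2, ℤ)) (m : ℕ) : Prop :=
  (g₀ = -1 ∧ m = 1) ∨ (g₀ = S ∧ m = 2) ∨ (g₀ = S * T ∧ m = 3)

theorem StabModel.orderOf_eq {g₀ : SL(2, ℤ)} {m : ℕ} (h : StabModel g₀ m) :
    orderOf g₀ = 2 * m := by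
  rcases h with ⟨rfl, rfl⟩ | ⟨rfl, rfl⟩ | ⟨rfl, rfl⟩
  · exact stab_orderOf_neg_one
  · exact stab_orderOf_S
  · exact stab_orderOf_ST

theorem StabModel.pow_eq {g₀ : SL(2, ℤ)} {m : ℕ} (h : StabModel g₀ m) : g₀ ^ m = -1 := by
  rcases h with ⟨rfl, rfl⟩ | ⟨rfl, rfl⟩ | ⟨rfl, rfl⟩
  · exact pow_one _
  · exact stab_S_sq
  · exact stab_ST_cube

/-- Every point of `ℍ` is a translate of a point fixed by a model generator of the right
order. -/
theorem stab_exists_model (z : ℍ) :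
    ∃ (γ₀ g₀ : SL(2, ℤ)) (z₀ : ℍ), z = γ₀ • z₀ ∧ g₀ • z₀ = z₀ ∧ StabModel g₀ (jOrd z) := by
  by_cases h0 : jAn z = 0
  · obtain ⟨γ₀, hγ₀⟩ := (jAn_eq_iff ρ z).mp (jAn_rho.trans h0.symm)
    exact ⟨γ₀, S * T, ρ, hγ₀, h27_ST_smul_rho, Or.inr (Or.inr ⟨rfl, jOrd_of_zero z h0⟩)⟩
  · by_cases h1 : jAn z = 1728
    · obtain ⟨γ₀, hγ₀⟩ := (jAn_eq_iff UpperHalfPlane.I z).mp (jAn_I.trans h1.symm)
      exact ⟨γ₀, S, UpperHalfPlane.I, hγ₀, h27_S_smul_I,
        Or.inr (Or.inl ⟨rfl, jOrd_of_1728 z h1⟩)⟩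
    · refine ⟨1, -1, z, (one_smul _ z).symm, ?_, Or.inl ⟨rfl, jOrd_eq_one z h0 h1⟩⟩
      rw [ModularGroup.SL_neg_smul, one_smul]

/-- The generator of the stabiliser, with its model. -/
theorem stab_exists_generator (z : ℍ) :
    ∃ (γ₀ g₀ : SL(2, ℤ)), StabModel g₀ (jOrd z) ∧
      Nat.card (MulAction.stabilizer SL(2, ℤ) z) = 2 * jOrd z ∧
      MulAction.stabilizer SL(2, ℤ) z = Subgroup.zpowers (γ₀ * g₀ * γ₀⁻¹) := by
  obtain ⟨γ₀, g₀, z₀, hz, hg₀, hm⟩ := stab_exists_model z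
  have hfix : (γ₀ * g₀ * γ₀⁻¹) • z = z := by
    rw [hz, mul_smul, mul_smul, inv_smul_smul, hg₀]
  have ho : orderOf (γ₀ * g₀ * γ₀⁻¹) = 2 * jOrd z := by
    rw [← hm.orderOf_eq]
    exact orderOf_injective (MulAut.conj γ₀).toMonoidHom (MulAut.conj γ₀).injective g₀
  exact ⟨γ₀, g₀, hm, stab_of_orderOf z _ hfix ho⟩

/-- The stabiliser of `z` has `2 * jOrd z` elements. -/
theorem card_stabilizer (z : ℍ) :
    Nat.card (MulAction.stabilizer SL(2, ℤ) z) = 2 * jOrd z := by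
  obtain ⟨γ₀, g₀, -, hc, -⟩ := stab_exists_generator z
  exact hc

theorem stab_conj_neg_one (γ₀ : SL(2, ℤ)) : γ₀ * (-1) * γ₀⁻¹ = -1 := by
  apply Subtype.ext
  have h : γ₀ * (-1 : SL(2, ℤ)) = (-1 : SL(2, ℤ)) * γ₀ := by
    apply Subtype.ext
    simp
  rw [h, mul_assoc, mul_inv_cancel, mul_one]

/-- The stabiliser of `z` is cyclic, generated by an element `γ` with `γ ^ jOrd z = -1`. -/
theorem exists_stabilizer_generator (z : ℍ) :
    ∃ γ : SL(2, ℤ), MulAction.stabilizer SL(2, ℤ) z = Subgroup.zpowers γ ∧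
      γ ^ jOrd z = -1 := by
  obtain ⟨γ₀, g₀, hm, -, hs⟩ := stab_exists_generator z
  refine ⟨γ₀ * g₀ * γ₀⁻¹, hs, ?_⟩
  rw [conj_pow, hm.pow_eq, stab_conj_neg_one]

/-! ### Normal subgroups contained in `Γ₀(N)` -/

theorem stab_zpow_eq_pow {g : SL(2, ℤ)} {n : ℕ} (hn : 0 < n) (ho : orderOf g = n) (k : ℤ) :
    ∃ r : ℕ, r < n ∧ g ^ k = g ^ r := by
  have hn' : (n : ℤ) ≠ 0 := by exact_mod_cast hn.ne'
  refine ⟨(k % n).toNat, ?_, ?_⟩
  · have h1 : k % (n : ℤ) < n := Int.emod_lt_of_pos k (by exact_mod_cast hn)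
    have h2 : 0 ≤ k % (n : ℤ) := Int.emod_nonneg k hn'
    omega
  · have h2 : 0 ≤ k % (n : ℤ) := Int.emod_nonneg k hn'
    rw [← zpow_natCast, Int.toNat_of_nonneg h2, ← ho, zpow_mod_orderOf]

/-- Powers of a model generator are `±1` or have lower-left entry `±1`. -/
theorem StabModel.zpow_cases {g₀ : SL(2, ℤ)} {m : ℕ} (h : StabModel g₀ m) (k : ℤ) :
    g₀ ^ k = 1 ∨ g₀ ^ k = -1 ∨
      ((g₀ ^ k : SL(2, ℤ)) : Matrix (Fin 2) (Fin 2) ℤ) 1 0 = 1 ∨
      ((g₀ ^ k : SL(2, ℤ)) : Matrix (Fin 2) (Fin 2) ℤ) 1 0 = -1 := by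
  rcases h with ⟨rfl, rfl⟩ | ⟨rfl, rfl⟩ | ⟨rfl, rfl⟩
  · obtain ⟨r, hr, hk⟩ := stab_zpow_eq_pow (by norm_num) stab_orderOf_neg_one k
    rw [hk]
    interval_cases r
    · exact Or.inl (pow_zero _)
    · exact Or.inr (Or.inl (pow_one _))
  · obtain ⟨r, hr, hk⟩ := stab_zpow_eq_pow (by norm_num) stab_orderOf_S k
    rw [hk]
    interval_cases r
    · exact Or.inl (pow_zero _)
    · refine Or.inr (Or.inr (Or.inl ?_))
      rw [pow_one, coe_S]
      rfl
    · exact Or.inr (Or.inl stab_S_sq)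
    · refine Or.inr (Or.inr (Or.inr ?_))
      rw [pow_succ, stab_S_sq, Matrix.SpecialLinearGroup.coe_mul, coe_S]
      simp [Matrix.mul_apply, Fin.sum_univ_two]
  · obtain ⟨r, hr, hk⟩ := stab_zpow_eq_pow (by norm_num) stab_orderOf_ST k
    rw [hk]
    interval_cases r
    · exact Or.inl (pow_zero _)
    · refine Or.inr (Or.inr (Or.inl ?_))
      rw [pow_one, stab_ST_val]
      rfl
    · refine Or.inr (Or.inr (Or.inl ?_))
      rw [stab_ST_sq_val]
      rfl
    · exact Or.inr (Or.inl stab_ST_cube)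
    · refine Or.inr (Or.inr (Or.inr ?_))
      rw [pow_succ, stab_ST_cube, Matrix.SpecialLinearGroup.coe_mul, stab_ST_val]
      simp [Matrix.mul_apply, Fin.sum_univ_two]
    · refine Or.inr (Or.inr (Or.inr ?_))
      rw [show (5 : ℕ) = 3 + 2 by norm_num, pow_add, stab_ST_cube,
        Matrix.SpecialLinearGroup.coe_mul, stab_ST_sq_val]
      simp [Matrix.mul_apply, Fin.sum_univ_two]

/-- If `1 < N`, no nontrivial element of a stabiliser lies in all conjugates of `Γ₀(N)`: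
a normal subgroup contained in `Γ₀(N)` meets every stabiliser in `{±1}`. -/
theorem eq_one_or_neg_one_of_mem_normal (N : ℕ) (hN : 1 < N) (Q : Subgroup SL(2, ℤ)) [Q.Normal]
    (hQ : Q ≤ CongruenceSubgroup.Gamma0 N) (z : ℍ) (γ : SL(2, ℤ)) (hγ : γ • z = z)
    (hγQ : γ ∈ Q) : γ = 1 ∨ γ = -1 := by
  obtain ⟨γ₀, g₀, hm, -, hs⟩ := stab_exists_generator z
  have hmem : γ ∈ Subgroup.zpowers (γ₀ * g₀ * γ₀⁻¹) := by
    rw [← hs]
    exact MulAction.mem_stabilizer_iff.mpr hγ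
  obtain ⟨k, hk⟩ := Subgroup.mem_zpowers_iff.mp hmem
  rw [conj_zpow] at hk
  -- `g₀ ^ k` lies in `Q`
  have hconj : g₀ ^ k = γ₀⁻¹ * γ * γ₀⁻¹⁻¹ := by
    rw [← hk]
    group
  have hQk : g₀ ^ k ∈ Q := by
    rw [hconj]
    exact Subgroup.Normal.conj_mem inferInstance γ hγQ γ₀⁻¹
  have hΓ := (CongruenceSubgroup.Gamma0_mem).mp (hQ hQk)
  have : Fact (1 < N) := ⟨hN⟩
  rcases hm.zpow_cases k with h | h | h | h
  · left
    rw [← hk, h, mul_one, mul_inv_cancel]
  · right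
    rw [← hk, h, stab_conj_neg_one]
  · exfalso
    rw [h] at hΓ
    simp at hΓ
  · exfalso
    rw [h] at hΓ
    simp at hΓ

end Fermat.Agent.GTor.Clo
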