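import Fermat.Agent.GTor.Clo.Final
import Fermat.Agent.GTor.Clo.GC4
import Fermat.Agent.GTor.Clo.Stab
import Fermat.Agent.GTor.Clo.AsmCount
import Fermat.Agent.GTor.Defs
import Fermat.Agent.GTor.H96_SL2

/-!
# G-TOR A3–A5 (WP Ell): ramification indices = group theory in the Galois closure over `ℂ`

`G = Gal (LN N / EN)`, `piN N : SL(2, ℤ) → G` surjective, `fixF = Gal (LN N / F_N)`,
`(fixF).comap (piN N) = Γ₀(N)` (`piN_comap`).
* `piN N (-1) = 1` (`-1` acts trivially on `ℍ`, hence on `Hol` and on `AT N`; `piN_algebraMap`).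
* `ker (piN N)` is a normal subgroup contained in `Γ₀(N)`; for `1 < N` it meets every stabiliser
  in `{±1}` (`eq_one_or_neg_one_of_mem_normal`), so `piN N` maps `Stab(z) / ±1` isomorphically.
* `⟨piN N γ⟩ ⊓ fixF = piN N (Stab(z) ⊓ Γ₀(N))` has `|Stab_{Γ₀(N)}(z)| / 2 = ellOrder N z` elements.
* cusps: `piN N T` has order `N` (`T ^ N ∈ Γ(N)` acts trivially: `smul_eq_of_mem_Gamma`;
  `S * T ^ k * S⁻¹ ∈ Γ₀(N)` iff `N ∣ k`: `h85_conj_T_pow_mem_iff`), and
  `⟨piN N (σ T σ⁻¹)⟩ ⊓ fixF` is the subgroup of index `cuspWidth N σ`.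

WP Ell (helper38): all statements of this file are proved (signatures unchanged).
-/

set_option autoImplicit false

noncomputable section

namespace Fermat.Agent.GTor.Clo

open Fermat.Agent.S24 Fermat.Agent.GTor

open ModularCurve AlgebraicCurve UpperHalfPlane ModularGroup CongruenceSubgroup
open scoped MatrixGroups

theorem ell_neg_one_smul_Hol (f : Hol) : (-1 : SL(2, ℤ)) • f = f := by
  apply Subtype.ext
  funext τ
  rw [Hol.smul_apply]
  have h : (-1 : SL(2, ℤ))⁻¹ • τ = τ := by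
    rw [inv_smul_eq_iff, ModularGroup.SL_neg_smul, one_smul]
  rw [h]

theorem ell_neg_one_smul_Atil (N : ℕ) (f : Atil N) : (-1 : SL(2, ℤ)) • f = f :=
  Subtype.ext (ell_neg_one_smul_Hol (f : Hol))

theorem ell_neg_one_smul (N : ℕ) (f : AT N) : (-1 : SL(2, ℤ)) • f = f :=
  ell_neg_one_smul_Atil N f

/-- An element acting trivially on `AT N` lies in the kernel of `piN N`. -/
theorem piN_eq_one_of_smul (N : ℕ) [NeZero N] (γ : SL(2, ℤ)) (h : ∀ f : AT N, γ • f = f) :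
    piN N γ = 1 := by
  have h1 : toG0 N γ = 1 := by
    apply Subtype.ext
    ext f
    exact h f
  show (IsGaloisGroup.mulEquivAlgEquiv (G0 N) EN (LN N)) (toG0 N γ) = 1
  rw [h1, map_one]

theorem piN_neg_one (N : ℕ) [NeZero N] : piN N (-1) = 1 :=
  piN_eq_one_of_smul N (-1) (ell_neg_one_smul N)

theorem piN_mem_fixF_iff (N : ℕ) [NeZero N] (γ : SL(2, ℤ)) :
    piN N γ ∈ fixF EN (FN N) (LN N) ↔ γ ∈ Gamma0 N := by
  rw [← piN_comap N, Subgroup.mem_comap]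

theorem ker_piN_le_Gamma0 (N : ℕ) [NeZero N] : (piN N).ker ≤ Gamma0 N := by
  intro γ hγ
  rw [← piN_mem_fixF_iff, MonoidHom.mem_ker.mp hγ]
  exact Subgroup.one_mem _

/-! ## Points of `ℍ` -/

/-- The stabiliser of `z` in `Γ₀(N)`, as a subgroup of `SL(2, ℤ)`. -/
def ellStab (N : ℕ) (z : ℍ) : Subgroup SL(2, ℤ) :=
  MulAction.stabilizer SL(2, ℤ) z ⊓ Gamma0 N

theorem mem_ellStab (N : ℕ) (z : ℍ) (γ : SL(2, ℤ)) :
    γ ∈ ellStab N z ↔ γ • z = z ∧ γ ∈ Gamma0 N := by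
  rw [ellStab, Subgroup.mem_inf, MulAction.mem_stabilizer_iff]

theorem ell_finite_ellStab (N : ℕ) (z : ℍ) : Finite ↥(ellStab N z) := by
  have := stab_finite z
  exact Finite.of_injective
    (fun x : ↥(ellStab N z) => (⟨x.1, x.2.1⟩ : ↥(MulAction.stabilizer SL(2, ℤ) z)))
    (fun x y h => Subtype.ext (congrArg (fun t : ↥(MulAction.stabilizer SL(2, ℤ) z) => t.1) h))

/-- The set in the definition of `ellOrder` is the subgroup `ellStab`. -/
def ellEquiv (N : ℕ) (z : ℍ) :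
    {γ : Gamma0 N // ((γ : SL(2, ℤ))) • z = z} ≃ ↥(ellStab N z) where
  toFun x := ⟨x.1.1, (mem_ellStab N z _).mpr ⟨x.2, x.1.2⟩⟩
  invFun y := ⟨⟨y.1, ((mem_ellStab N z _).mp y.2).2⟩, ((mem_ellStab N z _).mp y.2).1⟩
  left_inv _ := rfl
  right_inv _ := rfl

theorem ellOrder_eq (N : ℕ) (z : ℍ) : ellOrder N z = Nat.card ↥(ellStab N z) / 2 := by
  unfold ellOrder
  rw [Nat.card_congr (ellEquiv N z)]

theorem ell_neg_one_mem_Gamma0 (N : ℕ) : (-1 : SL(2, ℤ)) ∈ Gamma0 N := by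
  rw [Gamma0_mem]
  simp

theorem ell_neg_one_mem (N : ℕ) (z : ℍ) : (-1 : SL(2, ℤ)) ∈ ellStab N z := by
  rw [mem_ellStab]
  exact ⟨by rw [ModularGroup.SL_neg_smul, one_smul], ell_neg_one_mem_Gamma0 N⟩

theorem ell_two_dvd_card (N : ℕ) (z : ℍ) : 2 ∣ Nat.card ↥(ellStab N z) := by
  have hle : Subgroup.zpowers (-1 : SL(2, ℤ)) ≤ ellStab N z :=
    Subgroup.zpowers_le.mpr (ell_neg_one_mem N z)
  have h := Subgroup.card_dvd_of_le hle
  rwa [Nat.card_zpowers, stab_orderOf_neg_one] at h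

theorem ellOrder_pos (N : ℕ) [NeZero N] (z : ℍ) : 0 < ellOrder N z := by
  rw [ellOrder_eq]
  have := ell_finite_ellStab N z
  have hpos : 0 < Nat.card ↥(ellStab N z) := Nat.card_pos
  obtain ⟨k, hk⟩ := ell_two_dvd_card N z
  rw [hk] at hpos ⊢
  omega

theorem ellOrder_one (z : ℍ) : ellOrder 1 z = jOrd z := by
  rw [ellOrder_eq]
  have h : ellStab 1 z = MulAction.stabilizer SL(2, ℤ) z := by
    ext γ
    rw [mem_ellStab, MulAction.mem_stabilizer_iff, Gamma0_mem]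
    constructor
    · exact fun h => h.1
    · exact fun h => ⟨h, Subsingleton.elim _ _⟩
  rw [h, card_stabilizer]
  omega

/-- The order of a generator of the stabiliser. -/
theorem ell_orderOf_generator (z : ℍ) (γ : SL(2, ℤ))
    (hγ : MulAction.stabilizer SL(2, ℤ) z = Subgroup.zpowers γ) :
    orderOf γ = 2 * jOrd z := by
  rw [← Nat.card_zpowers, ← hγ, card_stabilizer]

/-- For `1 < N` the image in the Galois group of a generator of `Stab(z)` has order `jOrd z`. -/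
theorem orderOf_piN_stab (N : ℕ) [NeZero N] (hN : 1 < N) (z : ℍ) (γ : SL(2, ℤ))
    (hγ : MulAction.stabilizer SL(2, ℤ) z = Subgroup.zpowers γ) (hγ' : γ ^ jOrd z = -1) :
    orderOf (piN N γ) = jOrd z := by
  have ho := ell_orderOf_generator z γ hγ
  have hm := jOrd_pos z
  have hfix : ∀ k : ℕ, (γ ^ k) • z = z := fun k => by
    have : γ ^ k ∈ MulAction.stabilizer SL(2, ℤ) z := by
      rw [hγ]
      exact Subgroup.pow_mem _ (Subgroup.mem_zpowers γ) k
    exact MulAction.mem_stabilizer_iff.mp this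
  apply Nat.dvd_antisymm
  · apply orderOf_dvd_of_pow_eq_one
    rw [← map_pow, hγ', piN_neg_one]
  · -- `(piN γ) ^ k = 1` implies `γ ^ k = ± 1`
    set k := orderOf (piN N γ) with hk
    have h1 : piN N (γ ^ k) = 1 := by rw [map_pow, hk, pow_orderOf_eq_one]
    have hker : γ ^ k ∈ (piN N).ker := MonoidHom.mem_ker.mpr h1
    rcases eq_one_or_neg_one_of_mem_normal N hN (piN N).ker (ker_piN_le_Gamma0 N) z (γ ^ k)
      (hfix k) hker with h | h
    · have hd : 2 * jOrd z ∣ k := by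
        rw [← ho]
        exact orderOf_dvd_of_pow_eq_one h
      exact dvd_trans (Dvd.intro_left 2 rfl) hd
    · -- `γ ^ (k + m) = 1`
      have h2 : γ ^ (k + jOrd z) = 1 := by
        rw [pow_add, h, hγ']
        apply Subtype.ext
        simp
      have hd : 2 * jOrd z ∣ k + jOrd z := by
        rw [← ho]
        exact orderOf_dvd_of_pow_eq_one h2
      obtain ⟨c, hc⟩ := hd
      exact ⟨2 * c - 1, by
        have : 1 ≤ c := by
          rcases Nat.eq_zero_or_pos c with h0 | h0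
          · rw [h0] at hc
            omega
          · exact h0
        zify [show 1 ≤ 2 * c by omega]
        zify at hc
        linear_combination hc⟩

/-- The image of the stabiliser in `Γ₀(N)` is `⟨piN γ⟩ ⊓ Gal (L / F)`. -/
theorem ell_map_ellStab (N : ℕ) [NeZero N] (z : ℍ) (γ : SL(2, ℤ))
    (hγ : MulAction.stabilizer SL(2, ℤ) z = Subgroup.zpowers γ) :
    (ellStab N z).map (piN N) = Subgroup.zpowers (piN N γ) ⊓ fixF EN (FN N) (LN N) := by
  ext y
  rw [Subgroup.mem_map, Subgroup.mem_inf]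
  constructor
  · rintro ⟨x, hx, rfl⟩
    rw [ellStab, Subgroup.mem_inf, hγ] at hx
    obtain ⟨k, rfl⟩ := Subgroup.mem_zpowers_iff.mp hx.1
    refine ⟨?_, (piN_mem_fixF_iff N _).mpr hx.2⟩
    rw [map_zpow]
    exact Subgroup.zpow_mem _ (Subgroup.mem_zpowers _) k
  · rintro ⟨h1, h2⟩
    obtain ⟨k, rfl⟩ := Subgroup.mem_zpowers_iff.mp h1
    rw [← map_zpow] at h2 ⊢
    refine ⟨γ ^ k, ?_, rfl⟩
    rw [ellStab, Subgroup.mem_inf, hγ]
    exact ⟨Subgroup.zpow_mem _ (Subgroup.mem_zpowers _) k, (piN_mem_fixF_iff N _).mp h2⟩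

/-- For `1 < N`, the kernel of `piN` on the stabiliser in `Γ₀(N)` has two elements. -/
theorem ell_card_ker (N : ℕ) [NeZero N] (hN : 1 < N) (z : ℍ) :
    Nat.card ↥((piN N).subgroupMap (ellStab N z)).ker = 2 := by
  rw [Nat.card_eq_two_iff]
  have hmem1 : (1 : ↥(ellStab N z)) ∈ ((piN N).subgroupMap (ellStab N z)).ker :=
    Subgroup.one_mem _
  have hmem2 : (⟨-1, ell_neg_one_mem N z⟩ : ↥(ellStab N z)) ∈
      ((piN N).subgroupMap (ellStab N z)).ker := by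
    rw [MonoidHom.mem_ker]
    apply Subtype.ext
    show piN N (-1) = 1
    exact piN_neg_one N
  refine ⟨⟨1, hmem1⟩, ⟨⟨-1, ell_neg_one_mem N z⟩, hmem2⟩, ?_, ?_⟩
  · intro h
    have h2 := congrArg (fun t : ↥((piN N).subgroupMap (ellStab N z)).ker =>
      ((t : ↥(ellStab N z)) : SL(2, ℤ))) h
    exact stab_neg_one_ne_one h2.symm
  · ext x
    simp only [Set.mem_insert_iff, Set.mem_singleton_iff, Set.mem_univ, iff_true]
    have hx1 : piN N ((x : ↥(ellStab N z)) : SL(2, ℤ)) = 1 := by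
      have := MonoidHom.mem_ker.mp x.2
      exact congrArg (fun t : ↥((ellStab N z).map (piN N)) => (t : LN N ≃ₐ[EN] LN N)) this
    have hx2 := ((mem_ellStab N z _).mp (x : ↥(ellStab N z)).2).1
    rcases eq_one_or_neg_one_of_mem_normal N hN (piN N).ker (ker_piN_le_Gamma0 N) z _ hx2
      (MonoidHom.mem_ker.mpr hx1) with h | h
    · left
      exact Subtype.ext (Subtype.ext h)
    · right
      exact Subtype.ext (Subtype.ext h)

/-- For `1 < N`: `|⟨piN γ⟩ ⊓ Gal (L / F)| = ellOrder N z`. -/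
theorem card_zpowers_inf_fixF (N : ℕ) [NeZero N] (hN : 1 < N) (z : ℍ) (γ : SL(2, ℤ))
    (hγ : MulAction.stabilizer SL(2, ℤ) z = Subgroup.zpowers γ) (hγ' : γ ^ jOrd z = -1) :
    Nat.card ↥(Subgroup.zpowers (piN N γ) ⊓ fixF EN (FN N) (LN N)) = ellOrder N z := by
  rw [ellOrder_eq, ← ell_map_ellStab N z γ hγ]
  have h1 := Subgroup.card_eq_card_quotient_mul_card_subgroup
    ((piN N).subgroupMap (ellStab N z)).ker
  have h2 : Nat.card (↥(ellStab N z) ⧸ ((piN N).subgroupMap (ellStab N z)).ker) =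
      Nat.card ↥((ellStab N z).map (piN N)) :=
    Nat.card_congr (QuotientGroup.quotientKerEquivOfSurjective _
      ((piN N).subgroupMap_surjective (ellStab N z))).toEquiv
  rw [h2, ell_card_ker N hN z] at h1
  rw [h1]
  omega

/-! ## Cusps -/

theorem ell_T_pow_mem_Gamma (N : ℕ) : (T ^ N : SL(2, ℤ)) ∈ Gamma N := by
  have hT : ((T ^ N : SL(2, ℤ)) : Matrix (Fin 2) (Fin 2) ℤ) = !![1, (N : ℤ); 0, 1] := by
    have := ModularGroup.coe_T_zpow (N : ℤ)
    rwa [zpow_natCast] at this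
  rw [Gamma_mem, hT]
  simp

theorem ell_conj_T_pow_mem (N : ℕ) (σ : SL(2, ℤ)) : σ * T ^ N * σ⁻¹ ∈ Gamma0 N := by
  have h1 : σ * T ^ N * σ⁻¹ ∈ Gamma N :=
    (Gamma_normal N).conj_mem _ (ell_T_pow_mem_Gamma N) σ
  rw [Gamma_mem] at h1
  rw [Gamma0_mem]
  exact h1.2.2.1

/-- The set in the definition of `cuspWidth`, in terms of powers of `σ T σ⁻¹`. -/
theorem ell_width_set (N : ℕ) (σ : SL(2, ℤ)) :
    {h : ℕ | 0 < h ∧ σ * T ^ h * σ⁻¹ ∈ Gamma0 N} =
      {h : ℕ | 0 < h ∧ (σ * T * σ⁻¹) ^ h ∈ Gamma0 N} := by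
  ext h
  simp only [Set.mem_ofPred_eq, conj_pow]

theorem ell_width_mem (N : ℕ) [NeZero N] (σ : SL(2, ℤ)) :
    cuspWidth N σ ∈ {h : ℕ | 0 < h ∧ σ * T ^ h * σ⁻¹ ∈ Gamma0 N} :=
  Nat.sInf_mem ⟨N, Nat.pos_of_ne_zero (NeZero.ne N), ell_conj_T_pow_mem N σ⟩

theorem cuspWidth_pos (N : ℕ) [NeZero N] (σ : SL(2, ℤ)) : 0 < cuspWidth N σ :=
  (ell_width_mem N σ).1

/-- `(σ T σ⁻¹) ^ j ∈ Γ₀(N)` implies `cuspWidth N σ ∣ j`. -/
theorem ell_width_dvd_of_mem (N : ℕ) [NeZero N] (σ : SL(2, ℤ)) {j : ℤ}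
    (hj : (σ * T * σ⁻¹) ^ j ∈ Gamma0 N) : (cuspWidth N σ : ℤ) ∣ j := by
  have hw := cuspWidth_pos N σ
  unfold cuspWidth at hw ⊢
  rw [ell_width_set] at hw ⊢
  exact H96.sInf_dvd_of_zpow_mem (Gamma0 N) (σ * T * σ⁻¹) hw hj

theorem cuspWidth_dvd (N : ℕ) [NeZero N] (σ : SL(2, ℤ)) : cuspWidth N σ ∣ N := by
  have h : (σ * T * σ⁻¹) ^ ((N : ℕ) : ℤ) ∈ Gamma0 N := by
    rw [zpow_natCast, conj_pow]
    exact ell_conj_T_pow_mem N σ
  exact Int.natCast_dvd_natCast.mp (ell_width_dvd_of_mem N σ h)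

theorem orderOf_piN_T (N : ℕ) [NeZero N] : orderOf (piN N T) = N := by
  have h1 : orderOf (piN N T) ∣ N := by
    apply orderOf_dvd_of_pow_eq_one
    rw [← map_pow]
    exact piN_eq_one_of_smul N _ (fun f => smul_eq_of_mem_Gamma N _ (ell_T_pow_mem_Gamma N) f)
  have h2 : N ≤ orderOf (piN N T) := h85_le_orderOf_T (modClosure N)
  exact le_antisymm (Nat.le_of_dvd (Nat.pos_of_ne_zero (NeZero.ne N)) h1) h2

theorem orderOf_piN_conj_T (N : ℕ) [NeZero N] (σ : SL(2, ℤ)) :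
    orderOf (piN N (σ * T * σ⁻¹)) = N := by
  rw [map_mul, map_mul, map_inv]
  exact (orderOf_injective (MulAut.conj (piN N σ)).toMonoidHom
    (MulAut.conj (piN N σ)).injective (piN N T)).trans (orderOf_piN_T N)

/-- `|⟨piN (σ T σ⁻¹)⟩ ⊓ Gal (L / F)| = N / cuspWidth N σ`. -/
theorem card_zpowers_inf_fixF_cusp (N : ℕ) [NeZero N] (σ : SL(2, ℤ)) :
    Nat.card ↥(Subgroup.zpowers (piN N (σ * T * σ⁻¹)) ⊓ fixF EN (FN N) (LN N))
      = N / cuspWidth N σ := by
  set g := piN N (σ * T * σ⁻¹) with hg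
  set w := cuspWidth N σ with hw
  have hwpos : 0 < w := cuspWidth_pos N σ
  have hwdvd : w ∣ N := cuspWidth_dvd N σ
  have hwmem : (σ * T * σ⁻¹) ^ w ∈ Gamma0 N := by
    rw [conj_pow]
    exact (ell_width_mem N σ).2
  have heq : Subgroup.zpowers g ⊓ fixF EN (FN N) (LN N) = Subgroup.zpowers (g ^ w) := by
    ext y
    rw [Subgroup.mem_inf]
    constructor
    · rintro ⟨h1, h2⟩
      obtain ⟨k, rfl⟩ := Subgroup.mem_zpowers_iff.mp h1
      rw [hg, ← map_zpow, piN_mem_fixF_iff] at h2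
      obtain ⟨c, hc⟩ := ell_width_dvd_of_mem N σ h2
      rw [Subgroup.mem_zpowers_iff]
      exact ⟨c, by rw [hc, zpow_mul, zpow_natCast]⟩
    · intro h
      obtain ⟨k, rfl⟩ := Subgroup.mem_zpowers_iff.mp h
      refine ⟨Subgroup.zpow_mem _ (Subgroup.pow_mem _ (Subgroup.mem_zpowers g) w) k, ?_⟩
      refine Subgroup.zpow_mem _ ?_ k
      rw [hg, ← map_pow, piN_mem_fixF_iff]
      exact hwmem
  rw [heq, Nat.card_zpowers, orderOf_pow' g hwpos.ne', hg, orderOf_piN_conj_T,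
    Nat.gcd_eq_right hwdvd]

end Fermat.Agent.GTor.Clo
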