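import Fermat.Agent.GTor.Clo.LemmaJ

/-!
# S24 construction, layer 4 (WP CLO-Galois): `Frac (Atil N)` is Galois over `Q̄(j)`

To keep instance search fast we work with the type synonym `AT N` of `↥(Atil N)`.
-/

set_option autoImplicit false

noncomputable section

namespace Fermat.Agent.GTor.Clo

open Fermat.Agent.S24

open ModularCurve UpperHalfPlane
open scoped MatrixGroups Manifold

/-- `↥(Atil N)` as a type of its own (instance search does not unfold it). -/
def AT (N : ℕ) : Type := ↥(Atil N)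

instance commRingAT (N : ℕ) : CommRing (AT N) := inferInstanceAs (CommRing ↥(Atil N))
instance isDomainAT (N : ℕ) : IsDomain (AT N) := isDomain_Atil N
instance algebraKbarAT (N : ℕ) : Algebra Kbar (AT N) := inferInstanceAs (Algebra Kbar ↥(Atil N))
instance mulSemiringActionAT (N : ℕ) : MulSemiringAction SL(2, ℤ) (AT N) :=
  mulSemiringActionAtil N
instance smulCommClassAT (N : ℕ) : SMulCommClass SL(2, ℤ) Kbar (AT N) :=
  smulCommClass_SL_Kbar_Atil N

/-- The identification `Atil N ≃ AT N`. -/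
def toAT (N : ℕ) : ↥(Atil N) ≃ₐ[Kbar] AT N := AlgEquiv.refl

/-- `j` in `AT N`. -/
def jT (N : ℕ) : AT N := toAT N (jA N)

/-- The action of `SL(2, ℤ)` on `AT N` as a homomorphism to ring automorphisms. -/
def actHom (N : ℕ) : SL(2, ℤ) →* RingAut (AT N) := MulSemiringAction.toRingAut SL(2, ℤ) (AT N)

theorem actHom_apply (N : ℕ) (γ : SL(2, ℤ)) (f : AT N) : actHom N γ f = γ • f := rfl

/-- The finite group through which `SL(2, ℤ)` acts on `AT N`. -/
def G0 (N : ℕ) : Type := ↥(actHom N).range

instance groupG0 (N : ℕ) : Group (G0 N) := inferInstanceAs (Group ↥(actHom N).range)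

instance mulSemiringActionG0 (N : ℕ) : MulSemiringAction (G0 N) (AT N) :=
  inferInstanceAs (MulSemiringAction ↥(actHom N).range (AT N))

/-- `SL(2, ℤ) → G0 N`. -/
def toG0 (N : ℕ) : SL(2, ℤ) →* G0 N := (actHom N).rangeRestrict

theorem toG0_surjective (N : ℕ) : Function.Surjective (toG0 N) :=
  (actHom N).rangeRestrict_surjective

theorem toG0_smul (N : ℕ) (γ : SL(2, ℤ)) (f : AT N) : toG0 N γ • f = γ • f := rfl

theorem Gamma_le_ker_actHom (N : ℕ) [NeZero N] :
    CongruenceSubgroup.Gamma N ≤ (actHom N).ker := by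
  intro γ hγ
  rw [MonoidHom.mem_ker]
  ext f
  exact smul_eq_of_mem_Gamma N γ hγ f

instance finite_G0 (N : ℕ) [NeZero N] : Finite (G0 N) := by
  have : (actHom N).ker.FiniteIndex := Subgroup.finiteIndex_of_le (Gamma_le_ker_actHom N)
  exact Finite.of_equiv _ (QuotientGroup.quotientKerEquivRange (actHom N)).toEquiv

instance faithfulSMul_G0 (N : ℕ) : FaithfulSMul (G0 N) (AT N) :=
  ⟨fun h => Subtype.ext (RingEquiv.ext h)⟩

/-- `Q̄[X] → AT N`, `X ↦ j`. -/
instance algPolyAT (N : ℕ) : Algebra (Polynomial Kbar) (AT N) :=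
  (Polynomial.aeval (jT N)).toRingHom.toAlgebra

theorem algebraMap_poly_AT (N : ℕ) (p : Polynomial Kbar) :
    algebraMap (Polynomial Kbar) (AT N) p = Polynomial.aeval (jT N) p := rfl

theorem jT_transcendental (N : ℕ) : Transcendental Kbar (jT N) := jA_transcendental N

instance faithfulSMul_poly_AT (N : ℕ) : FaithfulSMul (Polynomial Kbar) (AT N) := by
  rw [faithfulSMul_iff_algebraMap_injective]
  exact transcendental_iff_injective.mp (jT_transcendental N)

instance isScalarTower_Kbar_poly_AT (N : ℕ) :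
    IsScalarTower Kbar (Polynomial Kbar) (AT N) :=
  IsScalarTower.of_algebraMap_eq fun c => by
    rw [algebraMap_poly_AT, Polynomial.algebraMap_apply, Polynomial.aeval_C]
    rfl

theorem smul_jT (N : ℕ) (γ : SL(2, ℤ)) : γ • jT N = jT N := smul_jA N γ

theorem smul_aeval_jT (N : ℕ) (γ : SL(2, ℤ)) (p : Polynomial Kbar) :
    γ • Polynomial.aeval (jT N) p = Polynomial.aeval (jT N) p := by
  induction p using Polynomial.induction_on' with
  | add p q hp hq => rw [map_add, smul_add, hp, hq]
  | monomial n c =>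
    rw [← Polynomial.C_mul_X_pow_eq_monomial, map_mul, map_pow, Polynomial.aeval_C,
      Polynomial.aeval_X, smul_mul', smul_pow', smul_jT, Algebra.algebraMap_eq_smul_one,
      smul_comm, smul_one]

instance smulCommClass_G0_poly_AT (N : ℕ) : SMulCommClass (G0 N) (Polynomial Kbar) (AT N) :=
  ⟨fun g p f => by
    obtain ⟨γ, rfl⟩ := toG0_surjective N g
    rw [toG0_smul, toG0_smul, Algebra.smul_def, Algebra.smul_def, smul_mul', algebraMap_poly_AT,
      smul_aeval_jT]⟩

instance isGaloisGroup_G0 (N : ℕ) [NeZero N] : IsGaloisGroup (G0 N) (Polynomial Kbar) (AT N) where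
  faithful := faithfulSMul_G0 N
  commutes := smulCommClass_G0_poly_AT N
  isInvariant := ⟨fun f hf => by
    have hf' : ∀ γ : SL(2, ℤ), γ • (show ↥(Atil N) from f) = (show ↥(Atil N) from f) :=
      fun γ => hf (toG0 N γ)
    obtain ⟨p, hp⟩ := lemmaJ N f hf'
    exact ⟨p, hp⟩⟩

/-- The base field `Q̄(j)`. -/
abbrev EN : Type := FractionRing (Polynomial Kbar)

/-- The Galois closure. -/
abbrev LN (N : ℕ) : Type := FractionRing (AT N)

instance algEL (N : ℕ) : Algebra EN (LN N) := FractionRing.liftAlgebra _ _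

instance (N : ℕ) : IsScalarTower (Polynomial Kbar) EN (LN N) :=
  FractionRing.isScalarTower_liftAlgebra _ _

instance mulSemiringAction_G0_LN (N : ℕ) : MulSemiringAction (G0 N) (LN N) :=
  IsFractionRing.mulSemiringAction (G0 N) (AT N) (LN N)

instance (N : ℕ) : SMulDistribClass (G0 N) (AT N) (LN N) :=
  IsFractionRing.smulDistribClass (G0 N) (AT N) (LN N)

instance isGaloisGroup_G0_LN (N : ℕ) [NeZero N] : IsGaloisGroup (G0 N) EN (LN N) :=
  IsGaloisGroup.to_isFractionRing (G0 N) (Polynomial Kbar) (AT N) EN (LN N)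

instance (N : ℕ) [NeZero N] : IsGalois EN (LN N) := IsGaloisGroup.isGalois (G0 N) EN (LN N)

instance (N : ℕ) [NeZero N] : FiniteDimensional EN (LN N) :=
  IsGaloisGroup.finiteDimensional (G0 N) EN (LN N)

/-- The action of the modular group on the Galois closure. -/
def piN (N : ℕ) [NeZero N] : SL(2, ℤ) →* (LN N ≃ₐ[EN] LN N) :=
  (IsGaloisGroup.mulEquivAlgEquiv (G0 N) EN (LN N)).toMonoidHom.comp (toG0 N)

theorem piN_surjective (N : ℕ) [NeZero N] : Function.Surjective (piN N) :=
  (IsGaloisGroup.mulEquivAlgEquiv (G0 N) EN (LN N)).surjective.comp (toG0_surjective N)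

theorem piN_algebraMap (N : ℕ) [NeZero N] (γ : SL(2, ℤ)) (f : AT N) :
    piN N γ (algebraMap (AT N) (LN N) f) = algebraMap (AT N) (LN N) (γ • f) := by
  show (toG0 N γ) • (algebraMap (AT N) (LN N) f) = algebraMap (AT N) (LN N) (γ • f)
  rw [← toG0_smul, algebraMap.smul']

end Fermat.Agent.GTor.Clo
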