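import Fermat.Agent.GTor.Clo.Val
import Fermat.Agent.GTor.Defs
import Fermat.Prelude.Thm_CongruenceSubgroup_one_mem_strictPeriods_Gamma0

/-!
# G-TOR, WP Ratio, shared core (helper72): `a * B = b * A` on `ℍ`

For `f ∈ F_ℂ` with `f = A / B` as `q`-expansions (`IsRatio`) and `phi f = a / b` with
`a, b ∈ AT N`: the holomorphic functions `a * B` and `b * A` have the same expansion in
`u = exp (2 π i τ / N)`, hence are equal.

* `h72_hasUExp_modularForm` : a modular form on `Γ₀(N)` has the expansion `qExpand N (qLaurent A)`;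
* `h72_ratio_core`          : `a τ * B τ = b τ * A τ`;
* `h72_ratio_core_hol`      : the same as an identity in `Hol`.
-/

set_option autoImplicit false

noncomputable section

namespace Fermat.Agent.GTor.Clo

open Fermat.Agent.S24 Fermat.Agent.GTor

open ModularCurve AlgebraicCurve UpperHalfPlane WithZero
open scoped MatrixGroups Manifold ModularForm

/-- The coefficients of `qLaurent` in negative degree vanish. -/
theorem h72_qLaurent_coeff_neg (A : ℍ → ℂ) {n : ℤ} (hn : n < 0) : (qLaurent A).coeff n = 0 :=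
  ofPowerSeries_coeff_of_neg _ hn

/-- The coefficients of `qLaurent` in degree `m ≥ 0`. -/
theorem h72_qLaurent_coeff_nat (A : ℍ → ℂ) (m : ℕ) :
    (qLaurent A).coeff (m : ℤ) = (UpperHalfPlane.qExpansion 1 A).coeff m :=
  HahnSeries.ofPowerSeries_apply_coeff _ m

/-- A modular form on `Γ₀(N)` is the sum of its `q`-expansion, written in the parameter
`u = exp (2 π i τ / N)`. -/
theorem h72_hasUExp_modularForm (N : ℕ) [NeZero N] {k : ℤ}
    (A : ModularForm (CongruenceSubgroup.Gamma0 N) k) :
    HasUExp N (A : ℍ → ℂ) (qExpand ℂ N (qLaurent A)) := by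
  intro τ
  have h := ModularForm.hasSum_qExpansion (f := A) one_pos
    (CongruenceSubgroup.one_mem_strictPeriods_Gamma0 N) τ
  have hN0 : (N : ℤ) ≠ 0 := by exact_mod_cast NeZero.ne N
  have hφ : Function.Injective (fun m : ℕ => (N : ℤ) * (m : ℤ)) := by
    intro m m' hmm
    have := mul_left_cancel₀ hN0 hmm
    exact_mod_cast this
  refine (hφ.hasSum_iff ?_).mp ?_
  · intro n hn
    by_cases hdiv : (N : ℤ) ∣ n
    · obtain ⟨j, rfl⟩ := hdiv
      have hj : j < 0 := by
        by_contra hcon
        rw [not_lt] at hcon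
        obtain ⟨m, rfl⟩ := Int.eq_ofNat_of_zero_le hcon
        exact hn ⟨m, rfl⟩
      rw [qExpand_coeff_mul, h72_qLaurent_coeff_neg _ hj, zero_mul]
    · rw [qExpand_coeff_of_not_dvd N _ hdiv, zero_mul]
  · have hfun : ((fun n : ℤ => (qExpand ℂ N (qLaurent A)).coeff n * uPar N τ ^ n) ∘
        fun m : ℕ => (N : ℤ) * (m : ℤ))
        = fun m : ℕ => (UpperHalfPlane.qExpansion 1 A).coeff m
            * Function.Periodic.qParam 1 (τ : ℂ) ^ m := by
      funext m
      show (qExpand ℂ N (qLaurent A)).coeff ((N : ℤ) * (m : ℤ)) * uPar N τ ^ ((N : ℤ) * (m : ℤ))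
        = _
      rw [qExpand_coeff_mul, h72_qLaurent_coeff_nat, zpow_mul, zpow_natCast, zpow_natCast,
        uPar_pow]
      simp [uPar]
    rw [hfun]
    exact h

/-- `coeffMap iotaC` is the identity (`Kbar` unfolds to `ℂ`). -/
theorem h72_coeffMap_iotaC_coeff (c : LaurentSeries Kbar) (n : ℤ) :
    (coeffMap iotaC c).coeff n = c.coeff n := by
  rw [coeffMap_coeff]
  rfl

/-- The expansion of an element of `AT N`, as a statement over `ℂ`. -/
theorem h72_hasUExp_valAT (N : ℕ) [NeZero N] (a : AT N) :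
    HasUExp N ((valAT N a : Hol) : ℍ → ℂ) (coeffMap iotaC (uExpT N a)) :=
  uExp_spec N ((toAT N).symm a)

/-- `coeffMap iotaC` commutes with `qExpand`. -/
theorem h72_coeffMap_qExpand (N : ℕ) [NeZero N] (x : LaurentSeries Kbar) :
    coeffMap iotaC (qExpand Kbar N x) = qExpand ℂ N (coeffMap iotaC x) := by
  ext n
  rw [coeffMap_coeff]
  by_cases hdiv : (N : ℤ) ∣ n
  · obtain ⟨j, rfl⟩ := hdiv
    rw [qExpand_coeff_mul, qExpand_coeff_mul, coeffMap_coeff]
  · rw [qExpand_coeff_of_not_dvd N _ hdiv, qExpand_coeff_of_not_dvd N _ hdiv, map_zero]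

/-- The identification of the two names of the function field over `ℂ`
(same as `toFNL` of `Ratio.lean`). -/
def h72_toFNL (N : ℕ) (f : FN N) : FNL ℂ N := f

theorem h72_ser_eq (N : ℕ) (f : FN N) :
    coeffMap iotaC (f : LaurentSeries Kbar) = ((h72_toFNL N f : FNL ℂ N) : LaurentSeries ℂ) := by
  ext n
  exact h72_coeffMap_iotaC_coeff _ n

/-- The relation between the expansions of numerator and denominator of `phi f`. -/
theorem h72_uExpT_eq (N : ℕ) [NeZero N] (f : FN N) (a b : AT N) (hb : b ≠ 0)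
    (hab : phi N f = algebraMap (AT N) (LN N) a / algebraMap (AT N) (LN N) b) :
    uExpT N a = qExpand Kbar N (f : LaurentSeries Kbar) * uExpT N b := by
  have hb' : algebraMap (AT N) (LN N) b ≠ 0 := by
    intro h0
    exact hb (IsFractionRing.injective (AT N) (LN N) (by rw [h0, map_zero]))
  have h1 : phi N f * algebraMap (AT N) (LN N) b = algebraMap (AT N) (LN N) a := by
    rw [hab, div_mul_cancel₀ _ hb']
  have h2 := congrArg (UL N) h1
  rw [map_mul, UL_phi, UL_algebraMap, UL_algebraMap, qN_apply] at h2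
  exact h2.symm

/-- **Core of WP Ratio**: `a * B = b * A` on `ℍ`. -/
theorem h72_ratio_core (N : ℕ) [NeZero N] (f : FN N) {k : ℤ}
    (A B : ModularForm (CongruenceSubgroup.Gamma0 N) k) (h : IsRatio N (h72_toFNL N f) A B)
    (a b : AT N) (hb : b ≠ 0)
    (hab : phi N f = algebraMap (AT N) (LN N) a / algebraMap (AT N) (LN N) b) (τ : ℍ) :
    ((valAT N a : Hol) : ℍ → ℂ) τ * B τ = ((valAT N b : Hol) : ℍ → ℂ) τ * A τ := by
  obtain ⟨-, hAB⟩ := h
  have ha := h72_hasUExp_valAT N a
  have hbx := h72_hasUExp_valAT N b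
  have hA := h72_hasUExp_modularForm N A
  have hB := h72_hasUExp_modularForm N B
  have h1 := ha.mul hB
  have h2 := hbx.mul hA
  have hser : coeffMap iotaC (uExpT N a) * qExpand ℂ N (qLaurent B)
      = coeffMap iotaC (uExpT N b) * qExpand ℂ N (qLaurent A) := by
    rw [h72_uExpT_eq N f a b hb hab, map_mul, h72_coeffMap_qExpand, hAB, map_mul]
    rw [h72_ser_eq N f]
    ring
  rw [hser] at h1
  exact (h1 τ).unique (h2 τ)

end Fermat.Agent.GTor.Clo
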