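import Fermat.Agent.GTor.Clo.UExpJA

/-!
# S24 construction, layer 3 (WP CLO-LemmaJ): the `SL(2, ℤ)`-invariants of `Atil N` are `Q̄[j]`

Proof sketch. Let `f ∈ Atil N` be invariant, `c = uExp N f`.
* `T • f = f` and `uExp_T_smul` give `c n = ζ_N ^ (-n) * c n`, so `c n = 0` unless `N ∣ n`
  (`zetaK_zpow_eq_one_iff`).
* Induction on the pole order `M` (`c n = 0` for `n < - N * M`):
  - `M = 0`: `f` is bounded at `∞` (`isBoundedAtImInfty_of_uExp`), holomorphic and invariant,
    so it is a modular form of weight `0` and level one, hence constant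
    (`ModularFormClass.levelOne_weight_zero_const`); then `eq_algebraMap_of_const`.
  - `M + 1`: `f - c (- N (M+1)) • j ^ (M+1)` is invariant with pole order `≤ M`
    (`uExp_jA`, `jq` has leading coefficient `1` at `-1`, `smul_jA`).
-/

set_option autoImplicit false

noncomputable section

namespace Fermat.Agent.GTor.Clo

open Fermat.Agent.S24

open ModularCurve UpperHalfPlane
open scoped MatrixGroups Manifold ModularForm

/-- `T`-invariance forces the expansion to be supported on the multiples of `N`. -/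
theorem lemmaJ_coeff_eq_zero_of_not_dvd (N : ℕ) [NeZero N] (f : Atil N)
    (hT : ModularGroup.T • f = f) (n : ℤ) (hn : ¬ (N : ℤ) ∣ n) : (uExp N f).coeff n = 0 := by
  have h := uExp_T_smul N f
  rw [hT] at h
  have h1 : (uExp N f).coeff n = (zetaK N)⁻¹ ^ n * (uExp N f).coeff n := by
    conv_lhs => rw [h]
    rw [twist_coeff]
  by_contra hne
  have h2 : (zetaK N)⁻¹ ^ n = 1 := by
    have h3 : ((zetaK N)⁻¹ ^ n - 1) * (uExp N f).coeff n = 0 := by
      linear_combination -h1
    rcases mul_eq_zero.mp h3 with h4 | h4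
    · exact sub_eq_zero.mp h4
    · exact absurd h4 hne
  rw [inv_zpow] at h2
  exact hn ((zetaK_zpow_eq_one_iff N n).mp (inv_eq_one.mp h2))

/-- An invariant element of `Atil N`, as a function, is invariant under `τ ↦ γ τ`. -/
theorem lemmaJ_apply_smul (N : ℕ) (f : Atil N) (hf : ∀ γ : SL(2, ℤ), γ • f = f)
    (γ : SL(2, ℤ)) (τ : ℍ) : ((f : Hol) : ℍ → ℂ) (γ • τ) = ((f : Hol) : ℍ → ℂ) τ := by
  have h := hf γ⁻¹
  have h1 : ((γ⁻¹ • f : Atil N) : Hol) = (f : Hol) := congrArg Subtype.val h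
  rw [coe_smul_Atil] at h1
  have h2 := congrFun (congrArg Subtype.val h1) τ
  rw [Hol.smul_apply, inv_inv] at h2
  exact h2

/-- An invariant element of `Atil N` which is bounded at `∞` is constant. -/
theorem lemmaJ_const (N : ℕ) (f : Atil N) (hf : ∀ γ : SL(2, ℤ), γ • f = f)
    (hb : IsBoundedAtImInfty ((f : Hol) : ℍ → ℂ)) :
    ∃ a : ℂ, ∀ τ : ℍ, ((f : Hol) : ℍ → ℂ) τ = a := by
  have hslash : ∀ γ : SL(2, ℤ), (((f : Hol) : ℍ → ℂ) ∣[(0 : ℤ)] γ) = ((f : Hol) : ℍ → ℂ) := by
    intro γ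
    funext τ
    rw [ModularForm.SL_slash_apply, lemmaJ_apply_smul N f hf γ τ]
    simp
  let F : ModularForm 𝒮ℒ 0 :=
    { toFun := ((f : Hol) : ℍ → ℂ)
      slash_action_eq' := fun _ ⟨γ, hγ⟩ ↦ hγ ▸ hslash γ
      holo' := Hol.mdifferentiable (f : Hol)
      bdd_at_cusps' := by
        intro c hc
        rw [Subgroup.IsArithmetic.isCusp_iff_isCusp_SL2Z] at hc
        rw [OnePoint.isBoundedAt_iff_forall_SL2Z hc]
        intro γ _
        rw [hslash γ]
        exact hb }
  obtain ⟨a, ha⟩ := ModularFormClass.levelOne_weight_zero_const F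
  exact ⟨a, fun τ => congrFun ha τ⟩

/-- The expansion of `j ^ n`. -/
theorem lemmaJ_uExp_jA_pow (N : ℕ) [NeZero N] (n : ℕ) :
    uExp N (jA N ^ n) = qExpand Kbar N (coeffEmb Kbar (jq ^ n)) := by
  rw [map_pow, uExp_jA, jBar, map_pow, map_pow]

theorem lemmaJ_coeff_jA_pow_self (N : ℕ) [NeZero N] (n : ℕ) :
    (uExp N (jA N ^ n)).coeff (-((N : ℤ) * n)) = 1 := by
  rw [lemmaJ_uExp_jA_pow, show -((N : ℤ) * n) = (N : ℤ) * (-(n : ℤ)) by ring,
    qExpand_coeff_mul, coeffEmb_coeff, coeff_jq_pow_self, map_one]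

theorem lemmaJ_coeff_jA_pow_of_lt (N : ℕ) [NeZero N] (n : ℕ) {m : ℤ}
    (hm : m < -((N : ℤ) * n)) : (uExp N (jA N ^ n)).coeff m = 0 := by
  rw [lemmaJ_uExp_jA_pow]
  by_cases hd : (N : ℤ) ∣ m
  · obtain ⟨k, rfl⟩ := hd
    have hN : (0 : ℤ) < N := by exact_mod_cast Nat.pos_of_ne_zero (NeZero.ne N)
    have hk : k < -(n : ℤ) := by
      by_contra hk
      have : -((N : ℤ) * n) ≤ (N : ℤ) * k := by
        have := mul_le_mul_of_nonneg_left (not_lt.mp hk) hN.le
        linarith
      exact absurd hm (not_lt.mpr this)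
    rw [qExpand_coeff_mul, coeffEmb_coeff, coeff_jq_pow_of_lt hk, map_zero]
  · exact qExpand_coeff_of_not_dvd N _ hd

theorem lemmaJ_coeff_algebraMap_mul (a : Kbar) (c : LaurentSeries Kbar) (n : ℤ) :
    (algebraMap Kbar (LaurentSeries Kbar) a * c).coeff n = a * c.coeff n := by
  rw [LaurentSeries.algebraMap_apply, HahnSeries.C_mul_eq_smul, HahnSeries.coeff_smul,
    smul_eq_mul]

/-- The element `f - a j ^ n` and its properties. -/
theorem lemmaJ_step_smul (N : ℕ) [NeZero N] (f : Atil N) (hf : ∀ γ : SL(2, ℤ), γ • f = f)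
    (a : Kbar) (n : ℕ) (γ : SL(2, ℤ)) :
    γ • (f - algebraMap Kbar (Atil N) a * jA N ^ n) =
      f - algebraMap Kbar (Atil N) a * jA N ^ n := by
  have h1 : γ • (f - algebraMap Kbar (Atil N) a * jA N ^ n) =
      γ • f - γ • (algebraMap Kbar (Atil N) a * jA N ^ n) := smul_sub γ f _
  have h2 : γ • (algebraMap Kbar (Atil N) a * jA N ^ n) =
      γ • (algebraMap Kbar (Atil N) a) * γ • (jA N ^ n) := smul_mul' γ _ _
  have h3 : γ • (jA N ^ n) = (γ • jA N) ^ n := smul_pow' γ (jA N) n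
  have h4 : γ • (algebraMap Kbar (Atil N) a) = algebraMap Kbar (Atil N) a :=
    smul_algebraMap γ a
  rw [h1, h2, h3, h4, hf γ, smul_jA]

theorem lemmaJ_step_coeff (N : ℕ) [NeZero N] (f : Atil N) (a : Kbar) (n : ℕ) (m : ℤ) :
    (uExp N (f - algebraMap Kbar (Atil N) a * jA N ^ n)).coeff m =
      (uExp N f).coeff m - a * (uExp N (jA N ^ n)).coeff m := by
  have h1 : uExp N (f - algebraMap Kbar (Atil N) a * jA N ^ n) =
      uExp N f - uExp N (algebraMap Kbar (Atil N) a * jA N ^ n) := map_sub (uExp N) f _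
  have h2 : uExp N (algebraMap Kbar (Atil N) a * jA N ^ n) =
      uExp N (algebraMap Kbar (Atil N) a) * uExp N (jA N ^ n) := map_mul (uExp N) _ _
  have h3 : uExp N (algebraMap Kbar (Atil N) a) = algebraMap Kbar (LaurentSeries Kbar) a :=
    AlgHom.commutes (uExp N) a
  rw [h1, h2, h3, HahnSeries.coeff_sub, lemmaJ_coeff_algebraMap_mul]

/-- Lemma J, by induction on the pole order. -/
theorem lemmaJ_aux (N : ℕ) [NeZero N] (M : ℕ) :
    ∀ f : Atil N, (∀ γ : SL(2, ℤ), γ • f = f) →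
      (∀ n : ℤ, n < -((N : ℤ) * M) → (uExp N f).coeff n = 0) →
      ∃ p : Polynomial Kbar, Polynomial.aeval (jA N) p = f := by
  have hN : (0 : ℤ) < N := by exact_mod_cast Nat.pos_of_ne_zero (NeZero.ne N)
  induction M with
  | zero =>
    intro f hf hc
    have hb : IsBoundedAtImInfty ((f : Hol) : ℍ → ℂ) :=
      isBoundedAtImInfty_of_uExp N f (fun n hn => hc n (by simpa using hn))
    obtain ⟨a, ha⟩ := lemmaJ_const N f hf hb
    refine ⟨Polynomial.C ((uExp N f).coeff 0), ?_⟩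
    rw [Polynomial.aeval_C]
    exact (eq_algebraMap_of_const N f a ha).symm
  | succ M ih =>
    intro f hf hc
    obtain ⟨a, ha⟩ : ∃ a : Kbar, a = (uExp N f).coeff (-((N : ℤ) * ((M + 1 : ℕ) : ℤ))) :=
      ⟨_, rfl⟩
    have hginv := lemmaJ_step_smul N f hf a (M + 1)
    have hgc := lemmaJ_step_coeff N f a (M + 1)
    have hgvanish : ∀ n : ℤ, n < -((N : ℤ) * M) →
        (uExp N (f - algebraMap Kbar (Atil N) a * jA N ^ (M + 1))).coeff n = 0 := by
      intro n hn
      by_cases hd : (N : ℤ) ∣ n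
      · obtain ⟨k, rfl⟩ := hd
        have hk : k < -(M : ℤ) := by
          by_contra hk
          have := mul_le_mul_of_nonneg_left (not_lt.mp hk) hN.le
          linarith
        rcases lt_or_eq_of_le (show k ≤ -((M + 1 : ℕ) : ℤ) by push_cast; omega) with hk' | hk'
        · have hlt : (N : ℤ) * k < -((N : ℤ) * ((M + 1 : ℕ) : ℤ)) := by
            have := mul_lt_mul_of_pos_left hk' hN
            linarith
          rw [hgc, hc _ hlt, lemmaJ_coeff_jA_pow_of_lt N (M + 1) hlt]
          ring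
        · have he : (N : ℤ) * k = -((N : ℤ) * ((M + 1 : ℕ) : ℤ)) := by
            rw [hk']; ring
          rw [hgc, he, lemmaJ_coeff_jA_pow_self N (M + 1), ← ha]
          ring
      · exact lemmaJ_coeff_eq_zero_of_not_dvd N _ (hginv _) n hd
    obtain ⟨p, hp⟩ := ih _ hginv hgvanish
    refine ⟨p + Polynomial.C a * Polynomial.X ^ (M + 1), ?_⟩
    have e1 : Polynomial.aeval (jA N) (p + Polynomial.C a * Polynomial.X ^ (M + 1)) =
        Polynomial.aeval (jA N) p +
          Polynomial.aeval (jA N) (Polynomial.C a * Polynomial.X ^ (M + 1)) :=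
      map_add (Polynomial.aeval (jA N)) _ _
    have e2 : Polynomial.aeval (jA N) (Polynomial.C a * Polynomial.X ^ (M + 1)) =
        Polynomial.aeval (jA N) (Polynomial.C a) *
          Polynomial.aeval (jA N) (Polynomial.X ^ (M + 1)) :=
      map_mul (Polynomial.aeval (jA N)) _ _
    have e3 : Polynomial.aeval (jA N) (Polynomial.X ^ (M + 1) : Polynomial Kbar) =
        jA N ^ (M + 1) := by
      have := map_pow (Polynomial.aeval (jA N)) (Polynomial.X : Polynomial Kbar) (M + 1)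
      rw [Polynomial.aeval_X] at this
      exact this
    rw [e1, e2, e3, hp, Polynomial.aeval_C]
    exact sub_add_cancel f (algebraMap Kbar (Atil N) a * jA N ^ (M + 1))

/-- **Lemma J**: an `SL(2, ℤ)`-invariant element of `Atil N` is a polynomial in `j` with
coefficients in `Q̄`. -/
theorem lemmaJ (N : ℕ) [NeZero N] (f : Atil N) (hf : ∀ γ : SL(2, ℤ), γ • f = f) :
    ∃ p : Polynomial Kbar, Polynomial.aeval (jA N) p = f := by
  have hN : (1 : ℤ) ≤ N := by exact_mod_cast Nat.pos_of_ne_zero (NeZero.ne N)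
  refine lemmaJ_aux N (-(uExp N f).order).toNat f hf (fun n hn => ?_)
  apply HahnSeries.coeff_eq_zero_of_lt_order
  have h1 : -(uExp N f).order ≤ ((-(uExp N f).order).toNat : ℤ) := Int.self_le_toNat _
  have h2 : (0 : ℤ) ≤ ((-(uExp N f).order).toNat : ℤ) := Int.natCast_nonneg _
  nlinarith

end Fermat.Agent.GTor.Clo
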