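import Fermat.Agent.GTor.Clo.Galois
import Fermat.Prelude.Def_ModularCurve_X0ModL

/-!
# S24 construction, layer 5 (WP CLO-Phi): the embedding `F_N → Frac (Atil N)`

`phi N : F_N →ₐ[Q̄] LN N` is characterised by `UL (phi x) = x (u ^ N)`, where
`UL : LN N → Q̄((u))` is the expansion at `∞`.

WP CLO-Phi (helper89): all statements proved, signatures as in the skeleton.
-/

set_option autoImplicit false

noncomputable section

namespace Fermat.Agent.GTor.Clo

open Fermat.Agent.S24

open ModularCurve UpperHalfPlane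
open scoped MatrixGroups Manifold

/-- `uExp` on `AT N`. -/
def uExpT (N : ℕ) [NeZero N] : AT N →ₐ[Kbar] LaurentSeries Kbar :=
  (uExp N).comp (toAT N).symm.toAlgHom

theorem uExpT_injective (N : ℕ) [NeZero N] : Function.Injective (uExpT N) :=
  (uExp_injective N).comp (toAT N).symm.injective

/-- The expansion at `∞` on the fraction field. -/
def UL (N : ℕ) [NeZero N] : LN N →ₐ[Kbar] LaurentSeries Kbar :=
  IsFractionRing.liftAlgHom (uExpT_injective N)

theorem UL_algebraMap (N : ℕ) [NeZero N] (f : AT N) :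
    UL N (algebraMap (AT N) (LN N) f) = uExpT N f := by
  rw [UL, IsFractionRing.liftAlgHom_apply]
  exact IsFractionRing.lift_algebraMap (uExpT_injective N) f

theorem UL_injective (N : ℕ) [NeZero N] : Function.Injective (UL N) :=
  (UL N).toRingHom.injective

/-- `x(q) ↦ x(u ^ N)` on `F_N`. -/
def qN (N : ℕ) [NeZero N] : FN N →ₐ[Kbar] LaurentSeries Kbar :=
  (qExpandAlgHomC Kbar N).comp (modularFunctionFieldBar N).val

theorem qN_apply (N : ℕ) [NeZero N] (x : FN N) : qN N x = qExpand Kbar N (x : LaurentSeries Kbar) :=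
  rfl

/-- `j (q ^ d)` as an element of `F_N`. -/
def jdF (N : ℕ) [NeZero N] (d : ℕ) [NeZero d] (hd : d ∣ N) : FN N :=
  ⟨coeffEmb Kbar (qExpand ℚ d jq), coeffEmb_mem_laurentBaseChange Kbar (jqd_mem_full N hd)⟩

/-- `F_N` is generated over `Q̄` by the `j (q ^ d)`, `d ∣ N`. -/
theorem adjoin_jdF (N : ℕ) [NeZero N] :
    IntermediateField.adjoin Kbar
      {x : FN N | ∃ (d : ℕ) (_ : NeZero d) (hd : d ∣ N), x = jdF N d hd} = ⊤ := by
  apply IntermediateField.lift_injective
  rw [IntermediateField.lift_adjoin, IntermediateField.lift_top]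
  apply le_antisymm
  · rw [IntermediateField.adjoin_le_iff]
    rintro _ ⟨x, ⟨d, hd0, hd, rfl⟩, rfl⟩
    exact (jdF N d hd).2
  · show laurentBaseChange Kbar (modularFunctionFieldFull N) ≤ _
    rw [laurentBaseChange, IntermediateField.adjoin_le_iff]
    rintro _ ⟨y, hy, rfl⟩
    -- the preimage of the right-hand side under `coeffEmb` is a subfield containing the generators
    have hy' : y ∈ Subfield.closure
        (Set.range (algebraMap ℚ (LaurentSeries ℚ)) ∪ divisorExpansions N) := hy
    clear hy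
    induction hy' using Subfield.closure_induction with
    | mem z hz =>
      rcases hz with ⟨a, rfl⟩ | ⟨d, hd0, hd, rfl⟩
      · have : coeffEmb Kbar (algebraMap ℚ (LaurentSeries ℚ) a)
            = algebraMap Kbar (LaurentSeries Kbar) (algebraMap ℚ Kbar a) := by
          rw [coeffEmb, algebraMap_laurentSeries_eq_single, algebraMap_laurentSeries_eq_single,
            coeffMap_single]
        rw [this]
        exact IntermediateField.algebraMap_mem _ _
      · refine IntermediateField.subset_adjoin Kbar _ ⟨jdF N d hd, ⟨d, hd0, hd, rfl⟩, rfl⟩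
    | one => rw [map_one]; exact one_mem _
    | add x y _ _ hx hy => rw [map_add]; exact add_mem hx hy
    | neg x _ hx => rw [map_neg]; exact neg_mem hx
    | inv x _ hx => rw [map_inv₀]; exact inv_mem hx
    | mul x y _ _ hx hy => rw [map_mul]; exact mul_mem hx hy

theorem qN_jdF (N : ℕ) [NeZero N] (d : ℕ) [NeZero d] (hd : d ∣ N) :
    qN N (jdF N d hd) = UL N (algebraMap (AT N) (LN N) (toAT N (jdA N d))) := by
  rw [UL_algebraMap, qN_apply]
  show qExpand Kbar N (coeffEmb Kbar (qExpand ℚ d jq)) = uExp N ((toAT N).symm (toAT N (jdA N d)))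
  rw [AlgEquiv.symm_apply_apply, uExp_jdA N d hd]

/-- The expansion of every element of `F_N` is the expansion of an element of `LN N`. -/
theorem qN_mem_range (N : ℕ) [NeZero N] (x : FN N) : qN N x ∈ (UL N).range := by
  -- the elements with this property form an intermediate field containing the generators
  have hmul : ∀ a b : FN N, qN N (a * b) = qN N a * qN N b :=
    fun a b => (qN N).toRingHom.map_mul a b
  have hadd : ∀ a b : FN N, qN N (a + b) = qN N a + qN N b :=
    fun a b => (qN N).toRingHom.map_add a b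
  have hone : qN N 1 = 1 := (qN N).toRingHom.map_one
  have hzero : qN N 0 = 0 := (qN N).toRingHom.map_zero
  have hinv : ∀ a : FN N, qN N a⁻¹ = (qN N a)⁻¹ := fun a => map_inv₀ (qN N).toRingHom a
  have hinvU : ∀ y : LN N, UL N y⁻¹ = (UL N y)⁻¹ := fun y => map_inv₀ (UL N).toRingHom y
  let M : IntermediateField Kbar (FN N) :=
    { carrier := {x | qN N x ∈ (UL N).range}
      mul_mem' := fun {a b} ha hb => by
        show qN N (a * b) ∈ (UL N).range
        rw [hmul]; exact mul_mem ha hb
      one_mem' := by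
        show qN N 1 ∈ (UL N).range
        rw [hone]; exact one_mem _
      add_mem' := fun {a b} ha hb => by
        show qN N (a + b) ∈ (UL N).range
        rw [hadd]; exact add_mem ha hb
      zero_mem' := by
        show qN N 0 ∈ (UL N).range
        rw [hzero]; exact zero_mem _
      algebraMap_mem' := fun c => by
        show qN N (algebraMap Kbar (FN N) c) ∈ (UL N).range
        rw [(qN N).commutes c]; exact Subalgebra.algebraMap_mem _ c
      inv_mem' := fun a ha => by
        show qN N a⁻¹ ∈ (UL N).range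
        obtain ⟨y, hy⟩ := ha
        refine ⟨y⁻¹, ?_⟩
        have hy' : UL N y = qN N a := hy
        show UL N y⁻¹ = qN N a⁻¹
        rw [hinvU, hinv, hy'] }
  have hM : M = ⊤ := by
    rw [eq_top_iff, ← adjoin_jdF N, IntermediateField.adjoin_le_iff]
    rintro _ ⟨d, hd0, hd, rfl⟩
    exact ⟨_, (qN_jdF N d hd).symm⟩
  have : x ∈ M := by rw [hM]; exact IntermediateField.mem_top
  exact this

/-- The embedding of `F_N` into the Galois closure. -/
def phi (N : ℕ) [NeZero N] : FN N →ₐ[Kbar] LN N :=
  ((AlgEquiv.ofInjective (UL N) (UL_injective N)).symm : (UL N).range →ₐ[Kbar] LN N).comp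
    ((qN N).codRestrict (UL N).range (qN_mem_range N))

theorem UL_phi (N : ℕ) [NeZero N] (x : FN N) : UL N (phi N x) = qN N x := by
  have h := (AlgEquiv.ofInjective (UL N) (UL_injective N)).apply_symm_apply
    ((qN N).codRestrict (UL N).range (qN_mem_range N) x)
  have h2 := congrArg Subtype.val h
  exact h2

theorem phi_jdF (N : ℕ) [NeZero N] (d : ℕ) [NeZero d] (hd : d ∣ N) :
    phi N (jdF N d hd) = algebraMap (AT N) (LN N) (toAT N (jdA N d)) := by
  apply UL_injective N
  rw [UL_phi, qN_jdF]

theorem jF_eq_jdF (N : ℕ) [NeZero N] : jF N = jdF N 1 (one_dvd N) := by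
  apply Subtype.ext
  show jBar = coeffEmb Kbar (qExpand ℚ 1 jq)
  rw [qExpand_one_apply]
  rfl

theorem phi_jF (N : ℕ) [NeZero N] : phi N (jF N) = algebraMap (AT N) (LN N) (jT N) := by
  rw [jF_eq_jdF, phi_jdF, jdA_one]
  rfl

/-! ## The algebra structures -/

theorem jF_transcendental (N : ℕ) [NeZero N] : Transcendental Kbar (jF N) := by
  intro halg
  have h1 : IsAlgebraic Kbar (phi N (jF N)) := halg.algHom (phi N)
  rw [phi_jF] at h1
  obtain ⟨p, hp0, hp⟩ := h1
  apply jT_transcendental N
  refine ⟨p, hp0, ?_⟩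
  apply IsFractionRing.injective (AT N) (LN N)
  rw [map_zero, ← hp, Polynomial.aeval_algebraMap_apply]

/-- `Q̄[X] → F_N`, `X ↦ j`. -/
instance algPolyFN (N : ℕ) [NeZero N] : Algebra (Polynomial Kbar) (FN N) :=
  (Polynomial.aeval (jF N)).toRingHom.toAlgebra

theorem algebraMap_poly_FN (N : ℕ) [NeZero N] (p : Polynomial Kbar) :
    algebraMap (Polynomial Kbar) (FN N) p = Polynomial.aeval (jF N) p := rfl

instance faithfulSMul_poly_FN (N : ℕ) [NeZero N] : FaithfulSMul (Polynomial Kbar) (FN N) := by
  rw [faithfulSMul_iff_algebraMap_injective]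
  exact transcendental_iff_injective.mp (jF_transcendental N)

instance isScalarTower_Kbar_poly_FN (N : ℕ) [NeZero N] :
    IsScalarTower Kbar (Polynomial Kbar) (FN N) :=
  IsScalarTower.of_algebraMap_eq fun c => by
    rw [algebraMap_poly_FN, Polynomial.algebraMap_apply, Polynomial.aeval_C]
    rfl

instance algEF (N : ℕ) [NeZero N] : Algebra EN (FN N) := FractionRing.liftAlgebra _ _

instance (N : ℕ) [NeZero N] : IsScalarTower (Polynomial Kbar) EN (FN N) :=
  FractionRing.isScalarTower_liftAlgebra _ _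

instance algFL (N : ℕ) [NeZero N] : Algebra (FN N) (LN N) := (phi N).toRingHom.toAlgebra

theorem algebraMap_FN_LN (N : ℕ) [NeZero N] (x : FN N) : algebraMap (FN N) (LN N) x = phi N x :=
  rfl

instance towerKEF (N : ℕ) [NeZero N] : IsScalarTower Kbar EN (FN N) :=
  IsScalarTower.of_algebraMap_eq fun c => by
    rw [IsScalarTower.algebraMap_apply Kbar (Polynomial Kbar) EN,
      ← IsScalarTower.algebraMap_apply (Polynomial Kbar) EN (FN N),
      ← IsScalarTower.algebraMap_apply Kbar (Polynomial Kbar) (FN N)]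

instance towerKFL (N : ℕ) [NeZero N] : IsScalarTower Kbar (FN N) (LN N) :=
  IsScalarTower.of_algebraMap_eq fun c => ((phi N).commutes c).symm

theorem phi_aeval_jF (N : ℕ) [NeZero N] (p : Polynomial Kbar) :
    phi N (Polynomial.aeval (jF N) p) = algebraMap (AT N) (LN N) (Polynomial.aeval (jT N) p) := by
  rw [← Polynomial.aeval_algHom_apply, phi_jF, Polynomial.aeval_algebraMap_apply]

instance towerEFL (N : ℕ) [NeZero N] : IsScalarTower EN (FN N) (LN N) :=
  IsScalarTower.of_algebraMap_eq' <| by
    apply IsLocalization.ringHom_ext (nonZeroDivisors (Polynomial Kbar))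
    ext p
    · show algebraMap EN (LN N) (algebraMap (Polynomial Kbar) EN (Polynomial.C p))
        = algebraMap (FN N) (LN N) (algebraMap EN (FN N)
          (algebraMap (Polynomial Kbar) EN (Polynomial.C p)))
      rw [← IsScalarTower.algebraMap_apply (Polynomial Kbar) EN (LN N),
        ← IsScalarTower.algebraMap_apply (Polynomial Kbar) EN (FN N),
        IsScalarTower.algebraMap_apply (Polynomial Kbar) (AT N) (LN N),
        algebraMap_FN_LN, algebraMap_poly_FN, algebraMap_poly_AT, phi_aeval_jF]
    · show algebraMap EN (LN N) (algebraMap (Polynomial Kbar) EN Polynomial.X)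
        = algebraMap (FN N) (LN N) (algebraMap EN (FN N)
          (algebraMap (Polynomial Kbar) EN Polynomial.X))
      rw [← IsScalarTower.algebraMap_apply (Polynomial Kbar) EN (LN N),
        ← IsScalarTower.algebraMap_apply (Polynomial Kbar) EN (FN N),
        IsScalarTower.algebraMap_apply (Polynomial Kbar) (AT N) (LN N),
        algebraMap_FN_LN, algebraMap_poly_FN, algebraMap_poly_AT, phi_aeval_jF]

instance towerKEL (N : ℕ) [NeZero N] : IsScalarTower Kbar EN (LN N) :=
  IsScalarTower.of_algebraMap_eq fun c => by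
    rw [IsScalarTower.algebraMap_apply Kbar (FN N) (LN N),
      IsScalarTower.algebraMap_apply Kbar EN (FN N),
      ← IsScalarTower.algebraMap_apply EN (FN N) (LN N)]

/-- The generator `j` of `Q̄(j)`. -/
def tE : EN := algebraMap (Polynomial Kbar) EN Polynomial.X

theorem tE_map_FN (N : ℕ) [NeZero N] : algebraMap EN (FN N) tE = jF N := by
  rw [tE, ← IsScalarTower.algebraMap_apply (Polynomial Kbar) EN (FN N), algebraMap_poly_FN,
    Polynomial.aeval_X]

theorem tE_map_LN (N : ℕ) [NeZero N] :
    algebraMap EN (LN N) tE = algebraMap (AT N) (LN N) (jT N) := by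
  rw [tE, ← IsScalarTower.algebraMap_apply (Polynomial Kbar) EN (LN N),
    IsScalarTower.algebraMap_apply (Polynomial Kbar) (AT N) (LN N), algebraMap_poly_AT,
    Polynomial.aeval_X]

theorem aeval_tE (p : Polynomial Kbar) :
    Polynomial.aeval tE p = algebraMap (Polynomial Kbar) EN p := by
  rw [tE, Polynomial.aeval_algebraMap_apply, Polynomial.aeval_X_left_apply]

theorem tE_gen (y : EN) : ∃ p q : Polynomial Kbar, Polynomial.aeval tE q ≠ 0 ∧
    y = Polynomial.aeval tE p / Polynomial.aeval tE q := by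
  obtain ⟨p, q, hq, rfl⟩ := IsFractionRing.div_surjective (A := Polynomial Kbar) y
  refine ⟨p, q, ?_, ?_⟩
  · rw [aeval_tE]
    exact IsFractionRing.to_map_ne_zero_of_mem_nonZeroDivisors hq
  · rw [aeval_tE, aeval_tE]

/-! ## The subgroup fixing `F_N` -/

/-- If `γ` fixes `j (N τ)` then `γ ∈ Γ₀(N)`: compare pole orders at `∞`
(`uExp_JA_order`, Hermite form of `diag(N, 1) γ⁻¹`, e.g. `Fermat.Agent.S20.H70.hermite_int`). -/
theorem mem_Gamma0_of_smul_jdA (N : ℕ) [NeZero N] (γ : SL(2, ℤ))
    (h : γ • jdA N N = jdA N N) : γ ∈ CongruenceSubgroup.Gamma0 N := by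
  have hNpos : 0 < N := NeZero.pos N
  set D : Matrix (Fin 2) (Fin 2) ℤ := !![(N : ℤ), 0; 0, 1] with hD
  have hDdet : D.det = N := by simp [hD, Matrix.det_fin_two]
  have hDpos : 0 < D.det := by rw [hDdet]; exact_mod_cast hNpos
  have hDN : D.det ∣ (N : ℤ) := by rw [hDdet]
  -- the hypothesis in terms of `JA`
  have h1 : γ • JA D = JA D := by
    have := congrArg (fun f : Atil N => (f : Hol)) h
    simpa only [coe_smul_Atil, jdA_coe N N hNpos dvd_rfl] using this
  set A : Matrix (Fin 2) (Fin 2) ℤ := D * (γ⁻¹ : SL(2, ℤ)).1 with hA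
  have hAdet : A.det = N := by rw [hA, Matrix.det_mul, (γ⁻¹ : SL(2, ℤ)).2, mul_one, hDdet]
  have hApos : 0 < A.det := by rw [hAdet]; exact_mod_cast hNpos
  have hAN : A.det ∣ (N : ℤ) := by rw [hAdet]
  have h2 : JA A = JA D := by rw [← h1, smul_JA γ D hDpos]
  obtain ⟨δ, a, d, b, ha, hd, had, hAδ⟩ := hermite_general A hApos
  have ho1 := uExp_JA_order N A hApos hAN δ a d b ha hd hAδ
  have hD1 : D = (1 : SL(2, ℤ)).1 * !![((N : ℕ) : ℤ), (0 : ℤ); 0, ((1 : ℕ) : ℤ)] := by
    rw [Matrix.SpecialLinearGroup.coe_one, one_mul, hD, Nat.cast_one]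
  have ho2 := uExp_JA_order N D hDpos hDN 1 N 1 0 hNpos one_pos hD1
  have heq : (⟨JA A, JA_mem_Atil N A hApos hAN⟩ : Atil N) = ⟨JA D, JA_mem_Atil N D hDpos hDN⟩ :=
    Subtype.ext h2
  rw [heq, ho2] at ho1
  have h3 : N / 1 * N = N / d * a := by
    have := neg_injective ho1
    exact_mod_cast this
  rw [Nat.div_one] at h3
  have had' : a * d = N := by
    have : ((a * d : ℕ) : ℤ) = (N : ℤ) := by rw [← hAdet, ← had]; push_cast; ring
    exact_mod_cast this
  have hdiv : N / d = a := by
    rw [← had']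
    exact Nat.mul_div_cancel a hd
  rw [hdiv] at h3
  have haN : a = N := by
    rcases Nat.lt_trichotomy a N with hlt | heq | hgt
    · exfalso
      have : a * a < N * N := Nat.mul_lt_mul'' hlt hlt
      omega
    · exact heq
    · exfalso
      have : N * N < a * a := Nat.mul_lt_mul'' hgt hgt
      omega
  -- read off the lower left entry
  have h10 : A 1 0 = (γ⁻¹ : SL(2, ℤ)).1 1 0 := by
    rw [hA, hD]
    simp [Matrix.mul_apply, Fin.sum_univ_two]
  have h10' : A 1 0 = δ.1 1 0 * N := by
    rw [hAδ, haN]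
    simp [Matrix.mul_apply, Fin.sum_univ_two]
  have hmem : γ⁻¹ ∈ CongruenceSubgroup.Gamma0 N := by
    rw [CongruenceSubgroup.Gamma0_mem]
    rw [(ZMod.intCast_zmod_eq_zero_iff_dvd _ N)]
    rw [← h10, h10']
    exact Dvd.intro_left _ rfl
  have := inv_mem hmem
  rwa [inv_inv] at this

theorem piN_phi_jdF (N : ℕ) [NeZero N] (γ : SL(2, ℤ)) (d : ℕ) [NeZero d] (hd : d ∣ N) :
    piN N γ (phi N (jdF N d hd)) = algebraMap (AT N) (LN N) (toAT N (γ • jdA N d)) := by
  rw [phi_jdF, piN_algebraMap]
  rfl

theorem piN_phi_of_mem_Gamma0 (N : ℕ) [NeZero N] (γ : SL(2, ℤ))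
    (hγ : γ ∈ CongruenceSubgroup.Gamma0 N) (y : FN N) : piN N γ (phi N y) = phi N y := by
  have hmul : ∀ a b : FN N, phi N (a * b) = phi N a * phi N b :=
    fun a b => (phi N).toRingHom.map_mul a b
  have hadd : ∀ a b : FN N, phi N (a + b) = phi N a + phi N b :=
    fun a b => (phi N).toRingHom.map_add a b
  have hone : phi N 1 = 1 := (phi N).toRingHom.map_one
  have hzero : phi N 0 = 0 := (phi N).toRingHom.map_zero
  have hinv : ∀ a : FN N, phi N a⁻¹ = (phi N a)⁻¹ := fun a => map_inv₀ (phi N).toRingHom a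
  let M : IntermediateField Kbar (FN N) :=
    { carrier := {y | piN N γ (phi N y) = phi N y}
      mul_mem' := fun {a b} ha hb => by
        show piN N γ (phi N (a * b)) = phi N (a * b)
        have ha' : piN N γ (phi N a) = phi N a := ha
        have hb' : piN N γ (phi N b) = phi N b := hb
        rw [hmul, map_mul, ha', hb']
      one_mem' := by
        show piN N γ (phi N 1) = phi N 1
        rw [hone, map_one]
      add_mem' := fun {a b} ha hb => by
        show piN N γ (phi N (a + b)) = phi N (a + b)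
        have ha' : piN N γ (phi N a) = phi N a := ha
        have hb' : piN N γ (phi N b) = phi N b := hb
        rw [hadd, map_add, ha', hb']
      zero_mem' := by
        show piN N γ (phi N 0) = phi N 0
        rw [hzero, map_zero]
      algebraMap_mem' := fun c => by
        show piN N γ (phi N (algebraMap Kbar (FN N) c)) = phi N (algebraMap Kbar (FN N) c)
        rw [(phi N).commutes c, IsScalarTower.algebraMap_apply Kbar EN (LN N)]
        exact (piN N γ).commutes _
      inv_mem' := fun a ha => by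
        show piN N γ (phi N a⁻¹) = phi N a⁻¹
        have ha' : piN N γ (phi N a) = phi N a := ha
        rw [hinv, map_inv₀, ha'] }
  have hM : M = ⊤ := by
    rw [eq_top_iff, ← adjoin_jdF N, IntermediateField.adjoin_le_iff]
    rintro _ ⟨d, hd0, hd, rfl⟩
    show piN N γ (phi N (jdF N d hd)) = phi N (jdF N d hd)
    rw [piN_phi_jdF, smul_jdA_of_mem_Gamma0 N d (Nat.pos_of_ne_zero (NeZero.ne d)) hd γ hγ,
      phi_jdF]
  have : y ∈ M := by rw [hM]; exact IntermediateField.mem_top
  exact this

/-- The preimage of `Gal (LN N / F_N)` in `SL(2, ℤ)` is `Γ₀(N)`. -/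
theorem piN_comap (N : ℕ) [NeZero N] :
    (IntermediateField.fixingSubgroup
      (IsScalarTower.toAlgHom EN (FN N) (LN N)).fieldRange).comap (piN N)
      = CongruenceSubgroup.Gamma0 N := by
  ext γ
  rw [Subgroup.mem_comap, IntermediateField.mem_fixingSubgroup_iff]
  constructor
  · intro h
    apply mem_Gamma0_of_smul_jdA
    have h1 := h (phi N (jdF N N dvd_rfl)) ⟨jdF N N dvd_rfl, rfl⟩
    rw [piN_phi_jdF, phi_jdF] at h1
    have h2 := IsFractionRing.injective (AT N) (LN N) h1
    exact (toAT N).injective h2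
  · rintro hγ _ ⟨y, rfl⟩
    exact piN_phi_of_mem_Gamma0 N γ hγ y

end Fermat.Agent.GTor.Clo
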