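import Fermat.Agent.GTor.Clo.Atil
import Fermat.Agent.S24.Closure.UExpSubst
import Fermat.Agent.S24.H89_JAnQ

/-!
# S24 construction, layer 2 (WP CLO-UExpJA): the expansion homomorphism `uExp` on `Atil N`

`uExp N : Atil N →ₐ[Q̄] Q̄((u))`, `u = exp (2 π i τ / N)`: every element of `Atil N` has an
expansion at `∞` with coefficients in `Q̄` (through `ι = iotaC`).

All proofs of this file are complete (helper1); they use the statements of
`Closure/UExp.lean`, `Closure/UExpSubst.lean`, `Closure/JA.lean`, `Closure/Atil.lean`.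
-/

set_option autoImplicit false

noncomputable section

namespace Fermat.Agent.GTor.Clo

open Fermat.Agent.S24

open ModularCurve UpperHalfPlane
open scoped MatrixGroups Manifold

/-! ## Roots of unity in `Q̄` -/

/-- `exp (2 π i / N)` lies in `ι(Q̄)`. -/
theorem exists_zetaK (N : ℕ) [NeZero N] :
    ∃ z : Kbar, iotaC z = Complex.exp (2 * Real.pi * Complex.I / N) := by
  obtain ⟨ζ, hζ⟩ := HasEnoughRootsOfUnity.exists_primitiveRoot Kbar N
  have hζ' : IsPrimitiveRoot (iotaC ζ) N := hζ.map_of_injective iotaC.injective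
  have hexp : IsPrimitiveRoot (Complex.exp (2 * Real.pi * Complex.I / N)) N :=
    Complex.isPrimitiveRoot_exp N (NeZero.ne N)
  obtain ⟨i, -, hi⟩ := hζ'.eq_pow_of_pow_eq_one hexp.pow_eq_one
  exact ⟨ζ ^ i, by rw [map_pow, hi]⟩

/-- The element of `Q̄` with `ι z = exp (2 π i / N)`. -/
def zetaK (N : ℕ) [NeZero N] : Kbar := (exists_zetaK N).choose

theorem iotaC_zetaK (N : ℕ) [NeZero N] :
    iotaC (zetaK N) = Complex.exp (2 * Real.pi * Complex.I / N) := (exists_zetaK N).choose_spec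

theorem zetaK_ne_zero (N : ℕ) [NeZero N] : zetaK N ≠ 0 := by
  intro h
  have := iotaC_zetaK N
  rw [h, map_zero] at this
  exact Complex.exp_ne_zero _ this.symm

theorem isPrimitiveRoot_zetaK (N : ℕ) [NeZero N] : IsPrimitiveRoot (zetaK N) N := by
  have hexp : IsPrimitiveRoot (Complex.exp (2 * Real.pi * Complex.I / N)) N :=
    Complex.isPrimitiveRoot_exp N (NeZero.ne N)
  rw [← iotaC_zetaK] at hexp
  exact hexp.of_map_of_injective iotaC.injective

theorem zetaK_zpow_eq_one_iff (N : ℕ) [NeZero N] (n : ℤ) :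
    zetaK N ^ n = 1 ↔ (N : ℤ) ∣ n :=
  (isPrimitiveRoot_zetaK N).zpow_eq_one_iff_dvd n

/-! ## Hermite normal form -/

/-- Every integer matrix of positive determinant is `δ * [a, b; 0, d]` with `δ ∈ SL(2, ℤ)`,
`a, d > 0`. -/
theorem hermite_general (A : Matrix (Fin 2) (Fin 2) ℤ) (hA : 0 < A.det) :
    ∃ (δ : SL(2, ℤ)) (a d : ℕ) (b : ℤ), 0 < a ∧ 0 < d ∧ (a : ℤ) * d = A.det ∧
      A = δ.1 * !![(a : ℤ), b; 0, (d : ℤ)] := by
  have hdet : A.det = A 0 0 * A 1 1 - A 0 1 * A 1 0 := Matrix.det_fin_two A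
  have hg0 : Int.gcd (A 0 0) (A 1 0) ≠ 0 := by
    intro h
    rw [Int.gcd_eq_zero_iff] at h
    rw [hdet, h.1, h.2] at hA
    simp at hA
  obtain ⟨x', hx'⟩ := Int.gcd_dvd_left (A 0 0) (A 1 0)
  obtain ⟨y', hy'⟩ := Int.gcd_dvd_right (A 0 0) (A 1 0)
  have hbez := Int.gcd_eq_gcd_ab (A 0 0) (A 1 0)
  have hgpos : (0 : ℤ) < (Int.gcd (A 0 0) (A 1 0) : ℤ) := by
    exact_mod_cast Nat.pos_of_ne_zero hg0
  generalize hu : Int.gcdA (A 0 0) (A 1 0) = u at hbez
  generalize hv : Int.gcdB (A 0 0) (A 1 0) = v at hbez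
  generalize hg : (Int.gcd (A 0 0) (A 1 0) : ℤ) = g at hx' hy' hbez hgpos
  have h1 : x' * u + y' * v = 1 := by
    have h2 : g * (x' * u + y' * v) = g * 1 := by
      have h3 : g = g * x' * u + g * y' * v := by
        rw [← hx', ← hy']
        exact hbez
      linear_combination -h3
    exact mul_left_cancel₀ hgpos.ne' h2
  have hgd : g * (x' * A 1 1 - y' * A 0 1) = A.det := by
    rw [hdet, hx', hy']
    ring
  have hdpos : 0 < x' * A 1 1 - y' * A 0 1 := by
    have h3 : 0 < g * (x' * A 1 1 - y' * A 0 1) := by rw [hgd]; exact hA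
    exact (mul_pos_iff_of_pos_left hgpos).mp h3
  refine ⟨⟨!![x', -v; y', u], ?_⟩, Int.gcd (A 0 0) (A 1 0), (x' * A 1 1 - y' * A 0 1).toNat,
    u * A 0 1 + v * A 1 1, Nat.pos_of_ne_zero hg0, ?_, ?_, ?_⟩
  · rw [Matrix.det_fin_two_of]
    linear_combination h1
  · exact Int.pos_iff_toNat_pos.mp hdpos
  · rw [hg, Int.toNat_of_nonneg hdpos.le, hgd]
  · rw [hg, Int.toNat_of_nonneg hdpos.le]
    ext i j
    fin_cases i <;> fin_cases j
    · simp [Matrix.mul_apply, Fin.sum_univ_two]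
      rw [hx']; ring
    · simp [Matrix.mul_apply, Fin.sum_univ_two]
      linear_combination (-(A 0 1)) * h1
    · simp [Matrix.mul_apply, Fin.sum_univ_two]
      rw [hy']; ring
    · simp [Matrix.mul_apply, Fin.sum_univ_two]
      linear_combination (-(A 1 1)) * h1

/-! ## Expansions of the generators -/

theorem coeffMap_ofPowerSeries {R S : Type*} [CommRing R] [CommRing S] (φ : R →+* S)
    (f : PowerSeries R) :
    coeffMap φ (HahnSeries.ofPowerSeries ℤ R f) = HahnSeries.ofPowerSeries ℤ S (f.map φ) := by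
  ext k
  rw [coeffMap_coeff]
  rcases lt_or_ge k 0 with hk | hk
  · rw [ofPowerSeries_coeff_of_neg _ hk, ofPowerSeries_coeff_of_neg _ hk, map_zero]
  · obtain ⟨n, rfl⟩ := Int.eq_ofNat_of_zero_le hk
    rw [HahnSeries.ofPowerSeries_apply_coeff, HahnSeries.ofPowerSeries_apply_coeff,
      PowerSeries.coeff_map]

theorem coeffMap_iotaC_jBar :
    coeffMap iotaC jBar = HahnSeries.single (-1 : ℤ) (1 : ℂ) *
      HahnSeries.ofPowerSeries ℤ ℂ
        (PowerSeries.mk fun n : ℕ => ((PowerSeries.coeff n ModularCurve.jNum : ℤ) : ℂ)) := by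
  rw [jBar, coeffEmb, jq, map_mul, map_mul, coeffMap_single, coeffMap_single, map_one, map_one,
    coeffMap_ofPowerSeries, coeffMap_ofPowerSeries]
  congr 2
  ext n
  simp [jNumQ, PowerSeries.coeff_map]

/-- The `q`-expansion of `j` is the formal `j`. -/
theorem hasUExp_jAn : HasUExp 1 jAn (coeffMap iotaC jBar) := by
  rw [coeffMap_iotaC_jBar]
  exact HasUExp.of_hasSum_mul_q (fun τ => jAn_hasSum τ)

theorem iotaC_zetaK_zpow (d : ℕ) [NeZero d] (b n : ℤ) :
    iotaC (zetaK d ^ (b * n)) = Complex.exp (2 * Real.pi * Complex.I * b / d) ^ n := by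
  rw [map_zpow₀, iotaC_zetaK, zpow_mul, ← Complex.exp_int_mul]
  congr 2
  ring

/-- The expansion of `j ((a τ + b) / d)` in `u = exp (2 π i τ / N)`. -/
theorem hasUExp_JA_upper (N : ℕ) [NeZero N] (a d : ℕ) (b : ℤ) (ha : 0 < a) (hd : 0 < d)
    (hdN : d ∣ N) :
    haveI : NeZero d := ⟨hd.ne'⟩
    ∃ c : LaurentSeries Kbar,
      HasUExp N (JA !![(a : ℤ), b; 0, (d : ℤ)] : ℍ → ℂ) (coeffMap iotaC c) ∧
      (∀ n : ℤ, c.coeff (((N / d * a : ℕ) : ℤ) * n) = zetaK d ^ (b * n) * jBar.coeff n) ∧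
      (∀ m : ℤ, ¬ (((N / d * a : ℕ) : ℤ) ∣ m) → c.coeff m = 0) := by
  have : NeZero d := ⟨hd.ne'⟩
  have hNd : 0 < N / d := Nat.div_pos (Nat.le_of_dvd (Nat.pos_of_ne_zero (NeZero.ne N)) hdN) hd
  have : NeZero (N / d * a) := ⟨(Nat.mul_pos hNd ha).ne'⟩
  have hdet : 0 < (!![(a : ℤ), b; 0, (d : ℤ)]).det := by
    rw [Matrix.det_fin_two_of]
    simp only [mul_zero, sub_zero]
    positivity
  obtain ⟨c', hc', hc1, hc2⟩ := HasUExp.comp_affine (N := N) hasUExp_jAn a d b ha hd hdN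
    (JA !![(a : ℤ), b; 0, (d : ℤ)] : ℍ → ℂ) (by
      intro τ τ' hτ'
      rw [JA_apply _ hdet]
      congr 1
      apply UpperHalfPlane.ext
      rw [coe_intGL_smul, hτ']
      simp)
  refine ⟨qExpand Kbar (N / d * a) (twist (zetaK d ^ b) jBar), ?_, ?_, ?_⟩
  · have e : coeffMap iotaC (qExpand Kbar (N / d * a) (twist (zetaK d ^ b) jBar)) = c' := by
      ext m
      rw [coeffMap_coeff]
      by_cases hm : ((N / d * a : ℕ) : ℤ) ∣ m
      · obtain ⟨n, rfl⟩ := hm
        rw [qExpand_coeff_mul, hc1, twist_coeff, coeffMap_coeff, map_mul, ← zpow_mul,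
          iotaC_zetaK_zpow]
      · rw [qExpand_coeff_of_not_dvd _ _ hm, hc2 m hm, map_zero]
    rw [e]
    exact hc'
  · intro n
    rw [qExpand_coeff_mul, twist_coeff, ← zpow_mul]
  · intro m hm
    exact qExpand_coeff_of_not_dvd _ _ hm

theorem coeffMap_iotaC_injective : Function.Injective (coeffMap iotaC) := by
  intro x y h
  ext n
  have := congrArg (fun z : LaurentSeries ℂ => z.coeff n) h
  simp only [coeffMap_coeff] at this
  exact iotaC.injective this

theorem coeffMap_iotaC_C (r : Kbar) :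
    coeffMap iotaC (HahnSeries.C r) = HahnSeries.C (iotaC r) := by
  rw [HahnSeries.C_apply, HahnSeries.C_apply, coeffMap_single]

theorem dvd_of_hermite (N : ℕ) (A : Matrix (Fin 2) (Fin 2) ℤ) (hN : A.det ∣ (N : ℤ))
    (a d : ℕ) (had : (a : ℤ) * d = A.det) : d ∣ N := by
  have h : ((d : ℕ) : ℤ) ∣ (N : ℤ) := Dvd.dvd.trans ⟨(a : ℤ), by rw [← had]; ring⟩ hN
  exact Int.natCast_dvd_natCast.mp h

theorem det_upper_pos (a d : ℕ) (b : ℤ) (ha : 0 < a) (hd : 0 < d) :
    0 < (!![(a : ℤ), b; 0, (d : ℤ)]).det := by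
  rw [Matrix.det_fin_two_of]
  simp only [mul_zero, sub_zero]
  positivity

/-- Every element of `Atil N` has an expansion with coefficients in `Q̄`. -/
theorem exists_hasUExp (N : ℕ) [NeZero N] (f : Atil N) :
    ∃ c : LaurentSeries Kbar, HasUExp N ((f : Hol) : ℍ → ℂ) (coeffMap iotaC c) := by
  obtain ⟨f, hf⟩ := f
  show ∃ c : LaurentSeries Kbar, HasUExp N (f : ℍ → ℂ) (coeffMap iotaC c)
  unfold Atil at hf
  induction hf using Algebra.adjoin_induction with
  | mem x hx =>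
    obtain ⟨A, hA, hN, rfl⟩ := hx
    obtain ⟨δ, a, d, b, ha, hd, had, hAδ⟩ := hermite_general A hA
    have hdN : d ∣ N := dvd_of_hermite N A hN a d had
    obtain ⟨c, hc, -, -⟩ := hasUExp_JA_upper N a d b ha hd hdN
    refine ⟨c, ?_⟩
    rw [hAδ, JA_mul_left δ _ (det_upper_pos a d b ha hd)]
    exact hc
  | algebraMap r =>
    refine ⟨HahnSeries.C r, ?_⟩
    rw [coeffMap_iotaC_C]
    exact (HasUExp.const N (iotaC r)).congr (fun τ => (algebraMap_Kbar_Hol_apply r τ).symm)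
  | add x y hx hy ihx ihy =>
    obtain ⟨c, hc⟩ := ihx
    obtain ⟨c', hc'⟩ := ihy
    refine ⟨c + c', ?_⟩
    rw [map_add]
    exact (hc.add hc').congr (fun τ => rfl)
  | mul x y hx hy ihx ihy =>
    obtain ⟨c, hc⟩ := ihx
    obtain ⟨c', hc'⟩ := ihy
    refine ⟨c * c', ?_⟩
    rw [map_mul]
    exact (hc.mul hc').congr (fun τ => rfl)

/-! ## The expansion homomorphism -/

/-- The expansion of `f ∈ Atil N` at `∞`, with coefficients in `Q̄`. -/
def uExpFun (N : ℕ) [NeZero N] (f : Atil N) : LaurentSeries Kbar := (exists_hasUExp N f).choose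

theorem uExpFun_spec (N : ℕ) [NeZero N] (f : Atil N) :
    HasUExp N ((f : Hol) : ℍ → ℂ) (coeffMap iotaC (uExpFun N f)) :=
  (exists_hasUExp N f).choose_spec

theorem uExpFun_eq (N : ℕ) [NeZero N] (f : Atil N) (c : LaurentSeries Kbar)
    (h : HasUExp N ((f : Hol) : ℍ → ℂ) (coeffMap iotaC c)) : uExpFun N f = c :=
  coeffMap_iotaC_injective ((uExpFun_spec N f).unique h)

/-- The expansion homomorphism. -/
def uExp (N : ℕ) [NeZero N] : Atil N →ₐ[Kbar] LaurentSeries Kbar where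
  toFun := uExpFun N
  map_one' := by
    apply uExpFun_eq
    rw [map_one]
    exact (HasUExp.one N).congr (fun τ => rfl)
  map_mul' f g := by
    apply uExpFun_eq
    rw [map_mul]
    exact ((uExpFun_spec N f).mul (uExpFun_spec N g)).congr (fun τ => rfl)
  map_zero' := by
    apply uExpFun_eq
    rw [map_zero]
    exact (HasUExp.zero N).congr (fun τ => rfl)
  map_add' f g := by
    apply uExpFun_eq
    rw [map_add]
    exact ((uExpFun_spec N f).add (uExpFun_spec N g)).congr (fun τ => rfl)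
  commutes' r := by
    apply uExpFun_eq
    rw [algebraMap_laurentSeries_eq_single, coeffMap_single, ← HahnSeries.C_apply]
    exact (HasUExp.const N (iotaC r)).congr (fun τ => rfl)

theorem uExp_spec (N : ℕ) [NeZero N] (f : Atil N) :
    HasUExp N ((f : Hol) : ℍ → ℂ) (coeffMap iotaC (uExp N f)) := uExpFun_spec N f

theorem uExp_eq (N : ℕ) [NeZero N] (f : Atil N) (c : LaurentSeries Kbar)
    (h : HasUExp N ((f : Hol) : ℍ → ℂ) (coeffMap iotaC c)) : uExp N f = c := uExpFun_eq N f c h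

theorem uExp_injective (N : ℕ) [NeZero N] : Function.Injective (uExp N) := by
  rw [injective_iff_map_eq_zero]
  intro f hf
  have h := uExp_spec N f
  rw [hf, map_zero] at h
  apply Subtype.ext
  apply Subtype.ext
  funext τ
  have h0 : HasSum (fun n : ℤ => (0 : LaurentSeries ℂ).coeff n * uPar N τ ^ n) 0 := by
    simp
  exact (h τ).unique h0

/-- If `f ∈ Atil N` is constant as a function, the constant lies in `ι(Q̄)`. -/
theorem eq_algebraMap_of_const (N : ℕ) [NeZero N] (f : Atil N) (a : ℂ)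
    (h : ∀ τ : ℍ, ((f : Hol) : ℍ → ℂ) τ = a) :
    f = algebraMap Kbar (Atil N) ((uExp N f).coeff 0) := by
  have h1 : HasUExp N ((f : Hol) : ℍ → ℂ) (HahnSeries.C a) :=
    (HasUExp.const N a).congr (fun τ => (h τ).symm)
  have h2 := (uExp_spec N f).unique h1
  have h3 : iotaC ((uExp N f).coeff 0) = a := by
    have := congrArg (fun z : LaurentSeries ℂ => z.coeff 0) h2
    simpa using this
  apply Subtype.ext
  apply Subtype.ext
  funext τ
  rw [h τ, ← h3]
  rfl

theorem coe_T_inv_smul_eq (τ : ℍ) :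
    (((ModularGroup.T⁻¹ : SL(2, ℤ)) • τ : ℍ) : ℂ) = (τ : ℂ) + ((-1 : ℤ) : ℂ) := by
  have h := ModularGroup.coe_T_zpow_smul_eq (z := τ) (n := -1)
  rwa [zpow_neg_one] at h

theorem iotaC_zetaK_inv (N : ℕ) [NeZero N] :
    iotaC (zetaK N)⁻¹ = Complex.exp (2 * Real.pi * Complex.I * ((-1 : ℤ) : ℂ) / N) := by
  rw [map_inv₀, iotaC_zetaK, ← Complex.exp_neg]
  congr 1
  push_cast
  ring

/-- `T` twists the expansion by `ζ_N⁻¹` (`(T • f) τ = f (τ - 1)`). -/
theorem uExp_T_smul (N : ℕ) [NeZero N] (f : Atil N) :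
    uExp N (ModularGroup.T • f) = twist (zetaK N)⁻¹ (uExp N f) := by
  apply uExp_eq
  rw [coeffMap_twist, iotaC_zetaK_inv]
  refine HasUExp.comp_translate (uExp_spec N f) (-1) _ ?_
  intro τ τ' hτ'
  show ((f : Hol) : ℍ → ℂ) (ModularGroup.T⁻¹ • τ) = ((f : Hol) : ℍ → ℂ) τ'
  have e : (ModularGroup.T⁻¹ : SL(2, ℤ)) • τ = τ' := by
    apply UpperHalfPlane.ext
    rw [coe_T_inv_smul_eq, hτ']
  rw [e]

/-- The expansion of `j (d τ)`. -/
theorem uExp_jdA (N : ℕ) [NeZero N] (d : ℕ) [NeZero d] (hd : d ∣ N) :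
    uExp N (jdA N d) = qExpand Kbar N (coeffEmb Kbar (qExpand ℚ d jq)) := by
  have hd0 : 0 < d := Nat.pos_of_ne_zero (NeZero.ne d)
  obtain ⟨c, hc, hc1, hc2⟩ := hasUExp_JA_upper N d 1 0 hd0 one_pos (one_dvd N)
  have e : uExp N (jdA N d) = c := by
    apply uExp_eq
    rw [jdA_coe N d hd0 hd]
    exact_mod_cast hc
  rw [e]
  ext m
  simp only [Nat.div_one, Nat.cast_mul, zero_mul, zpow_zero, one_mul] at hc1 hc2
  by_cases hm : ((N : ℤ) * (d : ℤ)) ∣ m
  · obtain ⟨n, rfl⟩ := hm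
    rw [hc1, mul_assoc, qExpand_coeff_mul, coeffEmb_coeff, qExpand_coeff_mul, jBar, coeffEmb_coeff]
  · rw [hc2 m hm]
    by_cases hmN : (N : ℤ) ∣ m
    · obtain ⟨k, rfl⟩ := hmN
      rw [qExpand_coeff_mul, coeffEmb_coeff]
      have hk : ¬ (d : ℤ) ∣ k := fun ⟨l, hl⟩ => hm ⟨l, by rw [hl]; ring⟩
      rw [qExpand_coeff_of_not_dvd _ _ hk, map_zero]
    · rw [qExpand_coeff_of_not_dvd _ _ hmN]

theorem uExp_jA (N : ℕ) [NeZero N] : uExp N (jA N) = qExpand Kbar N jBar := by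
  have h := uExp_jdA N 1 (one_dvd N)
  rw [jdA_one, qExpand_one_apply] at h
  exact h

/-- The pole order of `j ∘ A`, `A = δ * [a, b; 0, d]`, in `u` is `N a / d`. -/
theorem uExp_JA_order (N : ℕ) [NeZero N] (A : Matrix (Fin 2) (Fin 2) ℤ) (hA : 0 < A.det)
    (hN : A.det ∣ (N : ℤ)) (δ : SL(2, ℤ)) (a d : ℕ) (b : ℤ) (ha : 0 < a) (hd : 0 < d)
    (hAδ : A = δ.1 * !![(a : ℤ), b; 0, (d : ℤ)]) :
    (uExp N ⟨JA A, JA_mem_Atil N A hA hN⟩).order = -((N / d * a : ℕ) : ℤ) := by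
  have hdetU := det_upper_pos a d b ha hd
  have had : (a : ℤ) * d = A.det := by
    rw [hAδ, Matrix.det_mul, δ.2, one_mul, Matrix.det_fin_two_of]
    ring
  have hdN : d ∣ N := dvd_of_hermite N A hN a d had
  have : NeZero d := ⟨hd.ne'⟩
  obtain ⟨c, hc, hc1, hc2⟩ := hasUExp_JA_upper N a d b ha hd hdN
  have e : uExp N ⟨JA A, JA_mem_Atil N A hA hN⟩ = c := by
    apply uExp_eq
    show HasUExp N (JA A : ℍ → ℂ) (coeffMap iotaC c)
    rw [hAδ, JA_mul_left δ _ hdetU]
    exact hc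
  rw [e]
  have hNd : 0 < N / d := Nat.div_pos (Nat.le_of_dvd (Nat.pos_of_ne_zero (NeZero.ne N)) hdN) hd
  have hM : (0 : ℤ) < ((N / d * a : ℕ) : ℤ) := by exact_mod_cast Nat.mul_pos hNd ha
  generalize ((N / d * a : ℕ) : ℤ) = M at hc1 hc2 hM
  have hlead : c.coeff (-M) ≠ 0 := by
    have h := hc1 (-1)
    rw [mul_neg_one] at h
    rw [h]
    refine mul_ne_zero (zpow_ne_zero _ (zetaK_ne_zero d)) ?_
    rw [jBar, coeffEmb_coeff, coeff_jq_neg_one, map_one]
    exact one_ne_zero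
  have hc0 : c ≠ 0 := fun h => hlead (by rw [h]; rfl)
  apply le_antisymm
  · exact HahnSeries.order_le_of_coeff_ne_zero hlead
  · rw [HahnSeries.le_order_iff_forall hc0]
    intro m hm
    by_cases hdiv : M ∣ m
    · obtain ⟨n, rfl⟩ := hdiv
      have hn : n < -1 := by
        by_contra hcon
        have : -M ≤ M * n := by nlinarith
        omega
      rw [hc1, jBar, coeffEmb_coeff, coeff_jq_of_lt hn, map_zero, mul_zero]
    · exact hc2 m hdiv

/-- An element of `Atil N` whose expansion has no negative terms is bounded at `∞`. -/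
theorem isBoundedAtImInfty_of_uExp (N : ℕ) [NeZero N] (f : Atil N)
    (h : ∀ n : ℤ, n < 0 → (uExp N f).coeff n = 0) :
    IsBoundedAtImInfty ((f : Hol) : ℍ → ℂ) :=
  (uExp_spec N f).isBoundedAtImInfty (fun n hn => by rw [coeffMap_coeff, h n hn, map_zero])

end Fermat.Agent.GTor.Clo
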