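import Fermat.Agent.GTor.Clo.Phi

/-!
# S24 construction, layer 6 (WP CLO-Val): the valuations of the Galois closure

* `wN N τ`  : order of vanishing at `τ ∈ ℍ`;
* `winfN N` : order at the cusp `∞` in `u = exp (2 π i τ / N)`.

(WP CLO-Val: `winfN` part by helper1, `wN` part by helper23.)
-/

set_option autoImplicit false

noncomputable section

namespace Fermat.Agent.GTor.Clo

open Fermat.Agent.S24

open ModularCurve UpperHalfPlane WithZero
open scoped MatrixGroups Manifold

/-- The inclusion `AT N → Hol`. -/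
def valAT (N : ℕ) : AT N →+* Hol := (Atil N).val.toRingHom.comp (toAT N).symm.toAlgHom.toRingHom

theorem valAT_injective (N : ℕ) : Function.Injective (valAT N) := by
  intro f g h
  have h' : ((toAT N).symm f : Hol) = ((toAT N).symm g : Hol) := h
  exact (toAT N).symm.injective (Subtype.ext h')

theorem valAT_smul (N : ℕ) (γ : SL(2, ℤ)) (f : AT N) : valAT N (γ • f) = γ • valAT N f := rfl

theorem valAT_algebraMap (N : ℕ) (c : Kbar) :
    valAT N (algebraMap Kbar (AT N) c) = algebraMap Kbar Hol c := rfl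

theorem valAT_jT_apply (N : ℕ) (τ : ℍ) : ((valAT N (jT N) : Hol) : ℍ → ℂ) τ = jAn τ := by
  show (((toAT N).symm (toAT N (jA N)) : Atil N) : ℍ → ℂ) τ = jAn τ
  rw [AlgEquiv.symm_apply_apply]
  exact jA_apply N τ

def wAT (N : ℕ) (τ : ℍ) : Valuation (AT N) ℤᵐ⁰ := (Hol.ordVal τ).comap (valAT N)

theorem wAT_apply (N : ℕ) (τ : ℍ) (f : AT N) : wAT N τ f = Hol.ordVal τ (valAT N f) := rfl

theorem wAT_ne_zero (N : ℕ) (τ : ℍ) {f : AT N} (hf : f ≠ 0) : wAT N τ f ≠ 0 := by
  rw [wAT_apply]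
  have h : valAT N f ≠ 0 := fun h0 => hf (valAT_injective N (by rw [h0, map_zero]))
  rw [Hol.ordVal_apply τ h]
  exact WithZero.exp_ne_zero

theorem nonZeroDivisors_le_wAT (N : ℕ) (τ : ℍ) :
    nonZeroDivisors (AT N) ≤ (wAT N τ).supp.primeCompl := by
  intro f hf
  have hf0 : f ≠ 0 := nonZeroDivisors.ne_zero hf
  show f ∉ (wAT N τ).supp
  rw [Valuation.mem_supp_iff]
  exact wAT_ne_zero N τ hf0

def wN (N : ℕ) (τ : ℍ) : Valuation (LN N) ℤᵐ⁰ :=
  (wAT N τ).extendToLocalization (nonZeroDivisors_le_wAT N τ) (LN N)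

theorem wN_algebraMap_AT (N : ℕ) (τ : ℍ) (f : AT N) :
    wN N τ (algebraMap (AT N) (LN N) f) = wAT N τ f :=
  Valuation.extendToLocalization_apply_map_apply _ _ _ f

theorem wN_algebraMap (N : ℕ) (τ : ℍ) (c : Kbar) (hc : c ≠ 0) :
    wN N τ (algebraMap Kbar (LN N) c) = 1 := by
  rw [IsScalarTower.algebraMap_apply Kbar (AT N) (LN N), wN_algebraMap_AT, wAT_apply]
  have h1 : valAT N (algebraMap Kbar (AT N) c) = algebraMap ℂ Hol (iotaC c) := rfl
  rw [h1]
  exact Hol.ordVal_algebraMap τ (by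
    intro h0
    exact hc (iotaC.injective (by rw [h0, map_zero])))

theorem wN_piN_AT (N : ℕ) [NeZero N] (τ : ℍ) (γ : SL(2, ℤ)) (f : AT N) :
    wN N τ (piN N γ (algebraMap (AT N) (LN N) f)) = wN N (γ⁻¹ • τ) (algebraMap (AT N) (LN N) f) := by
  rw [piN_algebraMap, wN_algebraMap_AT, wN_algebraMap_AT, wAT_apply, wAT_apply]
  exact Hol.ordVal_smul τ γ (valAT N f)

theorem wN_piN (N : ℕ) [NeZero N] (τ : ℍ) (γ : SL(2, ℤ)) (y : LN N) :
    wN N τ (piN N γ y) = wN N (γ⁻¹ • τ) y := by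
  obtain ⟨f, g, -, hy⟩ := IsFractionRing.div_surjective (A := AT N) y
  subst hy
  calc wN N τ (piN N γ (algebraMap (AT N) (LN N) f / algebraMap (AT N) (LN N) g))
      = wN N τ (piN N γ (algebraMap (AT N) (LN N) f) / piN N γ (algebraMap (AT N) (LN N) g)) :=
        congrArg _ (map_div₀ (piN N γ) _ _)
    _ = wN N τ (piN N γ (algebraMap (AT N) (LN N) f)) /
          wN N τ (piN N γ (algebraMap (AT N) (LN N) g)) := map_div₀ (wN N τ) _ _
    _ = wN N (γ⁻¹ • τ) (algebraMap (AT N) (LN N) f) /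
          wN N (γ⁻¹ • τ) (algebraMap (AT N) (LN N) g) :=
        congrArg₂ (· / ·) (wN_piN_AT N τ γ f) (wN_piN_AT N τ γ g)
    _ = wN N (γ⁻¹ • τ) (algebraMap (AT N) (LN N) f / algebraMap (AT N) (LN N) g) :=
        (map_div₀ (wN N (γ⁻¹ • τ)) _ _).symm

theorem valAT_j_sub_apply (N : ℕ) (a : Kbar) (z : ℍ) :
    ((valAT N (jT N - algebraMap Kbar (AT N) a) : Hol) : ℍ → ℂ) z = jAn z - iotaC a := by
  have h1 : valAT N (jT N - algebraMap Kbar (AT N) a)
      = valAT N (jT N) - valAT N (algebraMap Kbar (AT N) a) := RingHom.map_sub _ _ _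
  rw [h1]
  show ((valAT N (jT N) : Hol) : ℍ → ℂ) z - iotaC a = _
  rw [valAT_jT_apply]

theorem valAT_j_sub_ne_zero (N : ℕ) (a : Kbar) :
    valAT N (jT N - algebraMap Kbar (AT N) a) ≠ 0 := by
  intro h0
  obtain ⟨z, hz⟩ := jAn_surjective (iotaC a + 1)
  have := valAT_j_sub_apply N a z
  rw [h0, hz] at this
  have h2 : ((0 : Hol) : ℍ → ℂ) z = 0 := rfl
  rw [h2] at this
  simp at this

theorem wAT_j (N : ℕ) (τ : ℍ) (a : Kbar) (h : iotaC a = jAn τ) :
    wAT N τ (jT N - algebraMap Kbar (AT N) a) = exp (-(jOrd τ : ℤ)) := by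
  rw [wAT_apply, Hol.ordVal_apply τ (valAT_j_sub_ne_zero N a)]
  have key : Hol.ordNat τ (valAT N (jT N - algebraMap Kbar (AT N) a)) = jOrd τ := by
    unfold Hol.ordNat jOrd
    have hfun : (((valAT N (jT N - algebraMap Kbar (AT N) a) : Hol) : ℍ → ℂ) ∘ ofComplex)
        = fun z : ℂ => jAn (ofComplex z) - jAn τ := by
      funext z
      show ((valAT N (jT N - algebraMap Kbar (AT N) a) : Hol) : ℍ → ℂ) (ofComplex z) = _
      rw [valAT_j_sub_apply, h]
    rw [hfun]
  rw [key]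

theorem algebraMap_tE_sub (N : ℕ) [NeZero N] (a : Kbar) :
    algebraMap EN (LN N) (tE - algebraMap Kbar EN a)
      = algebraMap (AT N) (LN N) (jT N - algebraMap Kbar (AT N) a) := by
  have h1 : algebraMap EN (LN N) (tE - algebraMap Kbar EN a)
      = algebraMap EN (LN N) tE - algebraMap EN (LN N) (algebraMap Kbar EN a) :=
    RingHom.map_sub _ _ _
  have h2 : algebraMap (AT N) (LN N) (jT N - algebraMap Kbar (AT N) a)
      = algebraMap (AT N) (LN N) (jT N) - algebraMap (AT N) (LN N) (algebraMap Kbar (AT N) a) :=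
    RingHom.map_sub _ _ _
  have h3 : algebraMap EN (LN N) (algebraMap Kbar EN a) = algebraMap Kbar (LN N) a :=
    (IsScalarTower.algebraMap_apply Kbar EN (LN N) a).symm
  have h4 : algebraMap (AT N) (LN N) (algebraMap Kbar (AT N) a) = algebraMap Kbar (LN N) a :=
    (IsScalarTower.algebraMap_apply Kbar (AT N) (LN N) a).symm
  rw [h1, h2, h3, h4, tE_map_LN]

theorem wN_j (N : ℕ) [NeZero N] (τ : ℍ) (a : Kbar) (h : iotaC a = jAn τ) :
    wN N τ (algebraMap EN (LN N) (tE - algebraMap Kbar EN a)) = exp (-(jOrd τ : ℤ)) := by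
  rw [algebraMap_tE_sub, wN_algebraMap_AT]
  exact wAT_j N τ a h

/-- The order at the cusp `∞` (in `u = exp (2 π i τ / N)`), on the Galois closure. -/
def winfN (N : ℕ) [NeZero N] : Valuation (LN N) ℤᵐ⁰ :=
  (Valued.v : Valuation (LaurentSeries Kbar) ℤᵐ⁰).comap (UL N).toRingHom

theorem winfN_apply (N : ℕ) [NeZero N] (y : LN N) :
    winfN N y = (Valued.v : Valuation (LaurentSeries Kbar) ℤᵐ⁰) (UL N y) := rfl

/-- The valuation of a Laurent series with lowest term in degree `m`. -/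
theorem laurent_valuation_eq_of_coeff {K : Type*} [Field K] (f : LaurentSeries K) (m : ℤ)
    (hm : f.coeff m ≠ 0) (hlt : ∀ n : ℤ, n < m → f.coeff n = 0) :
    (Valued.v : Valuation (LaurentSeries K) ℤᵐ⁰) f = exp (-m) := by
  apply le_antisymm
  · exact (LaurentSeries.valuation_le_iff_coeff_lt_eq_zero K).mpr hlt
  · by_contra hcon
    rw [not_le] at hcon
    have hf0 : f ≠ 0 := fun h => hm (by rw [h]; rfl)
    have hv0 : (Valued.v : Valuation (LaurentSeries K) ℤᵐ⁰) f ≠ 0 :=
      (Valuation.ne_zero_iff _).mpr hf0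
    obtain ⟨a, ha⟩ : ∃ a : ℤ, (Valued.v : Valuation (LaurentSeries K) ℤᵐ⁰) f = exp a :=
      ⟨log _, (exp_log hv0).symm⟩
    rw [ha, exp_lt_exp] at hcon
    have h1 : (Valued.v : Valuation (LaurentSeries K) ℤᵐ⁰) f ≤ exp (-(m + 1)) := by
      rw [ha, exp_le_exp]
      omega
    exact hm ((LaurentSeries.valuation_le_iff_coeff_lt_eq_zero K).mp h1 m (by omega))

/-- Twisting by a nonzero scalar does not change the valuation. -/
theorem laurent_valuation_twist {K : Type*} [Field K] (z : K) (hz : z ≠ 0) (c : LaurentSeries K) :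
    (Valued.v : Valuation (LaurentSeries K) ℤᵐ⁰) (twist z c)
      = (Valued.v : Valuation (LaurentSeries K) ℤᵐ⁰) c := by
  by_cases hc : c = 0
  · have : twist z c = 0 := by
      ext n
      rw [twist_coeff, hc]
      simp
    rw [this, hc]
  have hm : c.coeff c.order ≠ 0 := fun h => hc (HahnSeries.coeff_order_eq_zero.mp h)
  have hlt : ∀ n : ℤ, n < c.order → c.coeff n = 0 :=
    fun n hn => HahnSeries.coeff_eq_zero_of_lt_order hn
  rw [laurent_valuation_eq_of_coeff c c.order hm hlt,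
    laurent_valuation_eq_of_coeff (twist z c) c.order
      (by rw [twist_coeff]; exact mul_ne_zero (zpow_ne_zero _ hz) hm)
      (fun n hn => by rw [twist_coeff, hlt n hn, mul_zero])]

theorem winfN_algebraMap (N : ℕ) [NeZero N] (c : Kbar) (hc : c ≠ 0) :
    winfN N (algebraMap Kbar (LN N) c) = 1 := by
  rw [winfN_apply, AlgHom.commutes, algebraMap_laurentSeries_eq_single,
    laurent_valuation_eq_of_coeff _ 0 (by rw [HahnSeries.coeff_single_same]; exact hc)
      (fun n hn => HahnSeries.coeff_single_of_ne hn.ne)]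
  simp

theorem winfN_piN_T_algebraMap (N : ℕ) [NeZero N] (f : AT N) :
    winfN N (piN N ModularGroup.T (algebraMap (AT N) (LN N) f))
      = winfN N (algebraMap (AT N) (LN N) f) := by
  rw [piN_algebraMap, winfN_apply, winfN_apply, UL_algebraMap, UL_algebraMap]
  have h := uExp_T_smul N ((toAT N).symm f)
  have e : uExpT N (ModularGroup.T • f) = twist (zetaK N)⁻¹ (uExpT N f) := h
  rw [e, laurent_valuation_twist _ (inv_ne_zero (zetaK_ne_zero N))]

theorem winfN_piN_T (N : ℕ) [NeZero N] (y : LN N) :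
    winfN N (piN N ModularGroup.T y) = winfN N y := by
  obtain ⟨a, b, hb, rfl⟩ := IsFractionRing.div_surjective (A := AT N) y
  rw [map_div₀, map_div₀, map_div₀, winfN_piN_T_algebraMap, winfN_piN_T_algebraMap]

theorem winfN_j (N : ℕ) [NeZero N] :
    winfN N (algebraMap EN (LN N) tE⁻¹) = exp (-(N : ℤ)) := by
  rw [map_inv₀, map_inv₀, tE_map_LN, winfN_apply, UL_algebraMap]
  have e : uExpT N (jT N) = qExpand Kbar N jBar := uExp_jA N
  rw [e, laurent_valuation_eq_of_coeff (qExpand Kbar N jBar) (-(N : ℤ)) ?_ ?_, neg_neg, exp_neg]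
  · have h := qExpand_coeff_mul (R := Kbar) N jBar (-1)
    rw [mul_neg_one] at h
    rw [h, jBar, coeffEmb_coeff, coeff_jq_neg_one, map_one]
    exact one_ne_zero
  · intro n hn
    by_cases hdiv : (N : ℤ) ∣ n
    · obtain ⟨k, rfl⟩ := hdiv
      have hN : (0 : ℤ) < N := by exact_mod_cast Nat.pos_of_ne_zero (NeZero.ne N)
      have hk : k < -1 := by
        by_contra hcon
        have : -(N : ℤ) ≤ N * k := by nlinarith
        omega
      rw [qExpand_coeff_mul, jBar, coeffEmb_coeff, coeff_jq_of_lt hk, map_zero]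
    · exact qExpand_coeff_of_not_dvd N _ hdiv

end Fermat.Agent.GTor.Clo
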